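import Mathlib

/-!
# S34 / CartPair: the base ring `R = O[X]` localised at `1 + π O[X]`  (helper73)

Mathlib only.  `O` a DVR with uniformiser `π`, `E = Frac O`.  For an ideal `I` of a ring `A`,
`oneAdd I` is the multiplicative set `1 + I`; for any localisation `R` of `A` at `1 + I`:

* `map_le_jacobson` : `I R ⊆ Jac R`;
* `quotEquiv` : `R ⧸ I R ≃+* A ⧸ I`.

For `A = O[X]`, `I = (π)`, `Mπ π = 1 + π O[X]` and any `R` with `[IsLocalization (Mπ π) R]`:

* `isDomain`, `isNoetherianRing`, `uniqueFactorizationMonoid`, `isIntegrallyClosed`,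
  `algebraMap_injective`;
* `prime_piR`, `piR_mem_jacobson` : `π` is a prime element of `R` lying in the Jacobson radical;
* `quotPiEquiv : R ⧸ (π) ≃+* (O ⧸ (π))[X]`, `isDomain_quot`, `isPrincipalIdealRing_quot`;
* `exists_mul_eq`, `algebraMap_dvd_iff` : fractions and divisibility in `R`;
* `exists_horizontal` : a prime element of `R` not associated to `π` is associated to a primitive
  `f ∈ O[X]`, irreducible in `E[X]`, and `q ∣ s` in `R` iff `f ∣ s` in `E[X]` (`s ∈ O[X]`).

(Same ring theory as `CartPair/LocOne` part (R), specialised to `P = O[X]`, plus the Gauss bridge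
to the irreducible polynomials of `E[X]` at which `Model.LocPow` is stated.)
-/

set_option autoImplicit false
set_option linter.unusedSectionVars false
set_option linter.style.haveILetI false

namespace Fermat.Agent.S34.CartPair.BaseRing

open Polynomial

section General

variable {A : Type*} [CommRing A] (I : Ideal A)

/-- The multiplicative set `1 + I`. -/
def oneAdd : Submonoid A where
  carrier := {s | s - 1 ∈ I}
  one_mem' := by simp
  mul_mem' := by
    intro s t hs ht
    have h : s * t - 1 = s * (t - 1) + (s - 1) := by ring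
    simp only [Set.mem_ofPred_eq] at hs ht ⊢
    rw [h]
    exact I.add_mem (I.mul_mem_left _ ht) hs

theorem mem_oneAdd {s : A} : s ∈ oneAdd I ↔ s - 1 ∈ I := Iff.rfl

theorem add_mem_oneAdd {a s : A} (ha : a ∈ I) (hs : s ∈ oneAdd I) : a + s ∈ oneAdd I := by
  rw [mem_oneAdd] at hs ⊢
  have h : a + s - 1 = a + (s - 1) := by ring
  rw [h]
  exact I.add_mem ha hs

theorem mk_eq_one_of_mem_oneAdd {s : A} (hs : s ∈ oneAdd I) : Ideal.Quotient.mk I s = 1 := by
  rw [← map_one (Ideal.Quotient.mk I), Ideal.Quotient.eq]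
  exact hs

variable (R : Type*) [CommRing R] [Algebra A R] [IsLocalization (oneAdd I) R]

/-- `I R` is contained in the Jacobson radical of the localisation at `1 + I`. -/
theorem map_le_jacobson : I.map (algebraMap A R) ≤ (⊥ : Ideal R).jacobson := by
  intro x hx
  rw [Ideal.mem_jacobson_bot]
  intro y
  have hxy : x * y ∈ I.map (algebraMap A R) := Ideal.mul_mem_right _ _ hx
  obtain ⟨⟨a, s⟩, h⟩ := (IsLocalization.mem_map_algebraMap_iff (oneAdd I) R).mp hxy
  have hu : IsUnit (algebraMap A R ((a : A) + (s : A))) :=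
    IsLocalization.map_units R (⟨(a : A) + (s : A), add_mem_oneAdd I a.2 s.2⟩ : oneAdd I)
  have hs : IsUnit (algebraMap A R (s : A)) := IsLocalization.map_units R s
  have e : (x * y + 1) * algebraMap A R (s : A) = algebraMap A R ((a : A) + (s : A)) := by
    rw [add_mul, one_mul, h, map_add]
  have h2 : IsUnit ((x * y + 1) * algebraMap A R (s : A)) := e ▸ hu
  exact (IsUnit.mul_iff.mp h2).1

/-- The map `R → A ⧸ I`. -/
noncomputable def toQuot : R →+* A ⧸ I :=
  IsLocalization.lift (M := oneAdd I) (g := Ideal.Quotient.mk I) (fun y => by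
    rw [mk_eq_one_of_mem_oneAdd I y.2]; exact isUnit_one)

theorem toQuot_algebraMap (a : A) : toQuot I R (algebraMap A R a) = Ideal.Quotient.mk I a :=
  IsLocalization.lift_eq _ a

theorem toQuot_eq_zero {r : R} (hr : r ∈ I.map (algebraMap A R)) : toQuot I R r = 0 := by
  have hle : I.map (algebraMap A R) ≤ RingHom.ker (toQuot I R) := by
    rw [Ideal.map_le_iff_le_comap]
    intro a ha
    rw [Ideal.mem_comap, RingHom.mem_ker, toQuot_algebraMap]
    exact Ideal.Quotient.eq_zero_iff_mem.mpr ha
  exact RingHom.mem_ker.mp (hle hr)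

/-- `R ⧸ I R ≃ A ⧸ I` for the localisation `R` of `A` at `1 + I`. -/
noncomputable def quotEquiv : (R ⧸ I.map (algebraMap A R)) ≃+* (A ⧸ I) :=
  RingEquiv.ofRingHom
    (Ideal.Quotient.lift (I.map (algebraMap A R)) (toQuot I R) (fun _ hr => toQuot_eq_zero I R hr))
    (Ideal.quotientMap (I.map (algebraMap A R)) (algebraMap A R) Ideal.le_comap_map)
    (by
      apply Ideal.Quotient.ringHom_ext
      ext a
      have e : (Ideal.quotientMap (I.map (algebraMap A R)) (algebraMap A R) Ideal.le_comap_map)
          (Ideal.Quotient.mk I a) = Ideal.Quotient.mk _ (algebraMap A R a) :=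
        Ideal.quotientMap_mk
      simp only [RingHom.comp_apply, RingHom.id_apply]
      rw [e, Ideal.Quotient.lift_mk, toQuot_algebraMap])
    (by
      apply Ideal.Quotient.ringHom_ext
      apply IsLocalization.ringHom_ext (oneAdd I)
      ext a
      simp only [RingHom.comp_apply, RingHom.id_apply]
      rw [Ideal.Quotient.lift_mk, toQuot_algebraMap]
      exact Ideal.quotientMap_mk)

theorem quotEquiv_mk (r : R) :
    quotEquiv I R (Ideal.Quotient.mk _ r) = toQuot I R r := rfl

theorem quotEquiv_symm_mk (a : A) :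
    (quotEquiv I R).symm (Ideal.Quotient.mk I a) =
      Ideal.Quotient.mk (I.map (algebraMap A R)) (algebraMap A R a) :=
  rfl

end General

section Poly

variable {O : Type*} [CommRing O] [IsDomain O] [IsDiscreteValuationRing O]
variable (π : O)

/-- The multiplicative set `1 + π O[X]`. -/
noncomputable abbrev Mπ : Submonoid O[X] := oneAdd (Ideal.span {(C π : O[X])})

theorem mem_Mπ {s : O[X]} : s ∈ Mπ π ↔ C π ∣ s - 1 := by
  rw [mem_oneAdd, Ideal.mem_span_singleton]

theorem Mπ_le_nonZeroDivisors (hπ : ¬ IsUnit π) : Mπ π ≤ nonZeroDivisors O[X] := by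
  intro s hs
  refine mem_nonZeroDivisors_of_ne_zero ?_
  rintro rfl
  rw [mem_Mπ, zero_sub, dvd_neg] at hs
  exact hπ (Polynomial.isUnit_C.mp (isUnit_of_dvd_one hs))

variable (R : Type*) [CommRing R] [Algebra O[X] R] [IsLocalization (Mπ π) R]

/-- The image of `π` in `R`. -/
noncomputable abbrev piR : R := algebraMap O[X] R (C π)

include π in
theorem isDomain (hπ : ¬ IsUnit π) : IsDomain R :=
  IsLocalization.isDomain_of_le_nonZeroDivisors R (Mπ_le_nonZeroDivisors π hπ)

include π in
theorem algebraMap_injective (hπ : ¬ IsUnit π) : Function.Injective (algebraMap O[X] R) :=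
  IsLocalization.injective R (Mπ_le_nonZeroDivisors π hπ)

include π in
theorem isNoetherianRing : IsNoetherianRing R :=
  IsLocalization.isNoetherianRing (Mπ π) R inferInstance

include π in
theorem uniqueFactorizationMonoid : UniqueFactorizationMonoid R :=
  UniqueFactorizationMonoid.of_isLocalization (S := Mπ π) (N := R)

theorem span_piR :
    Ideal.span {piR π R} = (Ideal.span {(C π : O[X])}).map (algebraMap O[X] R) := by
  rw [Ideal.map_span, Set.image_singleton]

theorem piR_mem_jacobson : piR π R ∈ (⊥ : Ideal R).jacobson :=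
  map_le_jacobson (Ideal.span {(C π : O[X])}) R
    (Ideal.mem_map_of_mem _ (Ideal.mem_span_singleton_self _))

include π in
theorem isIntegrallyClosed (hπ : ¬ IsUnit π) : IsIntegrallyClosed R := by
  haveI := isDomain π R hπ
  haveI := uniqueFactorizationMonoid π R
  infer_instance

/-- `R ⧸ (π) ≃ (O ⧸ (π))[X]`. -/
noncomputable def quotPiEquiv : (R ⧸ Ideal.span {piR π R}) ≃+* (O ⧸ Ideal.span {π})[X] :=
  ((Ideal.quotEquivOfEq (span_piR π R)).trans (quotEquiv (Ideal.span {(C π : O[X])}) R)).trans
    ((Ideal.quotEquivOfEq (by rw [Ideal.map_span, Set.image_singleton])).trans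
      (Ideal.polynomialQuotientEquivQuotientPolynomial (Ideal.span {π})).symm)

theorem isMaximal_span (hπ : Irreducible π) : (Ideal.span {π}).IsMaximal := by
  rw [← hπ.maximalIdeal_eq]
  infer_instance

theorem isDomain_quot (hπ : Irreducible π) : IsDomain (R ⧸ Ideal.span {piR π R}) := by
  haveI := isMaximal_span π hπ
  letI := Ideal.Quotient.field (Ideal.span {π})
  exact MulEquiv.isDomain _ (quotPiEquiv π R).toMulEquiv

theorem isPrincipalIdealRing_quot (hπ : Irreducible π) :
    IsPrincipalIdealRing (R ⧸ Ideal.span {piR π R}) := by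
  haveI := isMaximal_span π hπ
  letI := Ideal.Quotient.field (Ideal.span {π})
  exact IsPrincipalIdealRing.of_surjective (quotPiEquiv π R).symm.toRingHom
    (quotPiEquiv π R).symm.surjective

theorem piR_ne_zero (hπ : Irreducible π) : piR π R ≠ 0 := by
  rw [Ne, map_eq_zero_iff _ (algebraMap_injective π R hπ.not_isUnit), C_eq_zero]
  exact hπ.ne_zero

theorem prime_piR (hπ : Irreducible π) : Prime (piR π R) := by
  rw [← Ideal.span_singleton_prime (piR_ne_zero π R hπ), ← Ideal.Quotient.isDomain_iff_prime]
  exact isDomain_quot π R hπ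

omit [IsDiscreteValuationRing O] in
theorem irreducible_of_irreducible_C {c : O} (h : Irreducible (C c : O[X])) : Irreducible c := by
  refine ⟨fun hu => h.not_isUnit (Polynomial.isUnit_C.mpr hu), fun a b hab => ?_⟩
  have h1 : (C c : O[X]) = C a * C b := by rw [hab, C_mul]
  rcases h.isUnit_or_isUnit h1 with h2 | h2
  · exact Or.inl (Polynomial.isUnit_C.mp h2)
  · exact Or.inr (Polynomial.isUnit_C.mp h2)

/-- Every element of `R` is a fraction with denominator in `1 + π O[X]`. -/
theorem exists_mul_eq (r : R) :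
    ∃ (a s : O[X]), s ∈ Mπ π ∧ r * algebraMap O[X] R s = algebraMap O[X] R a := by
  obtain ⟨⟨a, s⟩, h⟩ := IsLocalization.surj (Mπ π) r
  exact ⟨a, s, s.2, h⟩

theorem isUnit_algebraMap_of_mem {s : O[X]} (hs : s ∈ Mπ π) : IsUnit (algebraMap O[X] R s) :=
  IsLocalization.map_units R (⟨s, hs⟩ : Mπ π)

/-- Divisibility in `R` of images of polynomials: `f ∣ s` in `R` iff `f ∣ s t` for some
`t ∈ 1 + π O[X]`. -/
theorem algebraMap_dvd_iff (hπ : ¬ IsUnit π) (f s : O[X]) :
    algebraMap O[X] R f ∣ algebraMap O[X] R s ↔ ∃ t ∈ Mπ π, f ∣ s * t := by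
  constructor
  · rintro ⟨r, hr⟩
    obtain ⟨b, t, ht, hb⟩ := exists_mul_eq π R r
    refine ⟨t, ht, b, ?_⟩
    apply algebraMap_injective π R hπ
    rw [map_mul, map_mul, hr, mul_assoc, hb]
  · rintro ⟨t, ht, b, hb⟩
    have h1 : algebraMap O[X] R s * algebraMap O[X] R t =
        algebraMap O[X] R f * algebraMap O[X] R b := by
      rw [← map_mul, ← map_mul, hb]
    have h2 : algebraMap O[X] R f ∣ algebraMap O[X] R s * algebraMap O[X] R t := ⟨_, h1⟩
    exact (isUnit_algebraMap_of_mem π R ht).dvd_mul_right.mp h2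

/-- **Horizontal primes.**  A prime element of `R` which is not associated to `π` is associated
to a primitive polynomial `f ∈ O[X]` which is irreducible over the fraction field `E`, and
divisibility by it is divisibility by `f` in `E[X]`. -/
theorem exists_horizontal (hπ : Irreducible π) (E : Type*) [Field E] [Algebra O E]
    [IsFractionRing O E] (q : R) (hq : Prime q) (hne : ¬ Associated q (piR π R)) :
    ∃ f : O[X], f.IsPrimitive ∧ Irreducible f ∧ Irreducible (f.map (algebraMap O E)) ∧
      Associated q (algebraMap O[X] R f) ∧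
      ∀ s : O[X], q ∣ algebraMap O[X] R s ↔ f.map (algebraMap O E) ∣ s.map (algebraMap O E) := by
  classical
  haveI := isDomain π R hπ.not_isUnit
  obtain ⟨a, s, hs, has⟩ := exists_mul_eq π R q
  have hsu := isUnit_algebraMap_of_mem π R hs
  have hqa : Associated q (algebraMap O[X] R a) := by
    rw [← has]
    exact associated_mul_unit_right q _ hsu
  have hairr : Irreducible (algebraMap O[X] R a) := (hqa.prime hq).irreducible
  obtain ⟨u, f, hu, hf, rfl⟩ :=
    (IsLocalization.toLocalizationMap (Mπ π) R).eq_isUnit_map_mul_irreducible_of_irreducible_map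
      (m := a) hairr
  have hu' : IsUnit (algebraMap O[X] R u) := hu
  have hqf : Associated q (algebraMap O[X] R f) := by
    refine hqa.trans ?_
    rw [map_mul]
    exact associated_unit_mul_left _ _ hu'
  have hfprime : Prime f := hf.prime
  have hdeg : f.natDegree ≠ 0 := by
    intro h0
    obtain ⟨c, rfl⟩ : ∃ c : O, f = C c := ⟨f.coeff 0, eq_C_of_natDegree_eq_zero h0⟩
    have hc : Irreducible c := irreducible_of_irreducible_C hf
    have h1 : Associated c π := IsDiscreteValuationRing.associated_of_irreducible O hc hπ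
    have h2 : Associated (algebraMap O[X] R (C c)) (piR π R) :=
      (h1.map (C : O →+* O[X])).map (algebraMap O[X] R)
    exact hne (hqf.trans h2)
  have hprim : f.IsPrimitive := hf.isPrimitive hdeg
  have hfE : Irreducible (f.map (algebraMap O E)) :=
    (hprim.irreducible_iff_irreducible_map_fraction_map).mp hf
  refine ⟨f, hprim, hf, hfE, hqf, fun s => ?_⟩
  rw [hqf.dvd_iff_dvd_left, algebraMap_dvd_iff π R hπ.not_isUnit]
  constructor
  · rintro ⟨t, ht, hdvd⟩
    rcases hfprime.dvd_or_dvd hdvd with h | h
    · exact Polynomial.map_dvd _ h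
    · exfalso
      have h1 : algebraMap O[X] R f ∣ algebraMap O[X] R t := map_dvd _ h
      have h2 : IsUnit (algebraMap O[X] R f) :=
        isUnit_of_dvd_unit h1 (isUnit_algebraMap_of_mem π R ht)
      exact (hqf.prime hq).not_isUnit h2
  · intro h
    exact ⟨1, Submonoid.one_mem _, by
      rw [mul_one]; exact hprim.dvd_of_fraction_map_dvd_fraction_map h⟩

end Poly

end Fermat.Agent.S34.CartPair.BaseRing
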