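import Fermat.Agent.S34.CartPair.Glob

/-!
# S34 / CartPair: the chart-level exit, adapter for the localised form of Theorem 1

`LocNodalStatement` is the shape of `CartPair/LocNodal.lean` (Theorem 1 over `P = O[t]`, proved
through the localisation at `1 + π P`): `∃ s ∈ 1 + π P, s • (b b') ∈ A A'`.  It implies the shape
`LocalStatement` consumed by `Glob.cartierRoot_of_local`, hence the chart-level exit
`cartierRoot_of_locNodal`.
-/

set_option autoImplicit false

open Fermat.Agent.S30.Model Fermat.Agent.S30.Model.GlueChart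

namespace Fermat.Agent.S34.CartPair

universe v

/-- Theorem 1 of the CartPair note over `P = O[t]`, in the form produced by the localisation at
`1 + π P`: `s • (b b') ∈ A A'` for some `s ≡ 1` modulo `π`. -/
def LocNodalStatement : Prop :=
  ∀ (P B : Type v) [CommRing P] [IsDomain P] [IsNoetherianRing P] [UniqueFactorizationMonoid P]
    [CommRing B] [IsDomain B] [IsIntegrallyClosed B] [Algebra P B] [FaithfulSMul P B]
    [Module.Finite P B] (π : P) (_ : Prime π) [IsPrincipalIdealRing (P ⧸ Ideal.span {π})]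
    (p1 p2 : Ideal B) [p1.IsPrime] [p2.IsPrime]
    (_ : p1 ⊓ p2 = Ideal.span {algebraMap P B π})
    [IsIntegrallyClosed (B ⧸ p1)] [IsIntegrallyClosed (B ⧸ p2)] (_ : (p1 ⊔ p2).IsRadical)
    (b b' : B) (_ : b ∉ p1) (_ : b ∉ p2) (_ : algebraMap P B π ∣ b' - b) (m : ℕ) (_ : m ≠ 0)
    (_ : ∀ q : P, Prime q → ¬ Associated q π →
      ∃ x ∈ rootIdeal (b * b' ^ (m - 1)) m, ∃ x' ∈ rootIdeal (b ^ (m - 1) * b') m, ∃ s : P,
        ¬ q ∣ s ∧ x * x' = b * b' * algebraMap P B s),
    ∃ s : P, π ∣ s - 1 ∧
      s • (b * b') ∈ rootIdeal (b * b' ^ (m - 1)) m * rootIdeal (b ^ (m - 1) * b') m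

theorem localStatement_of_locNodal (H : LocNodalStatement.{v}) : LocalStatement.{v} := by
  intro P B _ _ _ _ _ _ _ _ _ _ π hπ _ p1 p2 _ _ h12 _ _ hrad b b' hb1 hb2 hbb' m hm hcodim
  obtain ⟨s, ⟨c, hc⟩, hs⟩ := H P B π hπ p1 p2 h12 hrad b b' hb1 hb2 hbb' m hm hcodim
  have h1 : b * b' = s • (b * b') + algebraMap P B π * (-(algebraMap P B c * (b * b'))) := by
    have h2 : algebraMap P B s = 1 + algebraMap P B π * algebraMap P B c := by
      rw [← map_mul, ← hc, map_sub, map_one]
      ring
    rw [Algebra.smul_def, h2]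
    ring
  rw [h1]
  exact Submodule.add_mem_sup hs (Ideal.mul_mem_right _ _ (Ideal.mem_span_singleton_self _))

section Exit

open Fermat.Agent.S34.Nodal

variable {O E : Type*} {L : Type v} [CommRing O] [IsDomain O] [IsDiscreteValuationRing O]
  [Field E] [CharZero E] [Algebra O E] [IsFractionRing O E]
  [Field L] [Algebra E L] [Algebra O L] [IsScalarTower O E L]

/-- **Chart-level exit of CartPair**, from the localised form of Theorem 1. -/
theorem cartierRoot_of_locNodal (H : LocNodalStatement.{v}) (π : O) (hπ : Irreducible π) (t : L)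
    (ht : Transcendental E t) [FiniteDimensional (IntermediateField.adjoin E {t}) L]
    {p₁ p₂ : Ideal (Chart O t)} (hN : IsNodalChart π t p₁ p₂)
    (m : ℕ) (hm : IsUnit (m : O))
    (h : L) (h₁ : CongrOneAtChart p₁ h) (h₂ : CongrOneAtChart p₂ h)
    (hdiv : LocPow (E := E) m t h) :
    ToricInertia.CartierRoot O ({t} : Set L) m h :=
  cartierRoot_of_local (localStatement_of_locNodal H) π hπ t ht hN m hm h h₁ h₂ hdiv

end Exit

end Fermat.Agent.S34.CartPair
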