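import Mathlib

/-!
# S34 / CartPair, sec. 0: the two root ideals of a toric function

`B` an integrally closed domain, `m ≠ 0`.  For `e : B` the set `{x | e ∣ x ^ m}` is an ideal
(`rootIdeal e m`).  For `h = b' / b` the two ideals

* `A  = rootIdeal (b * b' ^ (m - 1)) m  =  b' • {c | c ^ m * h ∈ B}`,
* `A' = rootIdeal (b ^ (m - 1) * b') m  =  b  • {c' | c' ^ m / h ∈ B}`

satisfy

* (P1) `A ^ m ≤ (b * b' ^ (m - 1))`, (P1') `A' ^ m ≤ (b ^ (m - 1) * b')`,
* (P2) `A * A' ≤ (b * b')`,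
* `b * b' ∈ A`, `b * b' ∈ A'`,
* (Sat) `π * x ∈ A → x ∈ A` if `e` is regular modulo `π`,

and `(1/m) div h` is Cartier (a partition of unity `∑ cᵢ c'ᵢ = 1`, `cᵢ ^ m / h`, `c'ᵢ ^ m * h`
integral) as soon as `b * b' ∈ A * A'` (`exists_partition`).  `mem_of_mem_sup_span` lifts
`b * b' ∈ A * A' + (π)` to `b * b' ∈ A * A'` when `π` is in the Jacobson radical.
-/

set_option autoImplicit false

namespace Fermat.Agent.S34.CartPair

section Def

variable {B : Type*} [CommRing B]

/-- The ideal generated by `{x | e ∣ x ^ m}`; in an integrally closed domain (and `m ≠ 0`) this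
set is already an ideal, see `mem_rootIdeal`. -/
def rootIdeal (e : B) (m : ℕ) : Ideal B := Ideal.span {x | e ∣ x ^ m}

theorem mem_rootIdeal_of_dvd {e : B} {m : ℕ} {x : B} (h : e ∣ x ^ m) : x ∈ rootIdeal e m :=
  Ideal.subset_span h

end Def

section Ideals

variable {B : Type*} [CommRing B] [IsDomain B] [IsIntegrallyClosed B]

/-- In an integrally closed domain, `e ∣ x ^ m` and `e ∣ y ^ m` imply `e ∣ x ^ i * y ^ j`
for `i + j = m`. -/
theorem dvd_pow_mul_pow {e x y : B} {m : ℕ} (hm : m ≠ 0) (hx : e ∣ x ^ m) (hy : e ∣ y ^ m)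
    {i j : ℕ} (hij : i + j = m) : e ∣ x ^ i * y ^ j := by
  rw [← IsIntegrallyClosed.pow_dvd_pow_iff hm]
  have h1 : (x ^ i * y ^ j) ^ m = (x ^ m) ^ i * (y ^ m) ^ j := by ring
  have h2 : e ^ m = e ^ i * e ^ j := by rw [← pow_add, hij]
  rw [h1, h2]
  exact mul_dvd_mul (pow_dvd_pow_of_dvd hx i) (pow_dvd_pow_of_dvd hy j)

/-- `{x | e ∣ x ^ m}` is an ideal. -/
theorem mem_rootIdeal {e : B} {m : ℕ} (hm : m ≠ 0) {x : B} :
    x ∈ rootIdeal e m ↔ e ∣ x ^ m := by
  constructor
  · intro hx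
    unfold rootIdeal at hx
    induction hx using Submodule.span_induction with
    | mem x hx => exact hx
    | zero => simp [zero_pow hm]
    | add x y _ _ hx hy =>
      rw [add_pow]
      refine Finset.dvd_sum fun i hi => ?_
      have hi' : i ≤ m := Nat.lt_succ_iff.mp (Finset.mem_range.mp hi)
      exact Dvd.dvd.mul_right (dvd_pow_mul_pow hm hx hy (by omega)) _
    | smul a x _ hx =>
      rw [smul_eq_mul, mul_pow]
      exact Dvd.dvd.mul_left hx _
  · exact mem_rootIdeal_of_dvd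

theorem rootIdeal_mul_le (e e' : B) {m : ℕ} (hm : m ≠ 0) :
    rootIdeal e m * rootIdeal e' m ≤ rootIdeal (e * e') m := by
  rw [Ideal.mul_le]
  intro x hx y hy
  rw [mem_rootIdeal hm] at hx hy ⊢
  rw [mul_pow]
  exact mul_dvd_mul hx hy

theorem rootIdeal_pow_self (c : B) {m : ℕ} (hm : m ≠ 0) :
    rootIdeal (c ^ m) m = Ideal.span {c} := by
  ext x
  rw [mem_rootIdeal hm, IsIntegrallyClosed.pow_dvd_pow_iff hm, Ideal.mem_span_singleton]

theorem rootIdeal_pow_le (e : B) {m : ℕ} (hm : m ≠ 0) (k : ℕ) :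
    rootIdeal e m ^ k ≤ rootIdeal (e ^ k) m := by
  induction k with
  | zero =>
    intro x _
    rw [mem_rootIdeal hm, pow_zero]
    exact one_dvd _
  | succ k ih =>
    rw [pow_succ, pow_succ]
    exact (Ideal.mul_mono_left ih).trans (rootIdeal_mul_le _ _ hm)

/-- **(P1)**: a product of `m` elements of `rootIdeal e m` is divisible by `e`. -/
theorem rootIdeal_pow_le_span (e : B) {m : ℕ} (hm : m ≠ 0) :
    rootIdeal e m ^ m ≤ Ideal.span {e} :=
  (rootIdeal_pow_le e hm m).trans (rootIdeal_pow_self e hm).le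

/-- Elementwise (P1). -/
theorem dvd_pow_of_mem_rootIdeal {e : B} {m : ℕ} (hm : m ≠ 0) {x : B} (hx : x ∈ rootIdeal e m) :
    e ∣ x ^ m :=
  (mem_rootIdeal hm).mp hx

omit [IsDomain B] [IsIntegrallyClosed B] in
theorem mul_pow_eq (b b' : B) {m : ℕ} (hm : m ≠ 0) :
    (b * b' ^ (m - 1)) * (b ^ (m - 1) * b') = (b * b') ^ m := by
  obtain ⟨k, rfl⟩ := Nat.exists_eq_succ_of_ne_zero hm
  rw [Nat.succ_sub_one, mul_pow, pow_succ, pow_succ]
  ring

/-- **(P2)**: `A * A' ≤ (b * b')`. -/
theorem rootIdeal_mul_rootIdeal_le (b b' : B) {m : ℕ} (hm : m ≠ 0) :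
    rootIdeal (b * b' ^ (m - 1)) m * rootIdeal (b ^ (m - 1) * b') m ≤ Ideal.span {b * b'} := by
  refine (rootIdeal_mul_le _ _ hm).trans ?_
  rw [mul_pow_eq b b' hm, rootIdeal_pow_self _ hm]

theorem mul_mem_rootIdeal_left (b b' : B) {m : ℕ} (hm : m ≠ 0) :
    b * b' ∈ rootIdeal (b * b' ^ (m - 1)) m := by
  rw [mem_rootIdeal hm, ← mul_pow_eq b b' hm]
  exact dvd_mul_right _ _

theorem mul_mem_rootIdeal_right (b b' : B) {m : ℕ} (hm : m ≠ 0) :
    b * b' ∈ rootIdeal (b ^ (m - 1) * b') m := by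
  rw [mem_rootIdeal hm, ← mul_pow_eq b b' hm]
  exact dvd_mul_left _ _

omit [IsIntegrallyClosed B] in
/-- If `e` is regular modulo `π ≠ 0` then `π ^ k * y = e * z` forces `e ∣ y`. -/
theorem dvd_of_pow_mul_eq {π e : B} (hπ : π ≠ 0) (hreg : ∀ z : B, π ∣ e * z → π ∣ z) (k : ℕ) :
    ∀ y z : B, π ^ k * y = e * z → e ∣ y := by
  induction k with
  | zero =>
    intro y z h
    rw [pow_zero, one_mul] at h
    exact ⟨z, h⟩
  | succ k ih =>
    intro y z h
    obtain ⟨z', rfl⟩ := hreg z ⟨π ^ k * y, by rw [← h, pow_succ]; ring⟩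
    refine ih y z' (mul_left_cancel₀ hπ ?_)
    rw [← mul_assoc, ← pow_succ', h]
    ring

/-- **(Sat)**: `rootIdeal e m` is saturated with respect to `π` when `e` is regular modulo
`π`. -/
theorem mem_rootIdeal_of_mul_mem {π e : B} (hπ : π ≠ 0) (hreg : ∀ z : B, π ∣ e * z → π ∣ z)
    {m : ℕ} (hm : m ≠ 0) {x : B} (h : π * x ∈ rootIdeal e m) : x ∈ rootIdeal e m := by
  rw [mem_rootIdeal hm] at h ⊢
  obtain ⟨z, hz⟩ := h
  rw [mul_pow] at hz
  exact dvd_of_pow_mul_eq hπ hreg m _ z hz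

/-- (P1) for the image under a ring homomorphism. -/
theorem map_rootIdeal_pow_le {C : Type*} [CommRing C] (f : B →+* C) (e : B) {m : ℕ}
    (hm : m ≠ 0) : (rootIdeal e m).map f ^ m ≤ Ideal.span {f e} := by
  rw [← Ideal.map_pow]
  refine (Ideal.map_mono (rootIdeal_pow_le_span e hm)).trans ?_
  rw [Ideal.map_span, Set.image_singleton]

/-- (P2) for the images under a ring homomorphism. -/
theorem map_rootIdeal_mul_le {C : Type*} [CommRing C] (f : B →+* C) (b b' : B) {m : ℕ}
    (hm : m ≠ 0) :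
    (rootIdeal (b * b' ^ (m - 1)) m).map f * (rootIdeal (b ^ (m - 1) * b') m).map f ≤
      Ideal.span {f b * f b'} := by
  rw [← Ideal.map_mul]
  refine (Ideal.map_mono (rootIdeal_mul_rootIdeal_le b b' hm)).trans ?_
  rw [Ideal.map_span, Set.image_singleton, map_mul]

end Ideals

section Lift

variable {B : Type*} [CommRing B]

/-- **Lifting along the Jacobson radical.**  If `J ≤ (c)`, `c` is regular modulo `π`, `π` lies
in the Jacobson radical and `c ∈ J + (π)`, then `c ∈ J`. -/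
theorem mem_of_mem_sup_span {π c : B} {J : Ideal B} (hπ : π ∈ Ideal.jacobson (⊥ : Ideal B))
    (hreg : ∀ z : B, π ∣ c * z → π ∣ z) (hJ : J ≤ Ideal.span {c})
    (h : c ∈ J ⊔ Ideal.span {π}) : c ∈ J := by
  obtain ⟨j, hj, y, hy, hjy⟩ := Submodule.mem_sup.mp h
  obtain ⟨z, rfl⟩ := Ideal.mem_span_singleton.mp hy
  obtain ⟨j', rfl⟩ := Ideal.mem_span_singleton.mp (hJ hj)
  obtain ⟨w, hw⟩ := hreg (1 - j') ⟨z, by linear_combination (-1 : B) * hjy⟩
  have hunit : IsUnit j' := by
    have h1 := Ideal.mem_jacobson_bot.mp hπ (-w)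
    have h2 : π * -w + 1 = j' := by linear_combination hw
    rwa [h2] at h1
  obtain ⟨u, rfl⟩ := hunit
  have h3 : c = (c * (u : B)) * ((u⁻¹ : Bˣ) : B) := by
    rw [mul_assoc, Units.mul_inv, mul_one]
  rw [h3]
  exact Ideal.mul_mem_right _ _ hj

/-- Elements of a product of two ideals are finite sums of products. -/
theorem exists_sum_mul_of_mem_mul {I J : Ideal B} {y : B} (hy : y ∈ I * J) :
    ∃ (n : ℕ) (x x' : Fin n → B), (∀ i, x i ∈ I) ∧ (∀ i, x' i ∈ J) ∧ y = ∑ i, x i * x' i := by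
  refine Submodule.mul_induction_on hy ?_ ?_
  · intro a ha b hb
    exact ⟨1, fun _ => a, fun _ => b, fun _ => ha, fun _ => hb, by simp⟩
  · intro a b iha ihb
    obtain ⟨n, x, x', hx, hx', rfl⟩ := iha
    obtain ⟨k, z, z', hz, hz', rfl⟩ := ihb
    refine ⟨n + k, Fin.append x z, Fin.append x' z', ?_, ?_, ?_⟩
    · intro i
      refine Fin.addCases (fun i => ?_) (fun i => ?_) i
      · rw [Fin.append_left]; exact hx i
      · rw [Fin.append_right]; exact hz i
    · intro i
      refine Fin.addCases (fun i => ?_) (fun i => ?_) i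
      · rw [Fin.append_left]; exact hx' i
      · rw [Fin.append_right]; exact hz' i
    · rw [Fin.sum_univ_add]
      simp

end Lift

section Bridge

variable {D L : Type*} [CommRing D] [Field L] [Algebra D L]

/-- The integral closure of a ring in a field is an integrally closed domain. -/
theorem isIntegrallyClosed_integralClosure : IsIntegrallyClosed (integralClosure D L) :=
  IsIntegrallyClosed.of_isIntegrallyClosed_of_isIntegrallyClosedIn (R := integralClosure D L)
    (S := L)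

/-- **Bridge to the partition-of-unity form.**  `B` the integral closure of `D` in the field
`L`, `h = b' / b` with `b, b' ∈ B` nonzero.  If `b * b' ∈ A * A'` for the two root ideals, then
there are `cᵢ, c'ᵢ : L` with `cᵢ ^ m / h` and `c'ᵢ ^ m * h` integral over `D` and
`∑ cᵢ c'ᵢ = 1` (this is `ToricInertia.CartierRoot`). -/
theorem exists_partition {m : ℕ} (hm : m ≠ 0) (b b' : integralClosure D L) (hb : b ≠ 0)
    (hb' : b' ≠ 0) (h : L) (hh : h * (b : L) = (b' : L))
    (hmem : b * b' ∈ rootIdeal (b * b' ^ (m - 1)) m * rootIdeal (b ^ (m - 1) * b') m) :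
    ∃ (n : ℕ) (c c' : Fin n → L), (∀ i, IsIntegral D (c i ^ m / h)) ∧
      (∀ i, IsIntegral D (c' i ^ m * h)) ∧ ∑ i, c i * c' i = 1 := by
  have : IsIntegrallyClosed (integralClosure D L) := isIntegrallyClosed_integralClosure
  have hbL : (b : L) ≠ 0 := fun h0 => hb (Subtype.ext h0)
  have hb'L : (b' : L) ≠ 0 := fun h0 => hb' (Subtype.ext h0)
  have hhe : h = (b' : L) / (b : L) := by rw [eq_div_iff hbL, hh]
  obtain ⟨n, x, x', hx, hx', hsum⟩ := exists_sum_mul_of_mem_mul hmem
  obtain ⟨k, rfl⟩ := Nat.exists_eq_succ_of_ne_zero hm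
  simp only [Nat.succ_sub_one] at hx hx' hmem
  refine ⟨n, fun i => (x' i : L) / (b : L), fun i => (x i : L) / (b' : L), ?_, ?_, ?_⟩
  · intro i
    obtain ⟨z, hz⟩ := dvd_pow_of_mem_rootIdeal hm (hx' i)
    have hz' : ((x' i : L)) ^ (k + 1) = (b : L) ^ k * (b' : L) * (z : L) := by
      have := congrArg (fun y : integralClosure D L => (y : L)) hz
      simpa using this
    have : ((x' i : L) / (b : L)) ^ (k + 1) / h = (z : L) := by
      rw [hhe, div_pow, hz']
      field_simp
      ring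
    rw [this]
    exact z.2
  · intro i
    obtain ⟨z, hz⟩ := dvd_pow_of_mem_rootIdeal hm (hx i)
    have hz' : ((x i : L)) ^ (k + 1) = (b : L) * (b' : L) ^ k * (z : L) := by
      have := congrArg (fun y : integralClosure D L => (y : L)) hz
      simpa using this
    have : ((x i : L) / (b' : L)) ^ (k + 1) * h = (z : L) := by
      rw [hhe, div_pow, hz']
      field_simp
      ring
    rw [this]
    exact z.2
  · have h1 : ((b : L) * (b' : L)) = ∑ i, (x i : L) * (x' i : L) := by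
      have := congrArg (fun y : integralClosure D L => (y : L)) hsum
      simpa using this
    have h2 : ∀ i, (x' i : L) / (b : L) * ((x i : L) / (b' : L)) =
        ((x i : L) * (x' i : L)) / ((b : L) * (b' : L)) := by
      intro i
      field_simp
    simp_rw [h2]
    rw [← Finset.sum_div, ← h1, div_self (mul_ne_zero hbL hb'L)]

end Bridge

end Fermat.Agent.S34.CartPair
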