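import Mathlib
import Fermat.Agent.S34.Lib.DiscColength
import Fermat.Agent.S34.Lib.QuotBasis

/-!
# PROGRAM U (S34), CartPair: the INDEX IDENTITY (fraction-free form)

`R` a UFD, `B` a finite free `R`-algebra which is a domain, with basis `β`.  `α`, `α'` families in
`B` whose `R`-spans `A`, `A'` are ideals of `B` with `A * A' ≤ c * B`.  If for every prime `q` of
`R` there are `x ∈ A`, `x' ∈ A'` with `x * x' = c * w` and `q ∤ Norm w`, then
`det Y * det Y' ~ Norm c`, where `Y`, `Y'` are the matrices of `α`, `α'` in the basis `β`.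

No trace form, no separability: only lattice indices.
-/

set_option autoImplicit false
set_option linter.unusedSectionVars false
set_option linter.style.haveILetI false

namespace Fermat.Agent.S34.CartPair.Index

open Module Matrix

section Dvd

variable {R : Type*} [CommRing R] [IsDomain R] [UniqueFactorizationMonoid R]

/-- In a UFD: if for every prime `q` there is `ν` not divisible by `q` with `d ∣ n * ν`, then
`d ∣ n`. -/
theorem dvd_of_forall_prime_exists (d : R) :
    d ≠ 0 → ∀ n : R, (∀ q : R, Prime q → ∃ ν : R, ¬ q ∣ ν ∧ d ∣ n * ν) → d ∣ n := by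
  induction d using UniqueFactorizationMonoid.induction_on_prime with
  | h₁ => exact fun h => absurd rfl h
  | h₂ u hu => exact fun _ n _ => hu.dvd
  | h₃ a q ha0 hq ih =>
    intro _ n h
    obtain ⟨ν, hν, hdvd⟩ := h q hq
    have hqn : q ∣ n := by
      have : q ∣ n * ν := (dvd_mul_right q a).trans hdvd
      exact (hq.dvd_or_dvd this).resolve_right hν
    obtain ⟨n', rfl⟩ := hqn
    have : a ∣ n' := by
      apply ih ha0
      intro q' hq'
      obtain ⟨ν', hν', hdvd'⟩ := h q' hq'
      refine ⟨ν', hν', ?_⟩
      rw [mul_assoc] at hdvd'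
      exact (mul_dvd_mul_iff_left hq.ne_zero).mp hdvd'
    exact mul_dvd_mul_left q this

end Dvd

section Index

variable {R B : Type*} [CommRing R] [CommRing B] [Algebra R B]
variable {ι : Type*} [Fintype ι] [DecidableEq ι]

/-- If `x * B` lies in the span of `α`, the determinant of `α` divides the norm of `x`. -/
theorem det_dvd_norm (β : Basis ι R B) (α : ι → B) (x : B)
    (hx : ∀ y : B, x * y ∈ Submodule.span R (Set.range α)) :
    (β.toMatrix α).det ∣ Algebra.norm R x := by
  have h : ∀ j, ∃ z : ι → R, ∑ i, z i • α i = x * β j := fun j =>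
    (Submodule.mem_span_range_iff_exists_fun R).mp (hx (β j))
  choose Z hZ using h
  have key : Algebra.leftMulMatrix β x = β.toMatrix α * Matrix.of (fun i j => Z j i) := by
    ext k j
    rw [Algebra.leftMulMatrix_eq_repr_mul, ← hZ j, Matrix.mul_apply]
    simp only [map_sum, map_smul, Finsupp.coe_finsetSum, Finsupp.coe_smul, Finset.sum_apply,
      Pi.smul_apply, smul_eq_mul, Basis.toMatrix_apply, Matrix.of_apply]
    exact Finset.sum_congr rfl fun i _ => mul_comm _ _
  rw [Algebra.norm_eq_matrix_det β, key, Matrix.det_mul]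
  exact dvd_mul_right _ _

/-- If `x * α' j ∈ c * B` for all `j`, then `Norm c ∣ Norm x * det α'`. -/
theorem norm_dvd_norm_mul_det (β : Basis ι R B) (α' : ι → B) (x c : B)
    (hx : ∀ j, ∃ t : B, x * α' j = c * t) :
    Algebra.norm R c ∣ Algebra.norm R x * (β.toMatrix α').det := by
  choose t ht using hx
  have key : Algebra.leftMulMatrix β x * β.toMatrix α' =
      Algebra.leftMulMatrix β c * β.toMatrix t := by
    ext k j
    have h1 : (Algebra.leftMulMatrix β x * β.toMatrix α') k j = β.repr (x * α' j) k := by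
      have := congrFun (Algebra.leftMulMatrix_mulVec_repr β x (α' j)) k
      rw [← this]
      rfl
    have h2 : (Algebra.leftMulMatrix β c * β.toMatrix t) k j = β.repr (c * t j) k := by
      have := congrFun (Algebra.leftMulMatrix_mulVec_repr β c (t j)) k
      rw [← this]
      rfl
    rw [h1, h2, ht]
  have := congrArg Matrix.det key
  rw [Matrix.det_mul, Matrix.det_mul, ← Algebra.norm_eq_matrix_det β, ← Algebra.norm_eq_matrix_det β]
    at this
  rw [this]
  exact dvd_mul_right _ _

/-- A linearly independent family of full size has non-zero determinant (over a domain). -/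
theorem det_toMatrix_ne_zero [IsDomain R] (β : Basis ι R B) (α : ι → B)
    (hα : LinearIndependent R α) : (β.toMatrix α).det ≠ 0 := by
  intro h0
  obtain ⟨v, hv, hMv⟩ := Matrix.exists_mulVec_eq_zero_iff.mpr h0
  apply hv
  have hsum : ∑ i, v i • α i = 0 := by
    apply β.repr.injective
    ext k
    have := congrFun hMv k
    simp only [Matrix.mulVec, dotProduct, Basis.toMatrix_apply, Pi.zero_apply] at this
    simp only [map_sum, map_smul, Finsupp.coe_finsetSum, Finsupp.coe_smul, Finset.sum_apply,
      Pi.smul_apply, smul_eq_mul, map_zero, Finsupp.coe_zero, Pi.zero_apply]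
    rw [← this]
    exact Finset.sum_congr rfl fun i _ => mul_comm _ _
  funext i
  exact Fintype.linearIndependent_iff.mp hα v hsum i

/-- Multiplying an element of the span of `α` (an ideal) by any `y` stays in the span. -/
theorem mul_mem_span (α : ι → B)
    (hα : ∀ (y : B) (i : ι), α i * y ∈ Submodule.span R (Set.range α))
    {x : B} (hx : x ∈ Submodule.span R (Set.range α)) (y : B) :
    x * y ∈ Submodule.span R (Set.range α) := by
  induction hx using Submodule.span_induction with
  | mem z hz =>
    obtain ⟨i, rfl⟩ := hz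
    exact hα y i
  | zero => simp
  | add z z' _ _ hz hz' =>
    rw [add_mul]
    exact Submodule.add_mem _ hz hz'
  | smul r z _ hz =>
    rw [smul_mul_assoc]
    exact Submodule.smul_mem _ r hz

/-- `A * A' ≤ c * B` on generators gives `x * α' j ∈ c * B` for every `x` in the span of `α`. -/
theorem exists_mul_eq_of_mem_span (α α' : ι → B) (c : B)
    (hP2 : ∀ i j, ∃ t : B, α i * α' j = c * t)
    {x : B} (hx : x ∈ Submodule.span R (Set.range α)) (j : ι) :
    ∃ t : B, x * α' j = c * t := by
  induction hx using Submodule.span_induction with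
  | mem z hz =>
    obtain ⟨i, rfl⟩ := hz
    exact hP2 i j
  | zero => exact ⟨0, by simp⟩
  | add z z' _ _ hz hz' =>
    obtain ⟨t, ht⟩ := hz
    obtain ⟨t', ht'⟩ := hz'
    exact ⟨t + t', by rw [add_mul, ht, ht', mul_add]⟩
  | smul r z _ hz =>
    obtain ⟨t, ht⟩ := hz
    exact ⟨r • t, by rw [smul_mul_assoc, ht, mul_smul_comm]⟩

/-- **INDEX IDENTITY.**  `R` a UFD, `B` a finite free `R`-algebra (a domain) with basis `β`;
`α`, `α'` families whose spans are ideals with product inside `c * B`, of non-zero determinant;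
for every prime `q` of `R` a pair `x ∈ span α`, `x' ∈ span α'` with `x * x' = c * w`,
`q ∤ Norm w`.  Then `det α * det α' ~ Norm c`. -/
theorem associated_det_mul_det [IsDomain R] [UniqueFactorizationMonoid R] [IsDomain B]
    (β : Basis ι R B) (α α' : ι → B) (c : B) (hc : c ≠ 0)
    (hα : ∀ (y : B) (i : ι), α i * y ∈ Submodule.span R (Set.range α))
    (hα' : ∀ (y : B) (i : ι), α' i * y ∈ Submodule.span R (Set.range α'))
    (hP2 : ∀ i j, ∃ t : B, α i * α' j = c * t)
    (hdet : (β.toMatrix α).det ≠ 0) (hdet' : (β.toMatrix α').det ≠ 0)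
    (hwit : ∀ q : R, Prime q → ∃ x x' w : B, x ∈ Submodule.span R (Set.range α) ∧
      x' ∈ Submodule.span R (Set.range α') ∧ x * x' = c * w ∧ ¬ q ∣ Algebra.norm R w) :
    Associated ((β.toMatrix α).det * (β.toMatrix α').det) (Algebra.norm R c) := by
  haveI : Module.Free R B := Module.Free.of_basis β
  haveI : Module.Finite R B := Module.Finite.of_basis β
  have hNc : Algebra.norm R c ≠ 0 := Algebra.norm_ne_zero_iff.mpr hc
  have hP2' : ∀ j i, ∃ t : B, α' j * α i = c * t := fun j i => by
    obtain ⟨t, ht⟩ := hP2 i j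
    exact ⟨t, by rw [mul_comm, ht]⟩
  -- the two divisibilities for a witness
  have key : ∀ x x' w : B, x ∈ Submodule.span R (Set.range α) →
      x' ∈ Submodule.span R (Set.range α') → x * x' = c * w →
      ((β.toMatrix α).det * (β.toMatrix α').det ∣ Algebra.norm R c * Algebra.norm R w) ∧
      (Algebra.norm R c ∣ (β.toMatrix α).det * (β.toMatrix α').det * Algebra.norm R w) := by
    intro x x' w hx hx' hxx
    have h1 := det_dvd_norm β α x (mul_mem_span α hα hx)
    have h1' := det_dvd_norm β α' x' (mul_mem_span α' hα' hx')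
    have h2 := norm_dvd_norm_mul_det β α' x c (exists_mul_eq_of_mem_span α α' c hP2 hx)
    have h2' := norm_dvd_norm_mul_det β α x' c (exists_mul_eq_of_mem_span α' α c hP2' hx')
    have hN : Algebra.norm R x * Algebra.norm R x' = Algebra.norm R c * Algebra.norm R w := by
      rw [← map_mul, hxx, map_mul]
    refine ⟨hN ▸ mul_dvd_mul h1 h1', ?_⟩
    have h3 : Algebra.norm R c * Algebra.norm R c ∣
        Algebra.norm R c * ((β.toMatrix α).det * (β.toMatrix α').det * Algebra.norm R w) := by
      have := mul_dvd_mul h2 h2'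
      have e : Algebra.norm R x * (β.toMatrix α').det * (Algebra.norm R x' * (β.toMatrix α).det) =
          Algebra.norm R c * ((β.toMatrix α).det * (β.toMatrix α').det * Algebra.norm R w) := by
        calc Algebra.norm R x * (β.toMatrix α').det * (Algebra.norm R x' * (β.toMatrix α).det)
            = (Algebra.norm R x * Algebra.norm R x') *
                ((β.toMatrix α).det * (β.toMatrix α').det) := by ring
          _ = _ := by rw [hN]; ring
      rwa [e] at this
    exact (mul_dvd_mul_iff_left hNc).mp h3
  refine associated_of_dvd_dvd ?_ ?_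
  · refine dvd_of_forall_prime_exists _ (mul_ne_zero hdet hdet') _ fun q hq => ?_
    obtain ⟨x, x', w, hx, hx', hxx, hq'⟩ := hwit q hq
    exact ⟨_, hq', (key x x' w hx hx' hxx).1⟩
  · refine dvd_of_forall_prime_exists _ hNc _ fun q hq => ?_
    obtain ⟨x, x', w, hx, hx', hxx, hq'⟩ := hwit q hq
    exact ⟨_, hq', (key x x' w hx hx' hxx).2⟩

end Index

section Length

variable {S Bb : Type*} [CommRing S] [IsDomain S] [IsPrincipalIdealRing S] [CommRing Bb]
  [Algebra S Bb]
variable {ι : Type*} [Fintype ι] [DecidableEq ι]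

/-- Colength of an ideal with an `S`-basis = order of the determinant of the basis. -/
theorem length_quotient_ideal (βb : Basis ι S Bb) (a : Ideal Bb) (ba : Basis ι S a) :
    Module.length S (Bb ⧸ a) = Ring.ord S (βb.toMatrix (fun i => (ba i : Bb))).det := by
  let e : ↥a ≃ₗ[S] ↥(a.restrictScalars S) :=
    ((Submodule.restrictScalarsEquiv S Bb Bb a).restrictScalars S).symm
  have h := Lib.DiscColength.length_quotient_eq_ord_det (a.restrictScalars S) βb (ba.map e)
  rw [← (Submodule.Quotient.restrictScalarsEquiv S a).length_eq, h]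
  rfl

/-- Multiplication by `g` as an `S`-linear map into `span {g}`. -/
noncomputable def mulMap (g : Bb) : Bb →ₗ[S] ↥(Ideal.span ({g} : Set Bb)) :=
  (LinearMap.mulLeft S g).codRestrict ((Ideal.span ({g} : Set Bb)).restrictScalars S)
    (fun y => Ideal.mul_mem_right y _ (Ideal.subset_span rfl))

theorem mulMap_apply (g y : Bb) :
    ((mulMap (S := S) g y : ↥(Ideal.span ({g} : Set Bb))) : Bb) = g * y := rfl

/-- Multiplication by a non-zero-divisor `g` as an `S`-linear equivalence onto `span {g}`. -/
noncomputable def mulEquiv (g : Bb) (hg : ∀ y : Bb, g * y = 0 → y = 0) :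
    Bb ≃ₗ[S] ↥(Ideal.span ({g} : Set Bb)) :=
  LinearEquiv.ofBijective (mulMap (S := S) g)
    ⟨fun y z hyz => by
        have h1 : g * y = g * z := congrArg Subtype.val hyz
        have h2 : g * (y - z) = 0 := by rw [mul_sub, h1, sub_self]
        exact sub_eq_zero.mp (hg _ h2),
      fun ⟨x, hx⟩ => by
        obtain ⟨y, rfl⟩ := Ideal.mem_span_singleton'.mp hx
        exact ⟨y, Subtype.ext (mul_comm g y)⟩⟩

theorem mulEquiv_apply (g : Bb) (hg : ∀ y : Bb, g * y = 0 → y = 0) (y : Bb) :
    ((mulEquiv (S := S) g hg y : ↥(Ideal.span ({g} : Set Bb))) : Bb) = g * y := rfl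

/-- Colength of a principal ideal generated by a non-zero-divisor = order of the norm. -/
theorem length_quotient_span_singleton (βb : Basis ι S Bb) (g : Bb)
    (hg : ∀ y : Bb, g * y = 0 → y = 0) :
    Module.length S (Bb ⧸ Ideal.span ({g} : Set Bb)) = Ring.ord S (Algebra.norm S g) := by
  rw [length_quotient_ideal βb _ (βb.map (mulEquiv g hg)), Algebra.norm_eq_matrix_det βb]
  congr 2
  ext k i
  rw [Basis.toMatrix_apply, Algebra.leftMulMatrix_eq_repr_mul, Basis.map_apply, mulEquiv_apply]

/-- The norm of a non-zero-divisor is non-zero. -/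
theorem norm_ne_zero_of_regular (βb : Basis ι S Bb) (g : Bb)
    (hg : ∀ y : Bb, g * y = 0 → y = 0) : Algebra.norm S g ≠ 0 := by
  have hli : LinearIndependent S (fun i => g * βb i) := by
    have h := βb.linearIndependent.map' (LinearMap.mulLeft S g) (by
      rw [LinearMap.ker_eq_bot']
      intro y hy
      exact hg y hy)
    exact h
  have h := det_toMatrix_ne_zero βb _ hli
  rw [Algebra.norm_eq_matrix_det βb]
  convert h using 2
  ext k i
  rw [Basis.toMatrix_apply, Algebra.leftMulMatrix_eq_repr_mul]

/-- **LENGTH IDENTITY over the PID `S`.**  If `det a * det a' ~ Norm(g)^2`, then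
`length (Bb/a) + length (Bb/a') = 2 * length (Bb/g)`, and the latter is finite. -/
theorem length_add_length (βb : Basis ι S Bb) (a a' : Ideal Bb) (ba : Basis ι S a)
    (ba' : Basis ι S a') (g : Bb) (hg : ∀ y : Bb, g * y = 0 → y = 0)
    (hdet : Associated ((βb.toMatrix (fun i => (ba i : Bb))).det *
      (βb.toMatrix (fun i => (ba' i : Bb))).det) (Algebra.norm S g ^ 2)) :
    Module.length S (Bb ⧸ a) + Module.length S (Bb ⧸ a') =
        2 * Module.length S (Bb ⧸ Ideal.span ({g} : Set Bb)) ∧
      Module.length S (Bb ⧸ Ideal.span ({g} : Set Bb)) ≠ ⊤ := by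
  have hN : Algebra.norm S g ≠ 0 := norm_ne_zero_of_regular βb g hg
  have hN2 : Algebra.norm S g ^ 2 ≠ 0 := pow_ne_zero 2 hN
  have hprod : (βb.toMatrix (fun i => (ba i : Bb))).det *
      (βb.toMatrix (fun i => (ba' i : Bb))).det ≠ 0 := fun h0 => by
    rw [h0] at hdet
    exact hN2 (zero_eq_mul_self.mp (by
      obtain ⟨u, hu⟩ := hdet
      rw [zero_mul] at hu
      rw [← hu, zero_mul])).symm.symm
  have hd' : (βb.toMatrix (fun i => (ba' i : Bb))).det ∈ nonZeroDivisors S :=
    mem_nonZeroDivisors_of_ne_zero (right_ne_zero_of_mul hprod)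
  rw [length_quotient_ideal βb a ba, length_quotient_ideal βb a' ba',
    length_quotient_span_singleton βb g hg, ← Ring.ord_mul S hd', Ring.ord_eq_of_associated hdet,
    Ring.ord_pow (mem_nonZeroDivisors_of_ne_zero hN)]
  refine ⟨by rw [two_mul, two_nsmul], Ring.ord_ne_top (mem_nonZeroDivisors_of_ne_zero hN)⟩

end Length

section Reduce

open Fermat.Agent.S34.Lib.QuotBasis

variable {R B : Type*} [CommRing R] [CommRing B] [Algebra R B]
variable {ι : Type*} [Fintype ι] [DecidableEq ι]

/-- The matrix of the reduced family in the reduced basis is the reduced matrix. -/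
theorem toMatrix_quotBasis (I : Ideal R) (β : Basis ι R B) (α : ι → B) :
    (quotBasis I β).toMatrix (fun i => Ideal.Quotient.mk (I.map (algebraMap R B)) (α i)) =
      (β.toMatrix α).map (Ideal.Quotient.mk I) := by
  ext k i
  rw [Basis.toMatrix_apply, quotBasis_repr, Matrix.map_apply, Basis.toMatrix_apply]

/-- Norms commute with reduction modulo an ideal of the base. -/
theorem norm_quotient_mk (I : Ideal R) (β : Basis ι R B) (x : B) :
    Algebra.norm (R ⧸ I) (Ideal.Quotient.mk (I.map (algebraMap R B)) x) =
      Ideal.Quotient.mk I (Algebra.norm R x) := by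
  rw [Algebra.norm_eq_matrix_det (quotBasis I β), leftMulMatrix_quotBasis,
    Algebra.norm_eq_matrix_det β]
  exact (RingHom.map_det (Ideal.Quotient.mk I) _).symm

/-- **INDEX IDENTITY + LENGTH IDENTITY, `R`-level exit.**  `R` a UFD, `I` an ideal with `R/I` a
PID domain (`I = (π)`), `B` a domain, finite free over `R` with basis `β`.  `b ≡ b'` mod `I B`,
`b` regular mod `I B`.  `α`, `α'` families whose `R`-spans `A`, `A'` are ideals with
`A * A' ≤ b b' B`, with witnesses at every prime of `R`; `a`, `a'` ideals of `B/IB` with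
`(R/I)`-bases the reductions of `α`, `α'`.
Then `length (B̄/a) + length (B̄/a') = 2 * length (B̄/b̄)`, finite. -/
theorem length_identity [IsDomain R] [UniqueFactorizationMonoid R] [IsDomain B]
    (I : Ideal R) [IsDomain (R ⧸ I)] [IsPrincipalIdealRing (R ⧸ I)]
    (β : Basis ι R B) (α α' : ι → B) (b b' : B) (hc : b * b' ≠ 0)
    (hbb' : b' - b ∈ I.map (algebraMap R B))
    (hreg : ∀ y : B, b * y ∈ I.map (algebraMap R B) → y ∈ I.map (algebraMap R B))
    (hα : ∀ (y : B) (i : ι), α i * y ∈ Submodule.span R (Set.range α))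
    (hα' : ∀ (y : B) (i : ι), α' i * y ∈ Submodule.span R (Set.range α'))
    (hP2 : ∀ i j, ∃ t : B, α i * α' j = b * b' * t)
    (hwit : ∀ q : R, Prime q → ∃ x x' w : B, x ∈ Submodule.span R (Set.range α) ∧
      x' ∈ Submodule.span R (Set.range α') ∧ x * x' = b * b' * w ∧ ¬ q ∣ Algebra.norm R w)
    (a a' : Ideal (B ⧸ I.map (algebraMap R B)))
    (ba : Basis ι (R ⧸ I) a)
    (hba : ∀ i, ((ba i : a) : B ⧸ I.map (algebraMap R B)) = Ideal.Quotient.mk _ (α i))
    (ba' : Basis ι (R ⧸ I) a')
    (hba' : ∀ i, ((ba' i : a') : B ⧸ I.map (algebraMap R B)) = Ideal.Quotient.mk _ (α' i)) :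
    Module.length (R ⧸ I) ((B ⧸ I.map (algebraMap R B)) ⧸ a) +
        Module.length (R ⧸ I) ((B ⧸ I.map (algebraMap R B)) ⧸ a') =
      2 * Module.length (R ⧸ I) ((B ⧸ I.map (algebraMap R B)) ⧸
            Ideal.span ({Ideal.Quotient.mk _ b} : Set (B ⧸ I.map (algebraMap R B)))) ∧
      Module.length (R ⧸ I) ((B ⧸ I.map (algebraMap R B)) ⧸
            Ideal.span ({Ideal.Quotient.mk _ b} : Set (B ⧸ I.map (algebraMap R B)))) ≠ ⊤ := by
  -- `g = mk b` is regular
  have hg : ∀ y, Ideal.Quotient.mk (I.map (algebraMap R B)) b * y = 0 → y = 0 := by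
    intro y hy
    obtain ⟨y, rfl⟩ := Ideal.Quotient.mk_surjective y
    rw [← map_mul, Ideal.Quotient.eq_zero_iff_mem] at hy
    exact Ideal.Quotient.eq_zero_iff_mem.mpr (hreg y hy)
  have hgb' : Ideal.Quotient.mk (I.map (algebraMap R B)) b' =
      Ideal.Quotient.mk (I.map (algebraMap R B)) b := by
    rw [← sub_eq_zero, ← map_sub]
    exact Ideal.Quotient.eq_zero_iff_mem.mpr hbb'
  -- the reduced matrices
  have hY : (quotBasis I β).toMatrix (fun i => ((ba i : a) : B ⧸ I.map (algebraMap R B))) =
      (β.toMatrix α).map (Ideal.Quotient.mk I) := by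
    rw [← toMatrix_quotBasis]
    congr 1
    funext i
    exact hba i
  have hY' : (quotBasis I β).toMatrix (fun i => ((ba' i : a') : B ⧸ I.map (algebraMap R B))) =
      (β.toMatrix α').map (Ideal.Quotient.mk I) := by
    rw [← toMatrix_quotBasis]
    congr 1
    funext i
    exact hba' i
  have hdetmap : ∀ M : Matrix ι ι R, (M.map (Ideal.Quotient.mk I)).det =
      Ideal.Quotient.mk I M.det := fun M => (RingHom.map_det (Ideal.Quotient.mk I) M).symm
  -- non-vanishing of the determinants
  have hli : LinearIndependent (R ⧸ I) (fun i => ((ba i : a) : B ⧸ I.map (algebraMap R B))) :=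
    ba.linearIndependent.map' ((Submodule.subtype a).restrictScalars (R ⧸ I))
      (by
        rw [LinearMap.ker_eq_bot]
        exact Subtype.val_injective)
  have hli' : LinearIndependent (R ⧸ I) (fun i => ((ba' i : a') : B ⧸ I.map (algebraMap R B))) :=
    ba'.linearIndependent.map' ((Submodule.subtype a').restrictScalars (R ⧸ I))
      (by
        rw [LinearMap.ker_eq_bot]
        exact Subtype.val_injective)
  have hdet : (β.toMatrix α).det ≠ 0 := by
    intro h0
    have := det_toMatrix_ne_zero (quotBasis I β) _ hli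
    rw [hY, hdetmap, h0, map_zero] at this
    exact this rfl
  have hdet' : (β.toMatrix α').det ≠ 0 := by
    intro h0
    have := det_toMatrix_ne_zero (quotBasis I β) _ hli'
    rw [hY', hdetmap, h0, map_zero] at this
    exact this rfl
  have hassoc := associated_det_mul_det β α α' (b * b') hc hα hα' hP2 hdet hdet' hwit
  have hassoc' : Associated
      (((quotBasis I β).toMatrix (fun i => ((ba i : a) : B ⧸ I.map (algebraMap R B)))).det *
        ((quotBasis I β).toMatrix (fun i => ((ba' i : a') : B ⧸ I.map (algebraMap R B)))).det)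
      (Algebra.norm (R ⧸ I) (Ideal.Quotient.mk (I.map (algebraMap R B)) b) ^ 2) := by
    have h1 := hassoc.map (Ideal.Quotient.mk I)
    rw [map_mul, ← norm_quotient_mk I β, map_mul, hgb', map_mul] at h1
    rw [hY, hY', hdetmap, hdetmap, pow_two]
    exact h1
  exact length_add_length (quotBasis I β) a a' ba ba' _ hg hassoc'

end Reduce

end Fermat.Agent.S34.CartPair.Index
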