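import Mathlib
import Fermat.Agent.S34.CartPair.Index

/-!
# PROGRAM U (S34), CartPair: the CLOSED length identity (freeness derived inside)

`R` a noetherian UFD, `π` a prime element in the Jacobson radical, `R/π` a PID; `B` a domain,
finite and faithful over `R`, with `B/πB` torsion-free over `R/π`; `A`, `A'` ideals of `B`,
saturated with respect to `π`, containing `b b'`, with `A A' ⊆ b b' B`, `b ≡ b'` and `b` regular
modulo `π`, and witnesses at every prime of `R` not associated to `π`.  Then

`length (B̄/Ā) + length (B̄/Ā') = 2 * length (B̄/b̄) < ⊤`   (lengths over `R/π`).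
-/

set_option autoImplicit false
set_option linter.unusedSectionVars false
set_option linter.style.haveILetI false

namespace Fermat.Agent.S34.CartPair.IndexClosed

open Module

section Free

variable {R : Type*} [CommRing R] [IsDomain R] [IsNoetherianRing R]
variable {N : Type*} [AddCommGroup N] [Module R N] [Module.Finite R N]

/-- **(1a)** A finite module over a noetherian domain, on which `π ∈ Jac R` is regular and whose
reduction mod `π` is torsion-free over the PID `R/π`, is free. -/
theorem free_of_torsionFree_quot (π : R) (hπ : Prime π) (hJ : π ∈ (⊥ : Ideal R).jacobson)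
    [IsPrincipalIdealRing (R ⧸ Ideal.span ({π} : Set R))]
    (hreg : ∀ x : N, π • x = 0 → x = 0)
    (htf : ∀ (r : R) (x : N), (∃ y : N, r • x = π • y) → π ∣ r ∨ ∃ y : N, x = π • y) :
    Module.Free R N := by
  haveI : (Ideal.span ({π} : Set R)).IsPrime :=
    (Ideal.span_singleton_prime hπ.ne_zero).mpr hπ
  have hreg' : IsSMulRegular N π := by
    intro x y hxy
    have h : π • (x - y) = 0 := by
      rw [smul_sub]
      exact sub_eq_zero.mpr hxy
    exact sub_eq_zero.mp (hreg _ h)
  haveI : Module.Finite (R ⧸ Ideal.span ({π} : Set R)) (QuotSMulTop π N) :=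
    Module.Finite.of_restrictScalars_finite R _ _
  haveI : Module.IsTorsionFree (R ⧸ Ideal.span ({π} : Set R)) (QuotSMulTop π N) := by
    refine Module.IsTorsionFree.of_smul_eq_zero fun s z h => ?_
    obtain ⟨r, rfl⟩ := Ideal.Quotient.mk_surjective s
    obtain ⟨x, rfl⟩ := Submodule.Quotient.mk_surjective _ z
    have h1 : (Submodule.Quotient.mk (r • x) : QuotSMulTop π N) = 0 := h
    rw [Submodule.Quotient.mk_eq_zero, Submodule.mem_smul_pointwise_iff_exists] at h1
    obtain ⟨y, -, hy⟩ := h1
    rcases htf r x ⟨y, hy.symm⟩ with hr | ⟨y', hy'⟩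
    · left
      exact Ideal.Quotient.eq_zero_iff_mem.mpr (Ideal.mem_span_singleton.mpr hr)
    · right
      rw [Submodule.Quotient.mk_eq_zero, Submodule.mem_smul_pointwise_iff_exists]
      exact ⟨y', trivial, hy'.symm⟩
  have hfree : Module.Free (R ⧸ Ideal.span ({π} : Set R)) (QuotSMulTop π N) :=
    Module.free_of_finite_type_torsion_free'
  haveI : Module.FinitePresentation R N := Module.finitePresentation_of_finite R N
  exact (Module.free_quotSMulTop_iff_free R N hJ hreg').mp hfree

end Free

section Family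

variable {R B : Type*} [CommRing R] [IsDomain R] [IsNoetherianRing R]
  [CommRing B] [IsDomain B] [Algebra R B] [Module.Finite R B] [FaithfulSMul R B]

/-- `B` itself is free. -/
theorem free_self (π : R) (hπ : Prime π) (hJ : π ∈ (⊥ : Ideal R).jacobson)
    [IsPrincipalIdealRing (R ⧸ Ideal.span ({π} : Set R))]
    (htf : ∀ (r : R) (y : B), algebraMap R B π ∣ r • y → π ∣ r ∨ algebraMap R B π ∣ y) :
    Module.Free R B := by
  have hπB : algebraMap R B π ≠ 0 := fun h =>
    hπ.ne_zero ((FaithfulSMul.algebraMap_injective R B) (h.trans (map_zero _).symm))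
  refine free_of_torsionFree_quot π hπ hJ ?_ ?_
  · intro x hx
    rw [Algebra.smul_def] at hx
    exact (mul_eq_zero.mp hx).resolve_left hπB
  · rintro r x ⟨y, hy⟩
    rcases htf r x ⟨y, by rw [hy, Algebra.smul_def]⟩ with h | ⟨z, hz⟩
    · exact Or.inl h
    · exact Or.inr ⟨z, by rw [hz, Algebra.smul_def]⟩

/-- **(1a) for an ideal.**  A `π`-saturated ideal `A ∋ c ≠ 0` of `B` has an `R`-basis indexed by
`Fin (finrank R B)`, given as a family in `B`. -/
theorem exists_family (π : R) (hπ : Prime π) (hJ : π ∈ (⊥ : Ideal R).jacobson)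
    [IsPrincipalIdealRing (R ⧸ Ideal.span ({π} : Set R))]
    (htf : ∀ (r : R) (y : B), algebraMap R B π ∣ r • y → π ∣ r ∨ algebraMap R B π ∣ y)
    (A : Ideal B) (c : B) (hc : c ≠ 0) (hcA : c ∈ A)
    (hSat : ∀ y, algebraMap R B π * y ∈ A → y ∈ A) :
    ∃ α : Fin (Module.finrank R B) → B, LinearIndependent R α ∧
      Submodule.span R (Set.range α) = A.restrictScalars R := by
  have hπB : algebraMap R B π ≠ 0 := fun h =>
    hπ.ne_zero ((FaithfulSMul.algebraMap_injective R B) (h.trans (map_zero _).symm))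
  haveI : IsNoetherian R B := isNoetherian_of_isNoetherianRing_of_finite R B
  set MA : Submodule R B := A.restrictScalars R with hMA
  haveI : Module.Finite R MA := Module.IsNoetherian.finite R MA
  have hfreeA : Module.Free R MA := by
    refine free_of_torsionFree_quot π hπ hJ ?_ ?_
    · intro x hx
      have h1 : π • (x : B) = 0 := by
        have := congrArg Subtype.val hx
        simpa using this
      rw [Algebra.smul_def] at h1
      exact Subtype.ext ((mul_eq_zero.mp h1).resolve_left hπB)
    · rintro r x ⟨y, hy⟩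
      have h1 : r • (x : B) = π • (y : B) := by
        have := congrArg Subtype.val hy
        simpa using this
      rcases htf r x ⟨y, by rw [h1, Algebra.smul_def]⟩ with h | ⟨z, hz⟩
      · exact Or.inl h
      · have hzA : z ∈ A := hSat z (hz ▸ x.2)
        exact Or.inr ⟨⟨z, hzA⟩, Subtype.ext (by simpa [Algebra.smul_def] using hz)⟩
  haveI := free_self π hπ hJ htf
  have hrank : Module.finrank R MA = Module.finrank R B := by
    refine le_antisymm (Submodule.finrank_le MA) ?_
    let f : B →ₗ[R] MA :=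
      { toFun := fun y => ⟨c * y, A.mul_mem_right y hcA⟩
        map_add' := fun y z => Subtype.ext (mul_add c y z)
        map_smul' := fun r y => Subtype.ext (mul_smul_comm r c y) }
    have hf : Function.Injective f := by
      intro y z hyz
      have h1 : c * y = c * z := congrArg Subtype.val hyz
      exact mul_left_cancel₀ hc h1
    exact LinearMap.finrank_le_finrank_of_injective hf
  let bA : Basis (Fin (Module.finrank R B)) R MA :=
    (Module.finBasis R MA).reindex (finCongr hrank)
  refine ⟨fun i => (bA i : B), ?_, ?_⟩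
  · exact bA.linearIndependent.map' MA.subtype (Submodule.ker_subtype MA)
  · have h1 : Submodule.span R (Set.range fun i => (bA i : B)) =
        (Submodule.span R (Set.range bA)).map MA.subtype := by
      rw [Submodule.map_span, ← Set.range_comp]
      rfl
    rw [h1, bA.span_eq, Submodule.map_subtype_top]

end Family

section Reduce

variable {R B : Type*} [CommRing R] [CommRing B] [Algebra R B]
variable {ι : Type*} [Fintype ι] [DecidableEq ι]

theorem mk_smul_mk (I : Ideal R) (r : R) (x : B) :
    (Ideal.Quotient.mk I r) • (Ideal.Quotient.mk (I.map (algebraMap R B)) x) =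
      Ideal.Quotient.mk (I.map (algebraMap R B)) (r • x) := by
  rw [Algebra.smul_def, Algebra.smul_def, map_mul]
  rfl

theorem mk_sum_smul (I : Ideal R) (r : ι → R) (α : ι → B) :
    ∑ i, (Ideal.Quotient.mk I (r i)) • (Ideal.Quotient.mk (I.map (algebraMap R B)) (α i)) =
      Ideal.Quotient.mk (I.map (algebraMap R B)) (∑ i, r i • α i) := by
  rw [map_sum]
  exact Finset.sum_congr rfl fun i _ => mk_smul_mk I (r i) (α i)

theorem map_span_singleton (π : R) :
    (Ideal.span ({π} : Set R)).map (algebraMap R B) = Ideal.span ({algebraMap R B π} : Set B) := by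
  rw [Ideal.map_span, Set.image_singleton]

/-- **Reduced basis.**  If `α` is an `R`-basis (as a family in `B`) of the `π`-saturated ideal
`A`, its reduction is an `(R/π)`-basis of the image of `A` in `B/πB`. -/
theorem exists_reduced_basis (π : R) (A : Ideal B) (α : ι → B)
    (hli : LinearIndependent R α)
    (hspan : Submodule.span R (Set.range α) = A.restrictScalars R)
    (hSat : ∀ y, algebraMap R B π * y ∈ A → y ∈ A) :
    ∃ ba : Basis ι (R ⧸ Ideal.span ({π} : Set R))
        ↥(A.map (Ideal.Quotient.mk ((Ideal.span ({π} : Set R)).map (algebraMap R B)))),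
      ∀ i, ((ba i : ↥(A.map (Ideal.Quotient.mk ((Ideal.span ({π} : Set R)).map
        (algebraMap R B))))) : B ⧸ (Ideal.span ({π} : Set R)).map (algebraMap R B)) =
          Ideal.Quotient.mk _ (α i) := by
  have hαA : ∀ i, α i ∈ A := fun i => by
    have h : α i ∈ A.restrictScalars R := hspan ▸ Submodule.subset_span ⟨i, rfl⟩
    exact h
  have hmemA : ∀ r : ι → R, ∑ i, r i • α i ∈ A := fun r => by
    have h : ∑ i, r i • α i ∈ A.restrictScalars R :=
      Submodule.sum_mem _ fun i _ => Submodule.smul_mem _ _ (hαA i)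
    exact h
  have hrepr : ∀ a ∈ A, ∃ t : ι → R, ∑ i, t i • α i = a := fun a ha => by
    have h : a ∈ Submodule.span R (Set.range α) := by
      rw [hspan]
      exact ha
    exact (Submodule.mem_span_range_iff_exists_fun R).mp h
  let v : ι → ↥(A.map (Ideal.Quotient.mk ((Ideal.span ({π} : Set R)).map (algebraMap R B)))) :=
    fun i => ⟨Ideal.Quotient.mk _ (α i), Ideal.mem_map_of_mem _ (hαA i)⟩
  have hcoe : ∀ g : ι → R ⧸ Ideal.span ({π} : Set R),
      ((∑ i, g i • v i : ↥(A.map (Ideal.Quotient.mk ((Ideal.span ({π} : Set R)).map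
        (algebraMap R B))))) : B ⧸ (Ideal.span ({π} : Set R)).map (algebraMap R B)) =
        ∑ i, g i • Ideal.Quotient.mk ((Ideal.span ({π} : Set R)).map (algebraMap R B)) (α i) := by
    intro g
    rw [Submodule.coe_sum]
    rfl
  have hliv : LinearIndependent (R ⧸ Ideal.span ({π} : Set R)) v := by
    rw [Fintype.linearIndependent_iff]
    intro g hg i
    choose r hr using fun i => Ideal.Quotient.mk_surjective (g i)
    have h1 := congrArg Subtype.val hg
    rw [hcoe] at h1
    have h2 : Ideal.Quotient.mk ((Ideal.span ({π} : Set R)).map (algebraMap R B))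
        (∑ i, r i • α i) = 0 := by
      rw [← mk_sum_smul]
      simp only [hr]
      exact h1
    rw [Ideal.Quotient.eq_zero_iff_mem, map_span_singleton, Ideal.mem_span_singleton] at h2
    obtain ⟨y, hy⟩ := h2
    have hyA : y ∈ A := hSat y (hy ▸ hmemA r)
    obtain ⟨t, ht⟩ := hrepr y hyA
    have h3 : ∑ i, (r i - π * t i) • α i = 0 := by
      simp only [sub_smul, Finset.sum_sub_distrib, mul_smul]
      rw [← Finset.smul_sum, ht, hy, Algebra.smul_def, sub_self]
    have h4 := Fintype.linearIndependent_iff.mp hli _ h3 i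
    rw [← hr i, Ideal.Quotient.eq_zero_iff_mem, Ideal.mem_span_singleton]
    exact ⟨t i, sub_eq_zero.mp h4⟩
  have hspv : ⊤ ≤ Submodule.span (R ⧸ Ideal.span ({π} : Set R)) (Set.range v) := by
    rintro ⟨x, hx⟩ -
    obtain ⟨a, ha, rfl⟩ := (Ideal.mem_map_iff_of_surjective _ Ideal.Quotient.mk_surjective).mp hx
    obtain ⟨t, rfl⟩ := hrepr a ha
    have h5 : (⟨Ideal.Quotient.mk _ (∑ i, t i • α i), hx⟩ :
        ↥(A.map (Ideal.Quotient.mk ((Ideal.span ({π} : Set R)).map (algebraMap R B))))) =
        ∑ i, (Ideal.Quotient.mk (Ideal.span ({π} : Set R)) (t i)) • v i := by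
      apply Subtype.ext
      rw [hcoe, mk_sum_smul]
    rw [h5]
    exact Submodule.sum_mem _ fun i _ => Submodule.smul_mem _ _ (Submodule.subset_span ⟨i, rfl⟩)
  refine ⟨Basis.mk hliv hspv, fun i => ?_⟩
  rw [Basis.mk_apply]

end Reduce

section Closed

open Fermat.Agent.S34.Lib.QuotBasis

variable {R B : Type*} [CommRing R] [IsDomain R] [IsNoetherianRing R]
  [CommRing B] [IsDomain B] [Algebra R B] [Module.Finite R B] [FaithfulSMul R B]

/-- `π ∈ Jac R` is not a unit in the non-zero finite `R`-algebra `B`. -/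
theorem not_dvd_one (π : R) (hJ : π ∈ (⊥ : Ideal R).jacobson) : ¬ algebraMap R B π ∣ 1 := by
  rintro ⟨u, hu⟩
  have h : (⊤ : Submodule R B) = ⊥ := by
    refine Submodule.eq_bot_of_le_smul_of_le_jacobson_bot (Ideal.span {π}) ⊤
      Module.Finite.fg_top ?_ ?_
    · intro y _
      have hy : y = π • (u * y) := by rw [Algebra.smul_def, ← mul_assoc, ← hu, one_mul]
      rw [hy]
      exact Submodule.smul_mem_smul (Ideal.subset_span rfl) trivial
    · rw [Ideal.span_singleton_le_iff_mem]
      exact hJ
  have h1 : (1 : B) ∈ (⊥ : Submodule R B) := h ▸ trivial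
  exact one_ne_zero ((Submodule.mem_bot R).mp h1)

/-- **CLOSED INDEX / LENGTH IDENTITY** (freeness derived inside). -/
theorem length_add_length_closed [UniqueFactorizationMonoid R]
    (π : R) (hπ : Prime π) (hJ : π ∈ (⊥ : Ideal R).jacobson)
    [IsPrincipalIdealRing (R ⧸ Ideal.span ({π} : Set R))]
    (htf : ∀ (r : R) (y : B), algebraMap R B π ∣ r • y → π ∣ r ∨ algebraMap R B π ∣ y)
    (A A' : Ideal B) (b b' : B) (hbb' : algebraMap R B π ∣ b' - b)
    (hb : ∀ y, algebraMap R B π ∣ b * y → algebraMap R B π ∣ y)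
    (hA : b * b' ∈ A) (hA' : b * b' ∈ A')
    (hP2 : ∀ x ∈ A, ∀ x' ∈ A', b * b' ∣ x * x')
    (hSat : ∀ y, algebraMap R B π * y ∈ A → y ∈ A)
    (hSat' : ∀ y, algebraMap R B π * y ∈ A' → y ∈ A')
    (hcodim : ∀ q : R, Prime q → ¬ Associated q π →
      ∃ x ∈ A, ∃ x' ∈ A', ∃ w : B, x * x' = b * b' * w ∧ ¬ q ∣ Algebra.norm R w) :
    Module.length (R ⧸ Ideal.span ({π} : Set R))
          ((B ⧸ (Ideal.span ({π} : Set R)).map (algebraMap R B)) ⧸
            A.map (Ideal.Quotient.mk ((Ideal.span ({π} : Set R)).map (algebraMap R B)))) +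
        Module.length (R ⧸ Ideal.span ({π} : Set R))
          ((B ⧸ (Ideal.span ({π} : Set R)).map (algebraMap R B)) ⧸
            A'.map (Ideal.Quotient.mk ((Ideal.span ({π} : Set R)).map (algebraMap R B)))) =
      2 * Module.length (R ⧸ Ideal.span ({π} : Set R))
          ((B ⧸ (Ideal.span ({π} : Set R)).map (algebraMap R B)) ⧸
            Ideal.span ({Ideal.Quotient.mk _ b} :
              Set (B ⧸ (Ideal.span ({π} : Set R)).map (algebraMap R B)))) ∧
      Module.length (R ⧸ Ideal.span ({π} : Set R))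
          ((B ⧸ (Ideal.span ({π} : Set R)).map (algebraMap R B)) ⧸
            Ideal.span ({Ideal.Quotient.mk _ b} :
              Set (B ⧸ (Ideal.span ({π} : Set R)).map (algebraMap R B)))) ≠ ⊤ := by
  classical
  haveI : (Ideal.span ({π} : Set R)).IsPrime :=
    (Ideal.span_singleton_prime hπ.ne_zero).mpr hπ
  have h1 : ¬ algebraMap R B π ∣ 1 := not_dvd_one π hJ
  have hb0 : b ≠ 0 := by
    rintro rfl
    exact h1 (hb 1 (by simp))
  have hb'0 : b' ≠ 0 := by
    rintro rfl
    have h2 : algebraMap R B π ∣ b * 1 := by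
      rw [mul_one]
      have := (dvd_neg).mpr hbb'
      simpa using this
    exact h1 (hb 1 h2)
  have hc : b * b' ≠ 0 := mul_ne_zero hb0 hb'0
  haveI := free_self π hπ hJ htf
  obtain ⟨α, hli, hspan⟩ := exists_family π hπ hJ htf A (b * b') hc hA hSat
  obtain ⟨α', hli', hspan'⟩ := exists_family π hπ hJ htf A' (b * b') hc hA' hSat'
  obtain ⟨ba, hba⟩ := exists_reduced_basis π A α hli hspan hSat
  obtain ⟨ba', hba'⟩ := exists_reduced_basis π A' α' hli' hspan' hSat'
  have hmem : ∀ x, x ∈ A ↔ x ∈ Submodule.span R (Set.range α) := fun x => by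
    rw [hspan]
    rfl
  have hmem' : ∀ x, x ∈ A' ↔ x ∈ Submodule.span R (Set.range α') := fun x => by
    rw [hspan']
    rfl
  have hαA : ∀ i, α i ∈ A := fun i => (hmem _).mpr (Submodule.subset_span ⟨i, rfl⟩)
  have hαA' : ∀ i, α' i ∈ A' := fun i => (hmem' _).mpr (Submodule.subset_span ⟨i, rfl⟩)
  have hbmod : ∀ y : B, b * y ∈ (Ideal.span ({π} : Set R)).map (algebraMap R B) →
      y ∈ (Ideal.span ({π} : Set R)).map (algebraMap R B) := by
    intro y hy
    rw [map_span_singleton, Ideal.mem_span_singleton] at hy ⊢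
    exact hb y hy
  have hbb'mod : b' - b ∈ (Ideal.span ({π} : Set R)).map (algebraMap R B) := by
    rw [map_span_singleton, Ideal.mem_span_singleton]
    exact hbb'
  refine Index.length_identity (Ideal.span ({π} : Set R)) (Module.finBasis R B) α α' b b' hc
    hbb'mod hbmod ?_ ?_ ?_ ?_ _ _ ba hba ba' hba'
  · exact fun y i => (hmem _).mp (A.mul_mem_right y (hαA i))
  · exact fun y i => (hmem' _).mp (A'.mul_mem_right y (hαA' i))
  · exact fun i j => hP2 (α i) (hαA i) (α' j) (hαA' j)
  · intro q hq
    by_cases hqπ : Associated q π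
    · refine ⟨b * b', b * b', b * b', (hmem _).mp hA, (hmem' _).mp hA', rfl, ?_⟩
      intro hdvd
      have hπdvd : π ∣ Algebra.norm R (b * b') := hqπ.symm.dvd.trans hdvd
      have h0 : Ideal.Quotient.mk (Ideal.span ({π} : Set R)) (Algebra.norm R (b * b')) = 0 :=
        Ideal.Quotient.eq_zero_iff_mem.mpr (Ideal.mem_span_singleton.mpr hπdvd)
      rw [← Index.norm_quotient_mk (Ideal.span ({π} : Set R)) (Module.finBasis R B), map_mul,
        map_mul] at h0
      have hg : ∀ y, Ideal.Quotient.mk ((Ideal.span ({π} : Set R)).map (algebraMap R B)) b * y = 0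
          → y = 0 := by
        intro y hy
        obtain ⟨y, rfl⟩ := Ideal.Quotient.mk_surjective y
        rw [← map_mul, Ideal.Quotient.eq_zero_iff_mem] at hy
        exact Ideal.Quotient.eq_zero_iff_mem.mpr (hbmod y hy)
      have hgb' : Ideal.Quotient.mk ((Ideal.span ({π} : Set R)).map (algebraMap R B)) b' =
          Ideal.Quotient.mk ((Ideal.span ({π} : Set R)).map (algebraMap R B)) b := by
        rw [← sub_eq_zero, ← map_sub]
        exact Ideal.Quotient.eq_zero_iff_mem.mpr hbb'mod
      rw [hgb'] at h0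
      have hne := Index.norm_ne_zero_of_regular
        (quotBasis (Ideal.span ({π} : Set R)) (Module.finBasis R B)) _ hg
      exact mul_ne_zero hne hne h0
    · obtain ⟨x, hx, x', hx', w, hw, hq'⟩ := hcodim q hq hqπ
      exact ⟨x, x', w, (hmem _).mp hx, (hmem' _).mp hx', hw, hq'⟩

/-- The closed identity with witnesses of the form `x * x' = b b' * s`, `s : R`, `q ∤ s`
(the shape produced by `LocPow`): no norm in the interface. -/
theorem length_add_length_closed' [UniqueFactorizationMonoid R]
    (π : R) (hπ : Prime π) (hJ : π ∈ (⊥ : Ideal R).jacobson)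
    [IsPrincipalIdealRing (R ⧸ Ideal.span ({π} : Set R))]
    (htf : ∀ (r : R) (y : B), algebraMap R B π ∣ r • y → π ∣ r ∨ algebraMap R B π ∣ y)
    (A A' : Ideal B) (b b' : B) (hbb' : algebraMap R B π ∣ b' - b)
    (hb : ∀ y, algebraMap R B π ∣ b * y → algebraMap R B π ∣ y)
    (hA : b * b' ∈ A) (hA' : b * b' ∈ A')
    (hP2 : ∀ x ∈ A, ∀ x' ∈ A', b * b' ∣ x * x')
    (hSat : ∀ y, algebraMap R B π * y ∈ A → y ∈ A)
    (hSat' : ∀ y, algebraMap R B π * y ∈ A' → y ∈ A')
    (hcodim : ∀ q : R, Prime q → ¬ Associated q π →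
      ∃ x ∈ A, ∃ x' ∈ A', ∃ s : R, ¬ q ∣ s ∧ x * x' = b * b' * algebraMap R B s) :
    Module.length (R ⧸ Ideal.span ({π} : Set R))
          ((B ⧸ (Ideal.span ({π} : Set R)).map (algebraMap R B)) ⧸
            A.map (Ideal.Quotient.mk ((Ideal.span ({π} : Set R)).map (algebraMap R B)))) +
        Module.length (R ⧸ Ideal.span ({π} : Set R))
          ((B ⧸ (Ideal.span ({π} : Set R)).map (algebraMap R B)) ⧸
            A'.map (Ideal.Quotient.mk ((Ideal.span ({π} : Set R)).map (algebraMap R B)))) =
      2 * Module.length (R ⧸ Ideal.span ({π} : Set R))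
          ((B ⧸ (Ideal.span ({π} : Set R)).map (algebraMap R B)) ⧸
            Ideal.span ({Ideal.Quotient.mk _ b} :
              Set (B ⧸ (Ideal.span ({π} : Set R)).map (algebraMap R B)))) ∧
      Module.length (R ⧸ Ideal.span ({π} : Set R))
          ((B ⧸ (Ideal.span ({π} : Set R)).map (algebraMap R B)) ⧸
            Ideal.span ({Ideal.Quotient.mk _ b} :
              Set (B ⧸ (Ideal.span ({π} : Set R)).map (algebraMap R B)))) ≠ ⊤ := by
  classical
  haveI := free_self π hπ hJ htf
  refine length_add_length_closed π hπ hJ htf A A' b b' hbb' hb hA hA' hP2 hSat hSat' ?_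
  intro q hq hqπ
  obtain ⟨x, hx, x', hx', s, hs, hxx⟩ := hcodim q hq hqπ
  refine ⟨x, hx, x', hx', algebraMap R B s, hxx, ?_⟩
  rw [Algebra.norm_algebraMap_of_basis (Module.finBasis R B) s]
  exact fun h => hs (hq.dvd_of_dvd_pow h)

end Closed

end Fermat.Agent.S34.CartPair.IndexClosed
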