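import Mathlib

/-!
# S34 / CartPair: the ring `R = P[(1 + I)⁻¹]` and localisations at submonoids `≡ 1 mod I`

Pure commutative algebra (Mathlib only).

* Section `General`: `B'` a localisation of `B` at a submonoid `M` all of whose elements are
  `≡ 1` modulo an ideal `I`.  Then `B ⧸ I ≃+* B' ⧸ I B'`, `I B' ∩ B = I`, primes / radical ideals /
  integrally closed quotients transfer, and `I B'` lies in the Jacobson radical when `M = 1 + I`.
* Section `Base`: `R = P[(1 + πP)⁻¹]` for a noetherian UFD `P` with a prime element `π` such that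
  `P ⧸ π` is a PID: `R` is a noetherian UFD domain, `π` is prime in `R` and lies in its Jacobson
  radical, `R ⧸ π` is a PID, and every prime element of `R` is associated to a prime element of `P`.
* Section `Upper`: the localisation `B_R` of a finite `P`-algebra `B`.
-/

set_option autoImplicit false

namespace Fermat.Agent.S34.CartPair.LocOne

/-- The submonoid `1 + I` of a commutative ring. -/
def onePlus {P : Type*} [CommRing P] (I : Ideal P) : Submonoid P where
  carrier := {s | s - 1 ∈ I}
  one_mem' := by simp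
  mul_mem' := by
    intro a b ha hb
    have : a * b - 1 = a * (b - 1) + (a - 1) := by ring
    change a - 1 ∈ I at ha
    change b - 1 ∈ I at hb
    change a * b - 1 ∈ I
    rw [this]
    exact I.add_mem (I.mul_mem_left a hb) ha

theorem mem_onePlus {P : Type*} [CommRing P] {I : Ideal P} {s : P} :
    s ∈ onePlus I ↔ s - 1 ∈ I := Iff.rfl

theorem mem_onePlus_span {P : Type*} [CommRing P] {π s : P} :
    s ∈ onePlus (Ideal.span {π}) ↔ π ∣ s - 1 := by
  rw [mem_onePlus, Ideal.mem_span_singleton]

theorem add_mem_onePlus {P : Type*} [CommRing P] {I : Ideal P} {s a : P}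
    (hs : s ∈ onePlus I) (ha : a ∈ I) : s + a ∈ onePlus I := by
  rw [mem_onePlus] at hs ⊢
  have : s + a - 1 = (s - 1) + a := by ring
  rw [this]
  exact I.add_mem hs ha

theorem zero_notMem_onePlus {P : Type*} [CommRing P] {I : Ideal P} (hI : I ≠ ⊤) :
    (0 : P) ∉ onePlus I := by
  intro h
  rw [mem_onePlus] at h
  apply hI
  rw [Ideal.eq_top_iff_one]
  have : (1 : P) = -(0 - 1) := by ring
  rw [this]
  exact I.neg_mem h

theorem onePlus_le_nonZeroDivisors {P : Type*} [CommRing P] [IsDomain P] {I : Ideal P}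
    (hI : I ≠ ⊤) : onePlus I ≤ nonZeroDivisors P := by
  intro s hs
  apply mem_nonZeroDivisors_of_ne_zero
  rintro rfl
  exact zero_notMem_onePlus hI hs

/-! ### General: localising at a submonoid `≡ 1 mod I` -/

section General

variable {B B' : Type*} [CommRing B] [CommRing B'] [Algebra B B'] (M : Submonoid B)
  [IsLocalization M B'] (I : Ideal B)

/-- `I B' ∩ B = I` when `M ≡ 1 mod I`. -/
theorem comap_map_eq (hM : ∀ s ∈ M, s - 1 ∈ I) :
    (I.map (algebraMap B B')).comap (algebraMap B B') = I := by
  refine le_antisymm (fun b hb => ?_) Ideal.le_comap_map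
  rw [Ideal.mem_comap, IsLocalization.mem_map_algebraMap_iff M B'] at hb
  obtain ⟨⟨x, s⟩, hxs⟩ := hb
  rw [← map_mul, IsLocalization.eq_iff_exists M B'] at hxs
  obtain ⟨c, hc⟩ := hxs
  have h1 : (c : B) * s * b ∈ I := by
    have : (c : B) * s * b = c * x := by rw [← hc]; ring
    rw [this]
    exact I.mul_mem_left _ x.2
  have h2 : ((c : B) * s - 1) * b ∈ I := I.mul_mem_right _ (hM _ (M.mul_mem c.2 s.2))
  have : b = (c : B) * s * b - ((c : B) * s - 1) * b := by ring
  rw [this]
  exact I.sub_mem h1 h2

theorem mem_map_iff (hM : ∀ s ∈ M, s - 1 ∈ I) (b : B) :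
    algebraMap B B' b ∈ I.map (algebraMap B B') ↔ b ∈ I := by
  rw [← Ideal.mem_comap, comap_map_eq M I hM]

/-- Every element of `B'` is congruent modulo `I B'` to an element of `B`. -/
theorem exists_sub_mem_map (hM : ∀ s ∈ M, s - 1 ∈ I) (x : B') :
    ∃ b : B, x - algebraMap B B' b ∈ I.map (algebraMap B B') := by
  obtain ⟨⟨b, s⟩, hbs⟩ := IsLocalization.surj M x
  refine ⟨b, ?_⟩
  have : x - algebraMap B B' b = -(x * algebraMap B B' ((s : B) - 1)) := by
    rw [← hbs, map_sub, map_one]; ring
  rw [this]
  exact neg_mem (Ideal.mul_mem_left _ _ (Ideal.mem_map_of_mem _ (hM _ s.2)))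

/-- The canonical map `B ⧸ I → B' ⧸ I B'`. -/
noncomputable def quotHom : B ⧸ I →+* B' ⧸ I.map (algebraMap B B') :=
  Ideal.quotientMap (I.map (algebraMap B B')) (algebraMap B B') Ideal.le_comap_map

@[simp] theorem quotHom_mk (b : B) :
    quotHom (B' := B') I (Ideal.Quotient.mk I b) =
      Ideal.Quotient.mk (I.map (algebraMap B B')) (algebraMap B B' b) := rfl

theorem quotHom_bijective (hM : ∀ s ∈ M, s - 1 ∈ I) :
    Function.Bijective (quotHom (B' := B') I) := by
  constructor
  · exact Ideal.quotientMap_injective' (comap_map_eq M I hM).le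
  · intro y
    obtain ⟨x, rfl⟩ := Ideal.Quotient.mk_surjective y
    obtain ⟨b, hb⟩ := exists_sub_mem_map M I hM x
    refine ⟨Ideal.Quotient.mk I b, ?_⟩
    rw [quotHom_mk, Ideal.Quotient.eq]
    have : algebraMap B B' b - x = -(x - algebraMap B B' b) := by ring
    rw [this]
    exact neg_mem hb

/-- `B ⧸ I ≃+* B' ⧸ I B'` when `M ≡ 1 mod I`. -/
noncomputable def quotEquiv (hM : ∀ s ∈ M, s - 1 ∈ I) :
    B ⧸ I ≃+* B' ⧸ I.map (algebraMap B B') :=
  RingEquiv.ofBijective (quotHom (B' := B') I) (quotHom_bijective M I hM)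

@[simp] theorem quotEquiv_mk (hM : ∀ s ∈ M, s - 1 ∈ I) (b : B) :
    quotEquiv (B' := B') M I hM (Ideal.Quotient.mk I b) =
      Ideal.Quotient.mk (I.map (algebraMap B B')) (algebraMap B B' b) := rfl

theorem disjoint_of_forall_sub_one_mem (hM : ∀ s ∈ M, s - 1 ∈ I) (hI : I ≠ ⊤) :
    Disjoint (M : Set B) (I : Set B) := by
  rw [Set.disjoint_left]
  intro s hs hsI
  apply hI
  rw [Ideal.eq_top_iff_one]
  have : (1 : B) = s - (s - 1) := by ring
  rw [this]
  exact I.sub_mem hsI (hM s hs)

theorem isPrime_map (hM : ∀ s ∈ M, s - 1 ∈ I) [hI : I.IsPrime] :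
    (I.map (algebraMap B B')).IsPrime :=
  IsLocalization.isPrime_of_isPrime_disjoint M B' I hI
    (disjoint_of_forall_sub_one_mem M I hM hI.ne_top)

theorem map_ne_top (hM : ∀ s ∈ M, s - 1 ∈ I) (hI : I ≠ ⊤) :
    I.map (algebraMap B B') ≠ ⊤ := by
  intro h
  apply hI
  rw [← comap_map_eq (B' := B') M I hM, h, Ideal.comap_top]

theorem isRadical_map (hM : ∀ s ∈ M, s - 1 ∈ I) (hI : I.IsRadical) :
    (I.map (algebraMap B B')).IsRadical := by
  rw [Ideal.isRadical_iff_quotient_reduced] at hI ⊢
  exact isReduced_of_injective (quotEquiv (B' := B') M I hM).symm.toRingHom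
    (quotEquiv (B' := B') M I hM).symm.injective

theorem isIntegrallyClosed_quotient_map (hM : ∀ s ∈ M, s - 1 ∈ I)
    [IsIntegrallyClosed (B ⧸ I)] : IsIntegrallyClosed (B' ⧸ I.map (algebraMap B B')) :=
  IsIntegrallyClosed.of_equiv (quotEquiv (B' := B') M I hM)

/-- Clearing the denominator of a membership `b ∈ J B'`. -/
theorem exists_mul_mem_of_mem_map (J : Ideal B) (b : B)
    (hb : algebraMap B B' b ∈ J.map (algebraMap B B')) : ∃ s ∈ M, s * b ∈ J := by
  rw [IsLocalization.mem_map_algebraMap_iff M B'] at hb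
  obtain ⟨⟨x, s⟩, hxs⟩ := hb
  rw [← map_mul, IsLocalization.eq_iff_exists M B'] at hxs
  obtain ⟨c, hc⟩ := hxs
  refine ⟨c * s, M.mul_mem c.2 s.2, ?_⟩
  have : (c : B) * s * b = c * x := by rw [← hc]; ring
  rw [this]
  exact J.mul_mem_left _ x.2

/-- `I B'` lies in the Jacobson radical of `B'` when `M = 1 + I`. -/
theorem map_le_jacobson_bot (hM : ∀ s ∈ M, s - 1 ∈ I) (hM' : onePlus I ≤ M) :
    I.map (algebraMap B B') ≤ (⊥ : Ideal B').jacobson := by
  rw [Ideal.map_le_iff_le_comap]
  intro a ha
  rw [Ideal.mem_comap, Ideal.mem_jacobson_bot]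
  intro y
  obtain ⟨⟨p, s⟩, hps⟩ := IsLocalization.surj M y
  have hmem : a * p + s ∈ M := hM' (by
    rw [mem_onePlus]
    have : a * p + s - 1 = a * p + ((s : B) - 1) := by ring
    rw [this]
    exact I.add_mem (I.mul_mem_right _ ha) (hM _ s.2))
  have hu : IsUnit (algebraMap B B' (a * p + s)) :=
    IsLocalization.map_units B' (⟨a * p + s, hmem⟩ : M)
  have h2 : (algebraMap B B' a * y + 1) * algebraMap B B' s = algebraMap B B' (a * p + s) := by
    simp only at hps
    rw [map_add, map_mul, ← hps]; ring
  rw [← h2] at hu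
  exact isUnit_of_mul_isUnit_left hu

end General

/-! ### The base ring `R = P[(1 + πP)⁻¹]` -/

section Base

variable {P : Type*} (R : Type*) [CommRing P] [CommRing R] [Algebra P R]

theorem map_span_singleton (π : P) :
    (Ideal.span {π}).map (algebraMap P R) = Ideal.span {algebraMap P R π} := by
  rw [Ideal.map_span, Set.image_singleton]

theorem span_ne_top_of_not_isUnit {π : P} (hπ : ¬ IsUnit π) : Ideal.span {π} ≠ ⊤ := by
  rw [Ne, Ideal.span_singleton_eq_top]
  exact hπ

/-- `π` lies in the Jacobson radical of `R = P[(1 + πP)⁻¹]`. -/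
theorem algebraMap_mem_jacobson_bot (π : P) [IsLocalization (onePlus (Ideal.span {π})) R] :
    algebraMap P R π ∈ (⊥ : Ideal R).jacobson :=
  map_le_jacobson_bot (onePlus (Ideal.span {π})) (Ideal.span {π}) (fun _ hs => hs) le_rfl
    (Ideal.mem_map_of_mem _ (Ideal.mem_span_singleton_self π))

theorem isDomain_base [IsDomain P] (π : P) [IsLocalization (onePlus (Ideal.span {π})) R]
    (hπ : ¬ IsUnit π) : IsDomain R :=
  IsLocalization.isDomain_of_le_nonZeroDivisors R
    (onePlus_le_nonZeroDivisors (span_ne_top_of_not_isUnit hπ))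

theorem algebraMap_injective_base [IsDomain P] (π : P)
    [IsLocalization (onePlus (Ideal.span {π})) R] (hπ : ¬ IsUnit π) :
    Function.Injective (algebraMap P R) :=
  IsLocalization.injective R (onePlus_le_nonZeroDivisors (span_ne_top_of_not_isUnit hπ))

theorem isNoetherianRing_base [h : IsNoetherianRing P] (π : P)
    [IsLocalization (onePlus (Ideal.span {π})) R] : IsNoetherianRing R :=
  IsLocalization.isNoetherianRing (onePlus (Ideal.span {π})) R h

theorem uniqueFactorizationMonoid_base [UniqueFactorizationMonoid P] (π : P)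
    [IsLocalization (onePlus (Ideal.span {π})) R] : UniqueFactorizationMonoid R :=
  UniqueFactorizationMonoid.of_isLocalization (onePlus (Ideal.span {π})) R

/-- `π` stays prime in `R = P[(1 + πP)⁻¹]`. -/
theorem prime_algebraMap [IsDomain P] (π : P) [IsLocalization (onePlus (Ideal.span {π})) R]
    (hπ : Prime π) : Prime (algebraMap P R π) := by
  have hinj := algebraMap_injective_base R π hπ.not_isUnit
  have h0 : algebraMap P R π ≠ 0 := by
    rw [Ne, map_eq_zero_iff _ hinj]
    exact hπ.ne_zero
  rw [← Ideal.span_singleton_prime h0, ← map_span_singleton]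
  have : (Ideal.span {π}).IsPrime := (Ideal.span_singleton_prime hπ.ne_zero).mpr hπ
  exact isPrime_map (onePlus (Ideal.span {π})) _ (fun _ hs => hs)

/-- `P ⧸ π ≃+* R ⧸ π`. -/
noncomputable def quotEquivBase (π : P) [IsLocalization (onePlus (Ideal.span {π})) R] :
    P ⧸ Ideal.span {π} ≃+* R ⧸ Ideal.span {algebraMap P R π} :=
  (quotEquiv (B' := R) (onePlus (Ideal.span {π})) (Ideal.span {π}) (fun _ hs => hs)).trans
    (Ideal.quotEquivOfEq (map_span_singleton R π))

@[simp] theorem quotEquivBase_mk (π : P) [IsLocalization (onePlus (Ideal.span {π})) R] (p : P) :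
    quotEquivBase R π (Ideal.Quotient.mk _ p) = Ideal.Quotient.mk _ (algebraMap P R p) := rfl

theorem isPrincipalIdealRing_quotient_base (π : P) [IsLocalization (onePlus (Ideal.span {π})) R]
    [IsPrincipalIdealRing (P ⧸ Ideal.span {π})] :
    IsPrincipalIdealRing (R ⧸ Ideal.span {algebraMap P R π}) :=
  IsPrincipalIdealRing.of_surjective (quotEquivBase R π).toRingHom (quotEquivBase R π).surjective

/-- Every element of a localisation is a unit multiple of an element of the base. -/
theorem exists_associated_algebraMap (M : Submonoid P) [IsLocalization M R] (r : R) :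
    ∃ p : P, Associated r (algebraMap P R p) := by
  obtain ⟨⟨p, s⟩, hps⟩ := IsLocalization.surj M r
  exact ⟨p, ⟨(IsLocalization.map_units R s).unit, hps⟩⟩

/-- Every prime element of a localisation `R` of a UFD `P` is associated to (the image of) a
prime element of `P`. -/
theorem exists_prime_associated [IsDomain P] [UniqueFactorizationMonoid P] [IsDomain R]
    (M : Submonoid P) [IsLocalization M R] (q : R) (hq : Prime q) :
    ∃ p : P, Prime p ∧ Associated q (algebraMap P R p) := by
  obtain ⟨p, hp⟩ := exists_associated_algebraMap R M q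
  have hirr : Irreducible (algebraMap P R p) := hp.irreducible hq.irreducible
  obtain ⟨u, m', hu, hm', rfl⟩ :=
    (IsLocalization.toLocalizationMap M R).eq_isUnit_map_mul_irreducible_of_irreducible_map
      (m := p) hirr
  refine ⟨m', UniqueFactorizationMonoid.irreducible_iff_prime.mp hm', hp.trans ?_⟩
  rw [map_mul]
  exact ⟨hu.unit⁻¹, by rw [mul_comm (algebraMap P R u), mul_assoc, IsUnit.mul_val_inv, mul_one]⟩

/-- A prime `p` of `P` that is not a unit in the localisation `R` divides `s` in `P` as soon as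
it divides `s` in `R`. -/
theorem dvd_of_algebraMap_dvd (M : Submonoid P) [IsLocalization M R] {p s : P} (hp : Prime p)
    (hpu : ¬ IsUnit (algebraMap P R p)) (h : algebraMap P R p ∣ algebraMap P R s) : p ∣ s := by
  obtain ⟨r, hr⟩ := h
  obtain ⟨⟨c, t⟩, hct⟩ := IsLocalization.surj M r
  have h1 : algebraMap P R (s * t) = algebraMap P R (p * c) := by
    rw [map_mul, map_mul, hr, ← hct]; ring
  rw [IsLocalization.eq_iff_exists M R] at h1
  obtain ⟨d, hd⟩ := h1
  have h2 : p ∣ (d : P) * t * s := ⟨d * c, by rw [mul_assoc, mul_comm (t : P) s, hd]; ring⟩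
  rcases hp.dvd_or_dvd h2 with h3 | h3
  · exfalso
    apply hpu
    have h4 : algebraMap P R p ∣ algebraMap P R ((d : P) * t) := map_dvd (algebraMap P R) h3
    exact isUnit_of_dvd_unit h4 (IsLocalization.map_units R (d * t))
  · exact h3

/-- Every prime element `q` of a localisation `R` of a UFD `P` is associated to the image of a
prime element `p` of `P`, and divisibility by `q` of images is divisibility by `p`. -/
theorem exists_prime_associated' [IsDomain P] [UniqueFactorizationMonoid P] [IsDomain R]
    (M : Submonoid P) [IsLocalization M R] (q : R) (hq : Prime q) :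
    ∃ p : P, Prime p ∧ Associated q (algebraMap P R p) ∧
      ∀ s : P, q ∣ algebraMap P R s → p ∣ s := by
  obtain ⟨p, hp, hqp⟩ := exists_prime_associated R M q hq
  refine ⟨p, hp, hqp, fun s hs => ?_⟩
  have hpu : ¬ IsUnit (algebraMap P R p) := fun h => hq.not_isUnit (hqp.symm.isUnit h)
  exact dvd_of_algebraMap_dvd R M hp hpu (hqp.symm.dvd.trans hs)

end Base

/-! ### Integral extensions and the Jacobson radical -/

/-- The Jacobson radical goes up along integral extensions. -/
theorem algebraMap_mem_jacobson_bot_of_isIntegral {R S : Type*} [CommRing R] [CommRing S]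
    [Algebra R S] [Algebra.IsIntegral R S] {x : R} (hx : x ∈ (⊥ : Ideal R).jacobson) :
    algebraMap R S x ∈ (⊥ : Ideal S).jacobson := by
  rw [Ideal.jacobson, Ideal.mem_sInf] at hx ⊢
  rintro m ⟨-, hm⟩
  have hmax : (m.comap (algebraMap R S)).IsMaximal :=
    Ideal.isMaximal_comap_of_isIntegral_of_isMaximal m
  exact hx ⟨bot_le, hmax⟩

/-! ### The localisation `B_R` of a `P`-algebra `B` -/

section Upper

variable {P : Type*} [CommRing P] (π : P) (B : Type*) [CommRing B] [Algebra P B]

/-- The submonoid of `B` at which we localise: the image of `1 + πP`. -/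
abbrev upperMonoid : Submonoid B :=
  Algebra.algebraMapSubmonoid B (onePlus (Ideal.span {π}))

theorem mem_upperMonoid {x : B} :
    x ∈ upperMonoid π B ↔ ∃ s : P, π ∣ s - 1 ∧ algebraMap P B s = x := by
  constructor
  · rintro ⟨s, hs, rfl⟩
    exact ⟨s, mem_onePlus_span.mp hs, rfl⟩
  · rintro ⟨s, hs, rfl⟩
    exact ⟨s, mem_onePlus_span.mpr hs, rfl⟩

/-- The elements of `upperMonoid` are `≡ 1` modulo every ideal of `B` containing `π`. -/
theorem sub_one_mem_of_mem_upperMonoid (J : Ideal B) (hJ : algebraMap P B π ∈ J) :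
    ∀ s ∈ upperMonoid π B, s - 1 ∈ J := by
  intro x hx
  obtain ⟨s, ⟨c, hc⟩, rfl⟩ := (mem_upperMonoid π B).mp hx
  have : algebraMap P B s - 1 = algebraMap P B π * algebraMap P B c := by
    rw [← map_mul, ← hc, map_sub, map_one]
  rw [this]
  exact J.mul_mem_right _ hJ

theorem upperMonoid_le_nonZeroDivisors [IsDomain B] (hπB : ¬ IsUnit (algebraMap P B π)) :
    upperMonoid π B ≤ nonZeroDivisors B := by
  intro x hx
  apply mem_nonZeroDivisors_of_ne_zero
  rintro rfl
  have h := sub_one_mem_of_mem_upperMonoid π B (Ideal.span {algebraMap P B π})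
    (Ideal.mem_span_singleton_self _) 0 hx
  apply span_ne_top_of_not_isUnit hπB
  rw [Ideal.eq_top_iff_one]
  have h1 : (1 : B) = -(0 - 1) := by ring
  rw [h1]
  exact neg_mem h

variable (R B' : Type*) [CommRing R] [CommRing B'] [Algebra P R]
  [IsLocalization (onePlus (Ideal.span {π})) R] [Algebra B B']
  [IsLocalization (upperMonoid π B) B'] [Algebra R B'] [Algebra P B'] [IsScalarTower P R B']
  [IsScalarTower P B B']

include π in
theorem finite_upper [Module.Finite P B] : Module.Finite R B' :=
  Module.Finite.of_isLocalization P B (onePlus (Ideal.span {π}))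

include π in
omit [Algebra P B'] [IsScalarTower P B B'] in
theorem isDomain_upper [IsDomain B] (hπB : ¬ IsUnit (algebraMap P B π)) : IsDomain B' :=
  IsLocalization.isDomain_of_le_nonZeroDivisors B' (upperMonoid_le_nonZeroDivisors π B hπB)

include π in
omit [Algebra P B'] [IsScalarTower P B B'] in
theorem algebraMap_injective_upper [IsDomain B] (hπB : ¬ IsUnit (algebraMap P B π)) :
    Function.Injective (algebraMap B B') :=
  IsLocalization.injective B' (upperMonoid_le_nonZeroDivisors π B hπB)

include π in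
omit [Algebra P B'] [IsScalarTower P B B'] in
theorem isIntegrallyClosed_upper [IsDomain B] [IsIntegrallyClosed B]
    (hπB : ¬ IsUnit (algebraMap P B π)) : IsIntegrallyClosed B' :=
  isIntegrallyClosed_of_isLocalization B' (upperMonoid π B)
    (upperMonoid_le_nonZeroDivisors π B hπB)

/-- `R → B_R` is injective. -/
theorem algebraMap_injective_base_upper [IsDomain B] (hinj : Function.Injective (algebraMap P B))
    (hπB : ¬ IsUnit (algebraMap P B π)) : Function.Injective (algebraMap R B') := by
  rw [injective_iff_map_eq_zero]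
  intro r hr
  obtain ⟨⟨p, s⟩, hps⟩ := IsLocalization.surj (onePlus (Ideal.span {π})) r
  have h1 : algebraMap R B' (algebraMap P R p) = 0 := by
    rw [← hps, map_mul, hr, zero_mul]
  rw [← IsScalarTower.algebraMap_apply, IsScalarTower.algebraMap_apply P B B',
    map_eq_zero_iff _ (algebraMap_injective_upper π B B' hπB), map_eq_zero_iff _ hinj] at h1
  rw [h1, map_zero] at hps
  exact (IsLocalization.map_units R s).mul_left_eq_zero.mp hps

theorem faithfulSMul_upper [IsDomain B] (hinj : Function.Injective (algebraMap P B))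
    (hπB : ¬ IsUnit (algebraMap P B π)) : FaithfulSMul R B' :=
  (faithfulSMul_iff_algebraMap_injective R B').mpr
    (algebraMap_injective_base_upper π B R B' hinj hπB)

/-- `π` lies in the Jacobson radical of `B_R` (for `B` integral over `P`). -/
theorem algebraMap_mem_jacobson_bot_upper [Module.Finite P B] :
    algebraMap R B' (algebraMap P R π) ∈ (⊥ : Ideal B').jacobson := by
  have : Module.Finite R B' := finite_upper π B R B'
  exact algebraMap_mem_jacobson_bot_of_isIntegral (algebraMap_mem_jacobson_bot R π)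

omit [Algebra P B'] [IsScalarTower P B B'] in
theorem isPrime_map_upper (J : Ideal B) [J.IsPrime] (hJ : algebraMap P B π ∈ J) :
    (J.map (algebraMap B B')).IsPrime :=
  isPrime_map (upperMonoid π B) J (sub_one_mem_of_mem_upperMonoid π B J hJ)

omit [Algebra P B'] [IsScalarTower P B B'] in
theorem mem_map_iff_upper (J : Ideal B) (hJ : algebraMap P B π ∈ J) (b : B) :
    algebraMap B B' b ∈ J.map (algebraMap B B') ↔ b ∈ J :=
  mem_map_iff (upperMonoid π B) J (sub_one_mem_of_mem_upperMonoid π B J hJ) b

omit [Algebra P B'] [IsScalarTower P B B'] in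
theorem isRadical_map_upper (J : Ideal B) (hJ : algebraMap P B π ∈ J) (h : J.IsRadical) :
    (J.map (algebraMap B B')).IsRadical :=
  isRadical_map (upperMonoid π B) J (sub_one_mem_of_mem_upperMonoid π B J hJ) h

omit [Algebra P B'] [IsScalarTower P B B'] in
theorem isIntegrallyClosed_quotient_map_upper (J : Ideal B) (hJ : algebraMap P B π ∈ J)
    [IsIntegrallyClosed (B ⧸ J)] : IsIntegrallyClosed (B' ⧸ J.map (algebraMap B B')) :=
  isIntegrallyClosed_quotient_map (upperMonoid π B) J (sub_one_mem_of_mem_upperMonoid π B J hJ)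

/-- `B ⧸ J ≃+* B_R ⧸ J B_R` for every ideal `J ∋ π`. -/
noncomputable def quotEquivUpper (J : Ideal B) (hJ : algebraMap P B π ∈ J) :
    B ⧸ J ≃+* B' ⧸ J.map (algebraMap B B') :=
  quotEquiv (upperMonoid π B) J (sub_one_mem_of_mem_upperMonoid π B J hJ)

/-- The image of `π` in `B_R`, computed through `B` or through `R`. -/
theorem algebraMap_algebraMap_upper (p : P) :
    algebraMap B B' (algebraMap P B p) = algebraMap R B' (algebraMap P R p) := by
  rw [← IsScalarTower.algebraMap_apply, ← IsScalarTower.algebraMap_apply]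

omit [IsLocalization (onePlus (Ideal.span {π})) R] in
/-- `p₁ ⊓ p₂ = (π)` transfers to `B_R`. -/
theorem map_inf_eq_span (p1 p2 : Ideal B) (h12 : p1 ⊓ p2 = Ideal.span {algebraMap P B π}) :
    p1.map (algebraMap B B') ⊓ p2.map (algebraMap B B') =
      Ideal.span {algebraMap R B' (algebraMap P R π)} := by
  rw [← IsLocalization.map_inf (upperMonoid π B) B', h12, Ideal.map_span, Set.image_singleton,
    algebraMap_algebraMap_upper B R B' π]

/-- Clearing denominators in `B_R`. -/
theorem exists_smul_eq_algebraMap (x : B') :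
    ∃ s : P, π ∣ s - 1 ∧ ∃ b : B, s • x = algebraMap B B' b := by
  obtain ⟨⟨b, t⟩, hbt⟩ := IsLocalization.surj (upperMonoid π B) x
  obtain ⟨s, hs, hst⟩ := (mem_upperMonoid π B).mp t.2
  refine ⟨s, hs, b, ?_⟩
  rw [← hbt, ← hst, ← IsScalarTower.algebraMap_apply, Algebra.smul_def, mul_comm]

omit [Algebra P B'] [IsScalarTower P B B'] in
/-- Clearing the denominator of a membership `b ∈ J B_R`. -/
theorem exists_smul_mem_of_mem_map (J : Ideal B) (b : B)
    (hb : algebraMap B B' b ∈ J.map (algebraMap B B')) : ∃ s : P, π ∣ s - 1 ∧ s • b ∈ J := by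
  obtain ⟨t, ht, htb⟩ := exists_mul_mem_of_mem_map (B' := B') (upperMonoid π B) J b hb
  obtain ⟨s, hs, rfl⟩ := (mem_upperMonoid π B).mp ht
  exact ⟨s, hs, by rwa [Algebra.smul_def]⟩

end Upper

/-! ### The concrete localisations -/

section Concrete

variable {P : Type*} [CommRing P] (π : P) (B : Type*) [CommRing B] [Algebra P B]

/-- The ring `R = P[(1 + πP)⁻¹]`. -/
abbrev Rloc : Type _ := Localization (onePlus (Ideal.span {π}))

/-- The localisation `B_R = B ⊗ R` of a `P`-algebra `B`. -/
abbrev Bloc : Type _ := Localization (upperMonoid π B)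

noncomputable example : Algebra (Rloc π) (Bloc π B) := inferInstance
noncomputable example : Algebra P (Bloc π B) := inferInstance
example : IsScalarTower P (Rloc π) (Bloc π B) := inferInstance
example : IsScalarTower P B (Bloc π B) := inferInstance
example : IsLocalization (onePlus (Ideal.span {π})) (Rloc π) := inferInstance
example : IsLocalization (upperMonoid π B) (Bloc π B) := inferInstance

end Concrete

end Fermat.Agent.S34.CartPair.LocOne
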