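import Mathlib

/-!
# The node lemma (S34, route "CartPair" of helper224, Lemma N')

`Bb` a commutative ring (the special fibre of a chart), `p1`, `p2` prime ideals with
`p1 ⊓ p2 = ⊥` (two components), `p1 ⊔ p2` radical (they cross transversally: a reduced set of
nodes), `Bb ⧸ p1`, `Bb ⧸ p2` integrally closed (smooth components), `g ∉ p1 ∪ p2`.

Let `a`, `a'` be ideals such that every `m`-th power of an element of `a` or `a'` is divisible
by `g ^ m` (this is where *toric* enters), `a * a' ≤ (g²)`, and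
`length (Bb/a) + length (Bb/a') ≤ 2 * length (Bb/g) < ∞` (lengths over any base ring `S`).
Then `g ^ 2 ∈ a * a'`.

The proof uses the exact identity
`length (Bb/a⁺) = length (Bb/g) + length (Bb/Y)` for `a⁺ = a + g (p1 + p2)` and
`Y = {y | ∃ x ∈ a⁺, x - g y ∈ p1}`.
-/

set_option autoImplicit false

namespace Fermat.Agent.S34.CartPair.NodeLemma

/-! ### 1. Ideal theory -/

section Alg

variable {Bb : Type*} [CommRing Bb]

/-- In an integrally closed quotient domain, `x ^ m = g ^ m * w` forces `x ≡ g y`. -/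
theorem exists_sub_mul_mem (p : Ideal Bb) [p.IsPrime] [IsIntegrallyClosed (Bb ⧸ p)] {m : ℕ}
    (hm : 0 < m) {g x w : Bb} (hx : x ^ m = g ^ m * w) : ∃ y, x - g * y ∈ p := by
  have h1 : (Ideal.Quotient.mk p g) ^ m ∣ (Ideal.Quotient.mk p x) ^ m :=
    ⟨Ideal.Quotient.mk p w, by rw [← map_pow, ← map_pow, ← map_mul, hx]⟩
  obtain ⟨c, hc⟩ := (IsIntegrallyClosed.pow_dvd_pow_iff hm.ne').mp h1
  obtain ⟨y, rfl⟩ := Ideal.Quotient.mk_surjective c
  exact ⟨y, by rw [← Ideal.Quotient.eq, map_mul]; exact hc⟩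

/-- `w ≡ y ^ m mod p` when `x ^ m = g ^ m w` and `x ≡ g y`. -/
theorem sub_pow_mem (p : Ideal Bb) [hp : p.IsPrime] {m : ℕ} {g x w y : Bb} (hg : g ∉ p)
    (hx : x ^ m = g ^ m * w) (hy : x - g * y ∈ p) : w - y ^ m ∈ p := by
  have h1 : x ^ m - (g * y) ^ m ∈ p := by
    obtain ⟨c, hc⟩ := sub_dvd_pow_sub_pow x (g * y) m
    rw [hc]
    exact p.mul_mem_right _ hy
  have h2 : g ^ m * (w - y ^ m) ∈ p := by
    have : g ^ m * (w - y ^ m) = x ^ m - (g * y) ^ m := by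
      rw [hx, mul_pow]
      ring
    rw [this]
    exact h1
  rcases hp.mem_or_mem h2 with h | h
  · exact absurd (hp.mem_of_pow_mem m h) hg
  · exact h

/-- The kernel computation: an element `x` with `x ^ m ∈ g ^ m Bb` which is `≡ g y₁ mod p1`
with `y₁ ∈ p1 + p2` lies in `g (p1 + p2)`. -/
theorem exists_eq_mul_of_mem (p1 p2 : Ideal Bb) [p1.IsPrime] [p2.IsPrime] (h12 : p1 ⊓ p2 = ⊥)
    (hrad : (p1 ⊔ p2).IsRadical) [IsIntegrallyClosed (Bb ⧸ p2)] {g : Bb} (hg1 : g ∉ p1)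
    (hg2 : g ∉ p2) {m : ℕ} (hm : 0 < m) {x w y1 : Bb} (hx : x ^ m = g ^ m * w)
    (hy1 : x - g * y1 ∈ p1) (hy1f : y1 ∈ p1 ⊔ p2) : ∃ ψ ∈ p1 ⊔ p2, x = g * ψ := by
  obtain ⟨α, hα, β, hβ, rfl⟩ := Submodule.mem_sup.mp hy1f
  have hxβ : x - g * β ∈ p1 := by
    have : x - g * β = (x - g * (α + β)) + g * α := by ring
    rw [this]
    exact p1.add_mem hy1 (p1.mul_mem_left _ hα)
  have hw1 : w - β ^ m ∈ p1 := sub_pow_mem p1 hg1 hx hxβ
  have hwf : w ∈ p1 ⊔ p2 := by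
    have : w = (w - β ^ m) + β ^ m := by ring
    rw [this]
    exact Submodule.add_mem_sup hw1 (Ideal.pow_mem_of_mem p2 hβ m hm)
  obtain ⟨y2, hy2⟩ := exists_sub_mul_mem p2 hm hx
  have hw2 : w - y2 ^ m ∈ p2 := sub_pow_mem p2 hg2 hx hy2
  have hy2f : y2 ∈ p1 ⊔ p2 := by
    apply hrad
    refine ⟨m, ?_⟩
    have : y2 ^ m = w - (w - y2 ^ m) := by ring
    rw [this]
    exact (p1 ⊔ p2).sub_mem hwf (Ideal.mem_sup_right hw2)
  obtain ⟨α2, hα2, β2, hβ2, rfl⟩ := Submodule.mem_sup.mp hy2f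
  have hxα2 : x - g * α2 ∈ p2 := by
    have : x - g * α2 = (x - g * (α2 + β2)) + g * β2 := by ring
    rw [this]
    exact p2.add_mem hy2 (p2.mul_mem_left _ hβ2)
  refine ⟨β + α2, Submodule.add_mem _ (Ideal.mem_sup_right hβ) (Ideal.mem_sup_left hα2), ?_⟩
  have hz : x - g * (β + α2) ∈ p1 ⊓ p2 := by
    constructor
    · have : x - g * (β + α2) = (x - g * β) - g * α2 := by ring
      rw [this]
      exact p1.sub_mem hxβ (p1.mul_mem_left _ hα2)
    · have : x - g * (β + α2) = (x - g * α2) - g * β := by ring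
      rw [this]
      exact p2.sub_mem hxα2 (p2.mul_mem_left _ hβ)
  rw [h12] at hz
  exact sub_eq_zero.mp hz

end Alg

/-! ### 2. Two additivity statements for lengths -/

section Length

variable {S M : Type*} [CommRing S] [AddCommGroup M] [Module S M]

/-- `ℓ(M/I) = ℓ(P/(P ∩ I)) + ℓ(M/(I + P))`, with `K = I + P`. -/
theorem length_quotient_eq (I P K : Submodule S M) (hIK : I ≤ K) (hPK : P ≤ K)
    (hK : ∀ x ∈ K, ∃ i ∈ I, ∃ q ∈ P, i + q = x) :
    Module.length S (M ⧸ I) =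
      Module.length S (↥P ⧸ I.comap P.subtype) + Module.length S (M ⧸ K) := by
  have hle : I ≤ K.comap (LinearMap.id : M →ₗ[S] M) := by
    rw [Submodule.comap_id]
    exact hIK
  let φ : (↥P ⧸ I.comap P.subtype) →ₗ[S] M ⧸ I := Submodule.mapQ _ _ P.subtype le_rfl
  let ψ : (M ⧸ I) →ₗ[S] M ⧸ K := Submodule.mapQ _ _ LinearMap.id hle
  refine Module.length_eq_add_of_exact φ ψ ?_ ?_ ?_
  · rw [injective_iff_map_eq_zero]
    intro z hz
    obtain ⟨z, rfl⟩ := Submodule.Quotient.mk_surjective _ z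
    rw [Submodule.mapQ_apply, Submodule.Quotient.mk_eq_zero] at hz
    rw [Submodule.Quotient.mk_eq_zero]
    exact hz
  · intro z
    obtain ⟨z, rfl⟩ := Submodule.Quotient.mk_surjective _ z
    exact ⟨Submodule.Quotient.mk z, rfl⟩
  · intro y
    constructor
    · intro hy
      obtain ⟨y, rfl⟩ := Submodule.Quotient.mk_surjective _ y
      rw [Submodule.mapQ_apply, Submodule.Quotient.mk_eq_zero, LinearMap.id_apply] at hy
      obtain ⟨i, hi, q, hq, rfl⟩ := hK y hy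
      refine ⟨Submodule.Quotient.mk ⟨q, hq⟩, ?_⟩
      rw [Submodule.mapQ_apply, Submodule.subtype_apply, Submodule.Quotient.eq]
      simpa using I.neg_mem hi
    · rintro ⟨z, rfl⟩
      obtain ⟨z, rfl⟩ := Submodule.Quotient.mk_surjective _ z
      rw [Submodule.mapQ_apply, Submodule.mapQ_apply, Submodule.Quotient.mk_eq_zero]
      exact hPK z.2

/-- `ℓ(M/J) = ℓ(M/Y) + ℓ(M/K)` when `θ` induces an injection `M/Y → M/J` with cokernel
`M/K`. -/
theorem length_quotient_eq_of_map (θ : M →ₗ[S] M) (Y J K : Submodule S M)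
    (hYJ : ∀ y ∈ Y, θ y ∈ J) (hJY : ∀ y, θ y ∈ J → y ∈ Y) (hJK : J ≤ K)
    (hθK : ∀ y, θ y ∈ K) (hK : ∀ x ∈ K, ∃ j ∈ J, ∃ y, j + θ y = x) :
    Module.length S (M ⧸ J) = Module.length S (M ⧸ Y) + Module.length S (M ⧸ K) := by
  have hle : J ≤ K.comap (LinearMap.id : M →ₗ[S] M) := by
    rw [Submodule.comap_id]
    exact hJK
  let φ : (M ⧸ Y) →ₗ[S] M ⧸ J := Submodule.mapQ _ _ θ hYJ
  let ψ : (M ⧸ J) →ₗ[S] M ⧸ K := Submodule.mapQ _ _ LinearMap.id hle
  refine Module.length_eq_add_of_exact φ ψ ?_ ?_ ?_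
  · rw [injective_iff_map_eq_zero]
    intro z hz
    obtain ⟨z, rfl⟩ := Submodule.Quotient.mk_surjective _ z
    rw [Submodule.mapQ_apply, Submodule.Quotient.mk_eq_zero] at hz
    rw [Submodule.Quotient.mk_eq_zero]
    exact hJY z hz
  · intro z
    obtain ⟨z, rfl⟩ := Submodule.Quotient.mk_surjective _ z
    exact ⟨Submodule.Quotient.mk z, rfl⟩
  · intro y
    constructor
    · intro hy
      obtain ⟨y, rfl⟩ := Submodule.Quotient.mk_surjective _ y
      rw [Submodule.mapQ_apply, Submodule.Quotient.mk_eq_zero, LinearMap.id_apply] at hy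
      obtain ⟨j, hj, z, rfl⟩ := hK y hy
      refine ⟨Submodule.Quotient.mk z, ?_⟩
      rw [Submodule.mapQ_apply, Submodule.Quotient.eq]
      simpa using J.neg_mem hj
    · rintro ⟨z, rfl⟩
      obtain ⟨z, rfl⟩ := Submodule.Quotient.mk_surjective _ z
      rw [Submodule.mapQ_apply, Submodule.mapQ_apply, Submodule.Quotient.mk_eq_zero]
      exact hθK z

end Length

/-! ### 3. The ideals `a⁺`, `Y` and the length identity -/

section Main

variable {S Bb : Type*} [CommRing S] [CommRing Bb] [Algebra S Bb]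
variable (p1 p2 : Ideal Bb) (g : Bb) (a : Ideal Bb)

/-- `a⁺ = a + g (p1 + p2)`. -/
def aplus : Ideal Bb := a ⊔ Ideal.span {g} * (p1 ⊔ p2)

/-- `Y = {y | ∃ x ∈ a⁺, x - g y ∈ p1}`. -/
def yIdeal : Ideal Bb where
  carrier := {y | ∃ x ∈ aplus p1 p2 g a, x - g * y ∈ p1}
  add_mem' := by
    rintro y y' ⟨x, hx, hxy⟩ ⟨x', hx', hxy'⟩
    refine ⟨x + x', Ideal.add_mem _ hx hx', ?_⟩
    have : x + x' - g * (y + y') = (x - g * y) + (x' - g * y') := by ring
    rw [this]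
    exact p1.add_mem hxy hxy'
  zero_mem' := ⟨0, Ideal.zero_mem _, by simp⟩
  smul_mem' := by
    rintro c y ⟨x, hx, hxy⟩
    refine ⟨c * x, Ideal.mul_mem_left _ c hx, ?_⟩
    have : c * x - g * (c • y) = c * (x - g * y) := by
      rw [smul_eq_mul]
      ring
    rw [this]
    exact p1.mul_mem_left c hxy

variable {p1 p2 g a}

theorem mem_yIdeal {y : Bb} : y ∈ yIdeal p1 p2 g a ↔ ∃ x ∈ aplus p1 p2 g a, x - g * y ∈ p1 :=
  Iff.rfl

theorem le_aplus : a ≤ aplus p1 p2 g a := le_sup_left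

theorem mul_mem_aplus {φ : Bb} (hφ : φ ∈ p1 ⊔ p2) : g * φ ∈ aplus p1 p2 g a :=
  Ideal.mem_sup_right (Ideal.mul_mem_mul (Ideal.mem_span_singleton_self g) hφ)

/-- Every element of `a⁺` is `≡ g y mod p1`. -/
theorem exists_sub_mul_mem_of_mem_aplus [p1.IsPrime] [IsIntegrallyClosed (Bb ⧸ p1)] {m : ℕ}
    (hm : 0 < m) (P1 : ∀ x ∈ a, ∃ w, x ^ m = g ^ m * w) {x : Bb} (hx : x ∈ aplus p1 p2 g a) :
    ∃ y, x - g * y ∈ p1 := by
  obtain ⟨x0, hx0, z, hz, rfl⟩ := Submodule.mem_sup.mp hx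
  obtain ⟨w, hw⟩ := P1 x0 hx0
  obtain ⟨y0, hy0⟩ := exists_sub_mul_mem p1 hm hw
  obtain ⟨φ, -, rfl⟩ := Ideal.mem_span_singleton_mul.mp hz
  refine ⟨y0 + φ, ?_⟩
  have : x0 + g * φ - g * (y0 + φ) = x0 - g * y0 := by ring
  rw [this]
  exact hy0

/-- `a⁺ ∩ p1 ⊆ (g)`. -/
theorem mem_span_of_mem_aplus_of_mem [p1.IsPrime] [p2.IsPrime] (h12 : p1 ⊓ p2 = ⊥)
    (hrad : (p1 ⊔ p2).IsRadical) [IsIntegrallyClosed (Bb ⧸ p2)] (hg1 : g ∉ p1) (hg2 : g ∉ p2)
    {m : ℕ} (hm : 0 < m) (P1 : ∀ x ∈ a, ∃ w, x ^ m = g ^ m * w) {x : Bb}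
    (hx : x ∈ aplus p1 p2 g a) (hxp : x ∈ p1) : x ∈ Ideal.span {g} := by
  obtain ⟨x0, hx0, z, hz, rfl⟩ := Submodule.mem_sup.mp hx
  obtain ⟨w, hw⟩ := P1 x0 hx0
  obtain ⟨φ, hφ, rfl⟩ := Ideal.mem_span_singleton_mul.mp hz
  have h1 : x0 - g * (-φ) ∈ p1 := by
    have : x0 - g * (-φ) = x0 + g * φ := by ring
    rw [this]
    exact hxp
  obtain ⟨ψ, -, rfl⟩ :=
    exists_eq_mul_of_mem p1 p2 h12 hrad hg1 hg2 hm hw h1 ((p1 ⊔ p2).neg_mem hφ)
  rw [Ideal.mem_span_singleton']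
  exact ⟨ψ + φ, by ring⟩

/-- **The length identity** `ℓ(Bb/a⁺) = ℓ(Bb/g) + ℓ(Bb/Y)`. -/
theorem length_quot_aplus [hp1 : p1.IsPrime] [p2.IsPrime] (h12 : p1 ⊓ p2 = ⊥)
    (hrad : (p1 ⊔ p2).IsRadical) [IsIntegrallyClosed (Bb ⧸ p1)] [IsIntegrallyClosed (Bb ⧸ p2)]
    (hg1 : g ∉ p1) (hg2 : g ∉ p2) {m : ℕ} (hm : 0 < m)
    (P1 : ∀ x ∈ a, ∃ w, x ^ m = g ^ m * w) :
    Module.length S (Bb ⧸ aplus p1 p2 g a) =
      Module.length S (Bb ⧸ Ideal.span {g}) + Module.length S (Bb ⧸ yIdeal p1 p2 g a) := by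
  set A : Submodule S Bb := (aplus p1 p2 g a).restrictScalars S with hA
  set P : Submodule S Bb := p1.restrictScalars S with hP
  set G : Submodule S Bb := (Ideal.span {g}).restrictScalars S with hG
  set K1 : Submodule S Bb := (aplus p1 p2 g a ⊔ p1).restrictScalars S with hK1
  set K2 : Submodule S Bb := (Ideal.span {g} ⊔ p1).restrictScalars S with hK2
  set Y : Submodule S Bb := (yIdeal p1 p2 g a).restrictScalars S with hY
  have e1 := length_quotient_eq A P K1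
    (fun x hx => Ideal.mem_sup_left hx) (fun x hx => Ideal.mem_sup_right hx)
    (fun x hx => by
      obtain ⟨i, hi, q, hq, h⟩ := Submodule.mem_sup.mp (show x ∈ aplus p1 p2 g a ⊔ p1 from hx)
      exact ⟨i, hi, q, hq, h⟩)
  have e2 := length_quotient_eq G P K2
    (fun x hx => Ideal.mem_sup_left hx) (fun x hx => Ideal.mem_sup_right hx)
    (fun x hx => by
      obtain ⟨i, hi, q, hq, h⟩ := Submodule.mem_sup.mp (show x ∈ Ideal.span {g} ⊔ p1 from hx)
      exact ⟨i, hi, q, hq, h⟩)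
  have hcomap : A.comap P.subtype = G.comap P.subtype := by
    ext r
    constructor
    · intro hr
      exact mem_span_of_mem_aplus_of_mem h12 hrad hg1 hg2 hm P1 hr r.2
    · intro hr
      obtain ⟨c, hc⟩ := Ideal.mem_span_singleton'.mp hr
      have hc' : c * g ∈ p1 := by
        rw [hc]
        exact r.2
      have hcp : c ∈ p1 := (hp1.mem_or_mem hc').resolve_right hg1
      have : (r : Bb) = g * c := by
        rw [mul_comm]
        exact hc.symm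
      show (r : Bb) ∈ aplus p1 p2 g a
      rw [this]
      exact mul_mem_aplus (Ideal.mem_sup_left hcp)
  have e3 := length_quotient_eq_of_map (LinearMap.mulLeft S g) Y K1 K2
    (by
      rintro y ⟨x, hx, hxy⟩
      have : g * y = x - (x - g * y) := by ring
      show g * y ∈ aplus p1 p2 g a ⊔ p1
      rw [this]
      exact Ideal.sub_mem _ (Ideal.mem_sup_left hx) (Ideal.mem_sup_right hxy))
    (by
      intro y hy
      obtain ⟨x, hx, r, hr, hxr⟩ := Submodule.mem_sup.mp hy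
      refine ⟨x, hx, ?_⟩
      have h1 : x - g * y = -r := by
        have h2 : g * y = x + r := hxr.symm
        rw [h2]
        ring
      rw [h1]
      exact p1.neg_mem hr)
    (by
      intro x hx
      obtain ⟨x1, hx1, r, hr, rfl⟩ := Submodule.mem_sup.mp hx
      obtain ⟨y, hy⟩ := exists_sub_mul_mem_of_mem_aplus hm P1 hx1
      have : x1 + r = g * y + ((x1 - g * y) + r) := by ring
      show x1 + r ∈ Ideal.span {g} ⊔ p1
      rw [this]
      exact Ideal.add_mem _ (Ideal.mem_sup_left (Ideal.mem_span_singleton'.mpr ⟨y, mul_comm _ _⟩))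
        (Ideal.mem_sup_right (p1.add_mem hy hr)))
    (by
      intro y
      exact Ideal.mem_sup_left (Ideal.mem_span_singleton'.mpr ⟨y, mul_comm _ _⟩))
    (by
      intro x hx
      obtain ⟨z, hz, r, hr, rfl⟩ := Submodule.mem_sup.mp hx
      obtain ⟨c, rfl⟩ := Ideal.mem_span_singleton'.mp hz
      exact ⟨r, Ideal.mem_sup_right hr, c, by
        show r + g * c = c * g + r
        ring⟩)
  have r1 : Module.length S (Bb ⧸ A) = Module.length S (Bb ⧸ aplus p1 p2 g a) :=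
    (Submodule.Quotient.restrictScalarsEquiv S (aplus p1 p2 g a)).length_eq
  have r2 : Module.length S (Bb ⧸ G) = Module.length S (Bb ⧸ Ideal.span {g}) :=
    (Submodule.Quotient.restrictScalarsEquiv S (Ideal.span {g})).length_eq
  have r3 : Module.length S (Bb ⧸ Y) = Module.length S (Bb ⧸ yIdeal p1 p2 g a) :=
    (Submodule.Quotient.restrictScalarsEquiv S (yIdeal p1 p2 g a)).length_eq
  rw [← r1, ← r2, ← r3, e1, e2, e3, hcomap]
  ac_rfl

theorem enat_le_of_add_le {G a b : ℕ∞} (hG : G ≠ ⊤) (h : a + b ≤ 2 * G) (hb : G ≤ b) :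
    a ≤ G := by
  have h1 : a + G ≤ G + G := by
    calc a + G ≤ a + b := add_le_add_right hb a
      _ ≤ 2 * G := h
      _ = G + G := two_mul G
  exact (WithTop.add_le_add_iff_right hG).mp h1

theorem enat_eq_zero_of_add_le {G X L : ℕ∞} (hG : G ≠ ⊤) (h : X + (G + L) ≤ G) :
    X = 0 ∧ L = 0 := by
  have h1 : (X + L) + G ≤ 0 + G := by
    rw [zero_add]
    calc X + L + G = X + (G + L) := by ring
      _ ≤ G := h
  have h2 : X + L ≤ 0 := (WithTop.add_le_add_iff_right hG).mp h1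
  have h3 : X + L = 0 := le_antisymm h2 zero_le
  exact add_eq_zero.mp h3

/-- `ℓ(Bb/a) = ℓ(a⁺/a) + (ℓ(Bb/g) + ℓ(Bb/Y))`. -/
theorem length_quot_eq [p1.IsPrime] [p2.IsPrime] (h12 : p1 ⊓ p2 = ⊥)
    (hrad : (p1 ⊔ p2).IsRadical) [IsIntegrallyClosed (Bb ⧸ p1)] [IsIntegrallyClosed (Bb ⧸ p2)]
    (hg1 : g ∉ p1) (hg2 : g ∉ p2) {m : ℕ} (hm : 0 < m)
    (P1 : ∀ x ∈ a, ∃ w, x ^ m = g ^ m * w) :
    Module.length S (Bb ⧸ a) =
      Module.length S (↥((aplus p1 p2 g a).restrictScalars S) ⧸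
          (a.restrictScalars S).comap ((aplus p1 p2 g a).restrictScalars S).subtype) +
        (Module.length S (Bb ⧸ Ideal.span {g}) + Module.length S (Bb ⧸ yIdeal p1 p2 g a)) := by
  have e := length_quotient_eq (a.restrictScalars S) ((aplus p1 p2 g a).restrictScalars S)
    ((aplus p1 p2 g a).restrictScalars S) (fun x hx => le_aplus hx) le_rfl
    (fun x hx => ⟨0, Submodule.zero_mem _, x, hx, zero_add x⟩)
  have r0 : Module.length S (Bb ⧸ a.restrictScalars S) = Module.length S (Bb ⧸ a) :=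
    (Submodule.Quotient.restrictScalarsEquiv S a).length_eq
  have r1 : Module.length S (Bb ⧸ (aplus p1 p2 g a).restrictScalars S) =
      Module.length S (Bb ⧸ aplus p1 p2 g a) :=
    (Submodule.Quotient.restrictScalarsEquiv S (aplus p1 p2 g a)).length_eq
  rw [← r0, e, r1, length_quot_aplus (S := S) h12 hrad hg1 hg2 hm P1]

/-- Lower bound `ℓ(Bb/g) ≤ ℓ(Bb/a)`. -/
theorem length_le [p1.IsPrime] [p2.IsPrime] (h12 : p1 ⊓ p2 = ⊥)
    (hrad : (p1 ⊔ p2).IsRadical) [IsIntegrallyClosed (Bb ⧸ p1)] [IsIntegrallyClosed (Bb ⧸ p2)]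
    (hg1 : g ∉ p1) (hg2 : g ∉ p2) {m : ℕ} (hm : 0 < m)
    (P1 : ∀ x ∈ a, ∃ w, x ^ m = g ^ m * w) :
    Module.length S (Bb ⧸ Ideal.span {g}) ≤ Module.length S (Bb ⧸ a) := by
  rw [length_quot_eq (S := S) h12 hrad hg1 hg2 hm P1]
  exact le_trans le_self_add le_add_self

/-- If `ℓ(Bb/a) ≤ ℓ(Bb/g) < ∞` then `g (p1 + p2) ⊆ a` and some `x ∈ a` is `≡ g mod p1`. -/
theorem node_side [p1.IsPrime] [p2.IsPrime] (h12 : p1 ⊓ p2 = ⊥)
    (hrad : (p1 ⊔ p2).IsRadical) [IsIntegrallyClosed (Bb ⧸ p1)] [IsIntegrallyClosed (Bb ⧸ p2)]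
    (hg1 : g ∉ p1) (hg2 : g ∉ p2) {m : ℕ} (hm : 0 < m)
    (P1 : ∀ x ∈ a, ∃ w, x ^ m = g ^ m * w)
    (hfin : Module.length S (Bb ⧸ Ideal.span {g}) ≠ ⊤)
    (hle : Module.length S (Bb ⧸ a) ≤ Module.length S (Bb ⧸ Ideal.span {g})) :
    (∀ φ ∈ p1 ⊔ p2, g * φ ∈ a) ∧ ∃ x ∈ a, x - g ∈ p1 := by
  rw [length_quot_eq (S := S) h12 hrad hg1 hg2 hm P1] at hle
  obtain ⟨hX, hY⟩ := enat_eq_zero_of_add_le hfin hle
  have hsub : aplus p1 p2 g a ≤ a := by
    rw [Module.length_eq_zero_iff, Submodule.Quotient.subsingleton_iff] at hX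
    intro x hx
    have : (⟨x, hx⟩ : ↥((aplus p1 p2 g a).restrictScalars S)) ∈
        (a.restrictScalars S).comap ((aplus p1 p2 g a).restrictScalars S).subtype := by
      rw [hX]
      exact Submodule.mem_top
    exact this
  have hYtop : yIdeal p1 p2 g a = ⊤ := by
    rw [Module.length_eq_zero_iff, Ideal.Quotient.subsingleton_iff] at hY
    exact hY
  refine ⟨fun φ hφ => hsub (mul_mem_aplus hφ), ?_⟩
  have h1 : (1 : Bb) ∈ yIdeal p1 p2 g a := by
    rw [hYtop]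
    exact Submodule.mem_top
  obtain ⟨x, hx, hx1⟩ := h1
  exact ⟨x, hsub hx, by simpa using hx1⟩

end Main

/-! ### 4. The node lemma -/

section Final

variable {S Bb : Type*} [CommRing S] [CommRing Bb] [Algebra S Bb]

/-- **Node lemma (Lemma N').** -/
theorem sq_mem_mul (p1 p2 : Ideal Bb) [hp1 : p1.IsPrime] [hp2 : p2.IsPrime] (h12 : p1 ⊓ p2 = ⊥)
    (hrad : (p1 ⊔ p2).IsRadical) [IsIntegrallyClosed (Bb ⧸ p1)] [IsIntegrallyClosed (Bb ⧸ p2)]
    (g : Bb) (hg1 : g ∉ p1) (hg2 : g ∉ p2) (m : ℕ) (hm : m ≠ 0) (a a' : Ideal Bb)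
    (P1 : ∀ x ∈ a, ∃ w, x ^ m = g ^ m * w) (P1' : ∀ x ∈ a', ∃ w, x ^ m = g ^ m * w)
    (P2 : a * a' ≤ Ideal.span {g ^ 2})
    (hfin : Module.length S (Bb ⧸ Ideal.span {g}) ≠ ⊤)
    (hlen : Module.length S (Bb ⧸ a) + Module.length S (Bb ⧸ a') ≤
      2 * Module.length S (Bb ⧸ Ideal.span {g})) :
    g ^ 2 ∈ a * a' := by
  have hm' : 0 < m := Nat.pos_of_ne_zero hm
  have h21 : p2 ⊓ p1 = ⊥ := by rw [inf_comm]; exact h12
  have hrad' : (p2 ⊔ p1).IsRadical := by rw [sup_comm]; exact hrad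
  have hla : Module.length S (Bb ⧸ a) ≤ Module.length S (Bb ⧸ Ideal.span {g}) :=
    enat_le_of_add_le hfin hlen (length_le (S := S) h12 hrad hg1 hg2 hm' P1')
  have hla' : Module.length S (Bb ⧸ a') ≤ Module.length S (Bb ⧸ Ideal.span {g}) := by
    rw [add_comm] at hlen
    exact enat_le_of_add_le hfin hlen (length_le (S := S) h12 hrad hg1 hg2 hm' P1)
  obtain ⟨-, x, hx, hxg⟩ := node_side (S := S) h12 hrad hg1 hg2 hm' P1 hfin hla
  obtain ⟨hgf', x', hx', hxg'⟩ := node_side (S := S) h12 hrad hg1 hg2 hm' P1' hfin hla'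
  obtain ⟨-, z, hz, hzg⟩ := node_side (S := S) h21 hrad' hg2 hg1 hm' P1 hfin hla
  -- `x x' = g² w`, `w - 1 ∈ p1`
  obtain ⟨w, hw⟩ := Ideal.mem_span_singleton'.mp (P2 (Ideal.mul_mem_mul hx hx'))
  have hφ : w - 1 ∈ p1 := by
    have h1 : g ^ 2 * (w - 1) ∈ p1 := by
      have : g ^ 2 * (w - 1) = (x - g) * x' + g * (x' - g) := by
        have hw' : g ^ 2 * w = x * x' := by rw [← hw]; ring
        calc g ^ 2 * (w - 1) = g ^ 2 * w - g ^ 2 := by ring
          _ = x * x' - g ^ 2 := by rw [hw']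
          _ = (x - g) * x' + g * (x' - g) := by ring
      rw [this]
      exact p1.add_mem (p1.mul_mem_right _ hxg) (p1.mul_mem_left _ hxg')
    rcases hp1.mem_or_mem h1 with h | h
    · exact absurd (hp1.mem_of_pow_mem 2 h) hg1
    · exact h
  -- `z (g φ) = g² φ`
  have hzφ : z * (g * (w - 1)) = g ^ 2 * (w - 1) := by
    have h0 : (z - g) * (w - 1) ∈ p1 ⊓ p2 :=
      ⟨p1.mul_mem_left _ hφ, p2.mul_mem_right _ hzg⟩
    rw [h12] at h0
    have h0' : (z - g) * (w - 1) = 0 := h0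
    have : z * (g * (w - 1)) - g ^ 2 * (w - 1) = g * ((z - g) * (w - 1)) := by ring
    rw [← sub_eq_zero, this, h0', mul_zero]
  have hmem : z * (g * (w - 1)) ∈ a * a' :=
    Ideal.mul_mem_mul hz (hgf' (w - 1) (Ideal.mem_sup_left hφ))
  have hfinal : g ^ 2 = x * x' - z * (g * (w - 1)) := by
    rw [hzφ, ← hw]
    ring
  rw [hfinal]
  exact Ideal.sub_mem _ (Ideal.mul_mem_mul hx hx') hmem

end Final

end Fermat.Agent.S34.CartPair.NodeLemma

namespace Fermat.Agent.S34.CartPair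

/-- **Node lemma (Lemma N')**, under the name and signature frozen by helper224 (#3072). -/
theorem sq_mem_mul {S Bb : Type*} [CommRing S] [CommRing Bb] [Algebra S Bb] (p1 p2 : Ideal Bb)
    [p1.IsPrime] [p2.IsPrime] (h12 : p1 ⊓ p2 = ⊥) (hrad : (p1 ⊔ p2).IsRadical)
    [IsIntegrallyClosed (Bb ⧸ p1)] [IsIntegrallyClosed (Bb ⧸ p2)] (g : Bb) (hg1 : g ∉ p1)
    (hg2 : g ∉ p2) (m : ℕ) (hm : m ≠ 0) (a a' : Ideal Bb)
    (P1 : ∀ x ∈ a, ∃ w, x ^ m = g ^ m * w) (P1' : ∀ x ∈ a', ∃ w, x ^ m = g ^ m * w)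
    (P2 : a * a' ≤ Ideal.span {g ^ 2})
    (hfin : Module.length S (Bb ⧸ Ideal.span {g}) ≠ ⊤)
    (hlen : Module.length S (Bb ⧸ a) + Module.length S (Bb ⧸ a') ≤
      2 * Module.length S (Bb ⧸ Ideal.span {g})) :
    g ^ 2 ∈ a * a' :=
  NodeLemma.sq_mem_mul p1 p2 h12 hrad g hg1 hg2 m hm a a' P1 P1' P2 hfin hlen

end Fermat.Agent.S34.CartPair
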