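import Mathlib
import Fermat.Agent.Lib.NormalFree
import Fermat.Agent.S34.CartPair.Ideals
import Fermat.Agent.S34.CartPair.NodeLemma
import Fermat.Agent.S34.CartPair.IndexClosed

/-!
# CartPair, abstract Theorem 1 (S34 route of helper224): the glue

`B` an integrally closed domain, `I0 = p1 ⊓ p2` (the ideal `π B`), `B ⧸ p1`, `B ⧸ p2` integrally
closed, `p1 ⊔ p2` radical, `b ∉ p1 ∪ p2`, `b' - b ∈ I0` (so `h = b'/b` is toric), and
`A = rootIdeal (b b'^(m-1)) m`, `A' = rootIdeal (b^(m-1) b') m`.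

* `mul_mem_sup_of_length` : **generic core.**  If the images `a`, `a'` of `A`, `A'` in
  `Bb = B ⧸ I0` satisfy the length inequality
  `length (Bb/a) + length (Bb/a') ≤ 2 * length (Bb/b) < ∞` (lengths over ANY base ring `S` acting
  on `Bb`), then `b b' ∈ A A' ⊔ I0`.  (Transport of the nodal data to `Bb` + the node lemma
  `sq_mem_mul`.)  The length inequality is produced by the index identity (`Index.lean`).
* `mul_mem_of_length` : the same over a base `R` with `π` in its Jacobson radical,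
  `I0 = π B`, lengths over `R ⧸ π` (the literal shape of `Index.length_identity`), with the
  Jacobson lift: conclusion `b b' ∈ A A'`.
* `mul_mem_of_nodal` : **Theorem 1, local form** (`R` a Noetherian UFD, `π ∈ Jac R` prime,
  `R ⧸ π` a PID; witnesses `x x' = b b' s`, `q ∤ s`, at every prime `q ≁ π` of `R`):
  `b b' ∈ A A'`.  `= mul_mem_of_length ∘ IndexClosed.length_add_length_closed'`.
* helpers for the instantiation: `algebraMap_mem_jacobson_bot`, `dvd_or_dvd_of_dvd_smul`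
  (`B ⧸ π B` is torsion-free over `R ⧸ π`), `dvd_of_dvd_mul_of_notMem` (regularity modulo `π` of
  elements outside both components), `notMem_of_dvd_sub`, `mul_pow_notMem`.
-/

set_option autoImplicit false

namespace Fermat.Agent.S34.CartPair

section Core

variable {S B : Type*} [CommRing S] [CommRing B] [IsDomain B] [IsIntegrallyClosed B]

/-- **Generic core of Theorem 1.** -/
theorem mul_mem_sup_of_length (I0 : Ideal B) [Algebra S (B ⧸ I0)] (p1 p2 : Ideal B)
    [hp1 : p1.IsPrime] [hp2 : p2.IsPrime] (h12 : p1 ⊓ p2 = I0)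
    [IsIntegrallyClosed (B ⧸ p1)] [IsIntegrallyClosed (B ⧸ p2)] (hrad : (p1 ⊔ p2).IsRadical)
    (b b' : B) (hb1 : b ∉ p1) (hb2 : b ∉ p2) (hbb' : b' - b ∈ I0) (m : ℕ) (hm : m ≠ 0)
    (hfin : Module.length S ((B ⧸ I0) ⧸ Ideal.span {Ideal.Quotient.mk I0 b}) ≠ ⊤)
    (hlen : Module.length S
          ((B ⧸ I0) ⧸ (rootIdeal (b * b' ^ (m - 1)) m).map (Ideal.Quotient.mk I0)) +
        Module.length S
          ((B ⧸ I0) ⧸ (rootIdeal (b ^ (m - 1) * b') m).map (Ideal.Quotient.mk I0)) ≤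
      2 * Module.length S ((B ⧸ I0) ⧸ Ideal.span {Ideal.Quotient.mk I0 b})) :
    b * b' ∈ rootIdeal (b * b' ^ (m - 1)) m * rootIdeal (b ^ (m - 1) * b') m ⊔ I0 := by
  set mk := Ideal.Quotient.mk I0 with hmk
  have hsurj : Function.Surjective mk := Ideal.Quotient.mk_surjective
  have hker : RingHom.ker mk = I0 := Ideal.mk_ker
  have hI1 : I0 ≤ p1 := h12 ▸ inf_le_left
  have hI2 : I0 ≤ p2 := h12 ▸ inf_le_right
  have hcm : ∀ J : Ideal B, I0 ≤ J → (J.map mk).comap mk = J := by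
    intro J hJ
    rw [Ideal.comap_map_of_surjective mk hsurj, ← RingHom.ker_eq_comap_bot, hker,
      sup_eq_left.mpr hJ]
  have hq1 : (p1.map mk).IsPrime :=
    Ideal.map_isPrime_of_surjective hsurj (by rw [hker]; exact hI1)
  have hq2 : (p2.map mk).IsPrime :=
    Ideal.map_isPrime_of_surjective hsurj (by rw [hker]; exact hI2)
  have hinf : p1.map mk ⊓ p2.map mk = ⊥ := by
    rw [eq_bot_iff]
    intro x hx
    obtain ⟨y, rfl⟩ := hsurj x
    have h1 : y ∈ p1 := by
      rw [← hcm p1 hI1]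
      exact hx.1
    have h2 : y ∈ p2 := by
      rw [← hcm p2 hI2]
      exact hx.2
    have h3 : y ∈ I0 := h12 ▸ ⟨h1, h2⟩
    rw [Ideal.mem_bot]
    exact Ideal.Quotient.eq_zero_iff_mem.mpr h3
  have hradb : (p1.map mk ⊔ p2.map mk).IsRadical := by
    rw [← Ideal.map_sup]
    intro x hx
    obtain ⟨y, rfl⟩ := hsurj x
    obtain ⟨n, hn⟩ := hx
    have hle : I0 ≤ p1 ⊔ p2 := hI1.trans le_sup_left
    have h1 : y ^ n ∈ p1 ⊔ p2 := by
      rw [← hcm _ hle, Ideal.mem_comap, map_pow]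
      exact hn
    exact Ideal.mem_map_of_mem mk (hrad ⟨n, h1⟩)
  have : IsIntegrallyClosed ((B ⧸ I0) ⧸ p1.map mk) :=
    IsIntegrallyClosed.of_equiv
      (((DoubleQuot.quotQuotEquivQuotSup I0 p1).trans
        (Ideal.quotEquivOfEq (sup_eq_right.mpr hI1))).symm)
  have : IsIntegrallyClosed ((B ⧸ I0) ⧸ p2.map mk) :=
    IsIntegrallyClosed.of_equiv
      (((DoubleQuot.quotQuotEquivQuotSup I0 p2).trans
        (Ideal.quotEquivOfEq (sup_eq_right.mpr hI2))).symm)
  have hg1 : mk b ∉ p1.map mk := by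
    intro h
    have h' : b ∈ (p1.map mk).comap mk := h
    rw [hcm p1 hI1] at h'
    exact hb1 h'
  have hg2 : mk b ∉ p2.map mk := by
    intro h
    have h' : b ∈ (p2.map mk).comap mk := h
    rw [hcm p2 hI2] at h'
    exact hb2 h'
  have hb'g : mk b' = mk b := Ideal.Quotient.eq.mpr hbb'
  obtain ⟨k, rfl⟩ : ∃ k, m = k + 1 := ⟨m - 1, by omega⟩
  have he : mk (b * b' ^ (k + 1 - 1)) = mk b ^ (k + 1) := by
    rw [map_mul, map_pow, hb'g, Nat.add_sub_cancel, pow_succ']
  have he' : mk (b ^ (k + 1 - 1) * b') = mk b ^ (k + 1) := by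
    rw [map_mul, map_pow, hb'g, Nat.add_sub_cancel, pow_succ]
  have P1 : ∀ x ∈ (rootIdeal (b * b' ^ (k + 1 - 1)) (k + 1)).map mk,
      ∃ w, x ^ (k + 1) = mk b ^ (k + 1) * w := by
    intro x hx
    have h2 := map_rootIdeal_pow_le mk (b * b' ^ (k + 1 - 1)) hm (Ideal.pow_mem_pow hx (k + 1))
    rw [he] at h2
    obtain ⟨w, hw⟩ := Ideal.mem_span_singleton'.mp h2
    exact ⟨w, by rw [← hw, mul_comm]⟩
  have P1' : ∀ x ∈ (rootIdeal (b ^ (k + 1 - 1) * b') (k + 1)).map mk,
      ∃ w, x ^ (k + 1) = mk b ^ (k + 1) * w := by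
    intro x hx
    have h2 := map_rootIdeal_pow_le mk (b ^ (k + 1 - 1) * b') hm (Ideal.pow_mem_pow hx (k + 1))
    rw [he'] at h2
    obtain ⟨w, hw⟩ := Ideal.mem_span_singleton'.mp h2
    exact ⟨w, by rw [← hw, mul_comm]⟩
  have P2 : (rootIdeal (b * b' ^ (k + 1 - 1)) (k + 1)).map mk *
      (rootIdeal (b ^ (k + 1 - 1) * b') (k + 1)).map mk ≤ Ideal.span {mk b ^ 2} := by
    have h := map_rootIdeal_mul_le mk b b' hm
    rw [hb'g, ← sq] at h
    exact h
  have key := sq_mem_mul (S := S) (p1.map mk) (p2.map mk) hinf hradb (mk b) hg1 hg2 (k + 1) hm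
    _ _ P1 P1' P2 hfin hlen
  rw [← Ideal.map_mul] at key
  have hbb : mk (b * b') = mk b ^ 2 := by rw [map_mul, hb'g, sq]
  rw [← hbb] at key
  have h' : b * b' ∈ ((rootIdeal (b * b' ^ (k + 1 - 1)) (k + 1) *
      rootIdeal (b ^ (k + 1 - 1) * b') (k + 1)).map mk).comap mk := key
  rw [Ideal.comap_map_of_surjective mk hsurj, ← RingHom.ker_eq_comap_bot, hker] at h'
  exact h'

end Core

namespace Local

section Nodal

variable {R B : Type*} [CommRing R] [IsDomain R] [IsNoetherianRing R]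
  [UniqueFactorizationMonoid R] [CommRing B] [IsDomain B] [IsIntegrallyClosed B] [Algebra R B]
  [FaithfulSMul R B] [Module.Finite R B]

omit [IsDomain R] [IsNoetherianRing R] [UniqueFactorizationMonoid R] [IsDomain B]
  [IsIntegrallyClosed B] [FaithfulSMul R B] [Module.Finite R B] in
/-- An element of the Jacobson radical of `R` stays in the Jacobson radical of an integral
`R`-algebra. -/
theorem algebraMap_mem_jacobson_bot [Algebra.IsIntegral R B] {π : R}
    (hjac : π ∈ (⊥ : Ideal R).jacobson) : algebraMap R B π ∈ (⊥ : Ideal B).jacobson := by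
  rw [Ideal.jacobson, Ideal.mem_sInf]
  intro M hM
  have hMmax : M.IsMaximal := hM.2
  have h1 : (M.comap (algebraMap R B)).IsMaximal :=
    Ideal.isMaximal_comap_of_isIntegral_of_isMaximal M
  have h2 : π ∈ M.comap (algebraMap R B) := by
    rw [Ideal.jacobson, Ideal.mem_sInf] at hjac
    exact hjac ⟨bot_le, h1⟩
  exact h2

omit [IsNoetherianRing R] [Module.Finite R B] in
/-- `B ⧸ π B` is torsion-free over `R ⧸ π` (normality of `B`). -/
theorem dvd_or_dvd_of_dvd_smul [Algebra.IsIntegral R B] {π : R} (hπ : Prime π) (r : R) (y : B)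
    (h : algebraMap R B π ∣ r • y) : π ∣ r ∨ algebraMap R B π ∣ y := by
  by_cases hr : π ∣ r
  · exact Or.inl hr
  · right
    obtain ⟨z, hz⟩ := h
    have h1 : r • y = π • z := by rw [hz, Algebra.smul_def]
    obtain ⟨w, hw⟩ := Fermat.Agent.Lib.NormalFree.exists_eq_smul_of_smul_eq_smul hπ hr h1
    exact ⟨w, by rw [hw, Algebra.smul_def]⟩

end Nodal

section Reg

variable {B : Type*} [CommRing B]

/-- An element outside both components is regular modulo `c` when `p1 ⊓ p2 = (c)`. -/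
theorem dvd_of_dvd_mul_of_notMem {p1 p2 : Ideal B} [p1.IsPrime] [p2.IsPrime] {c : B}
    (h12 : p1 ⊓ p2 = Ideal.span {c}) {e : B} (h1 : e ∉ p1) (h2 : e ∉ p2) (z : B)
    (h : c ∣ e * z) : c ∣ z := by
  have hmem : e * z ∈ p1 ⊓ p2 := by
    rw [h12]
    exact Ideal.mem_span_singleton.mpr h
  have hz1 : z ∈ p1 := (Ideal.IsPrime.mem_or_mem inferInstance hmem.1).resolve_left h1
  have hz2 : z ∈ p2 := (Ideal.IsPrime.mem_or_mem inferInstance hmem.2).resolve_left h2
  have hz : z ∈ p1 ⊓ p2 := ⟨hz1, hz2⟩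
  rw [h12] at hz
  exact Ideal.mem_span_singleton.mp hz

/-- `b' ≡ b` modulo `p ⊇ (c)` and `b ∉ p` give `b' ∉ p`. -/
theorem notMem_of_dvd_sub {p : Ideal B} {c : B} (hc : c ∈ p) {b b' : B} (hb : b ∉ p)
    (hbb' : c ∣ b' - b) : b' ∉ p := by
  intro h
  apply hb
  have h1 : b' - b ∈ p := by
    obtain ⟨w, hw⟩ := hbb'
    rw [hw]
    exact p.mul_mem_right w hc
  have h2 : b = b' - (b' - b) := by ring
  rw [h2]
  exact p.sub_mem h h1

/-- Products of powers of elements outside a prime stay outside. -/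
theorem mul_pow_notMem {p : Ideal B} [p.IsPrime] {x y : B} (hx : x ∉ p) (hy : y ∉ p) (i j : ℕ) :
    x ^ i * y ^ j ∉ p := by
  intro h
  rcases Ideal.IsPrime.mem_or_mem inferInstance h with h | h
  · exact hx (Ideal.IsPrime.mem_of_pow_mem inferInstance i h)
  · exact hy (Ideal.IsPrime.mem_of_pow_mem inferInstance j h)

end Reg

end Local

open Local

section Thm

variable {R B : Type*} [CommRing R] [IsDomain R] [IsNoetherianRing R]
  [UniqueFactorizationMonoid R] [CommRing B] [IsDomain B] [IsIntegrallyClosed B] [Algebra R B]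
  [FaithfulSMul R B] [Module.Finite R B]

omit [IsDomain R] [IsNoetherianRing R] [UniqueFactorizationMonoid R] [FaithfulSMul R B] in
/-- **Theorem 1 from the length inequality on the special fibre** (Jacobson lift included). -/
theorem mul_mem_of_length (π : R) (hjac : π ∈ (⊥ : Ideal R).jacobson)
    (p1 p2 : Ideal B) [p1.IsPrime] [p2.IsPrime]
    (h12 : p1 ⊓ p2 = Ideal.span {algebraMap R B π})
    [IsIntegrallyClosed (B ⧸ p1)] [IsIntegrallyClosed (B ⧸ p2)] (hrad : (p1 ⊔ p2).IsRadical)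
    (b b' : B) (hb1 : b ∉ p1) (hb2 : b ∉ p2) (hbb' : algebraMap R B π ∣ b' - b) (m : ℕ)
    (hm : m ≠ 0)
    (hfin : Module.length (R ⧸ Ideal.span {π})
        ((B ⧸ (Ideal.span {π}).map (algebraMap R B)) ⧸
          Ideal.span {Ideal.Quotient.mk ((Ideal.span {π}).map (algebraMap R B)) b}) ≠ ⊤)
    (hlen : Module.length (R ⧸ Ideal.span {π})
          ((B ⧸ (Ideal.span {π}).map (algebraMap R B)) ⧸
            (rootIdeal (b * b' ^ (m - 1)) m).map
              (Ideal.Quotient.mk ((Ideal.span {π}).map (algebraMap R B)))) +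
        Module.length (R ⧸ Ideal.span {π})
          ((B ⧸ (Ideal.span {π}).map (algebraMap R B)) ⧸
            (rootIdeal (b ^ (m - 1) * b') m).map
              (Ideal.Quotient.mk ((Ideal.span {π}).map (algebraMap R B)))) ≤
      2 * Module.length (R ⧸ Ideal.span {π})
        ((B ⧸ (Ideal.span {π}).map (algebraMap R B)) ⧸
          Ideal.span {Ideal.Quotient.mk ((Ideal.span {π}).map (algebraMap R B)) b})) :
    b * b' ∈ rootIdeal (b * b' ^ (m - 1)) m * rootIdeal (b ^ (m - 1) * b') m := by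
  have hI0 : (Ideal.span {π}).map (algebraMap R B) = Ideal.span {algebraMap R B π} := by
    rw [Ideal.map_span, Set.image_singleton]
  have hc1 : algebraMap R B π ∈ p1 :=
    (h12 ▸ inf_le_left : Ideal.span {algebraMap R B π} ≤ p1) (Ideal.mem_span_singleton_self _)
  have hc2 : algebraMap R B π ∈ p2 :=
    (h12 ▸ inf_le_right : Ideal.span {algebraMap R B π} ≤ p2) (Ideal.mem_span_singleton_self _)
  have hb1' : b' ∉ p1 := notMem_of_dvd_sub hc1 hb1 hbb'
  have hb2' : b' ∉ p2 := notMem_of_dvd_sub hc2 hb2 hbb'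
  have core := mul_mem_sup_of_length (S := R ⧸ Ideal.span {π})
    ((Ideal.span {π}).map (algebraMap R B)) p1 p2 (h12.trans hI0.symm) hrad b b' hb1 hb2
    (by rw [hI0]; exact Ideal.mem_span_singleton.mpr hbb') m hm hfin hlen
  rw [hI0] at core
  have hreg : ∀ z : B, algebraMap R B π ∣ b * b' * z → algebraMap R B π ∣ z := by
    have e1 : b * b' ∉ p1 := by simpa using mul_pow_notMem hb1 hb1' 1 1
    have e2 : b * b' ∉ p2 := by simpa using mul_pow_notMem hb2 hb2' 1 1
    exact dvd_of_dvd_mul_of_notMem h12 e1 e2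
  exact mem_of_mem_sup_span (algebraMap_mem_jacobson_bot hjac) hreg
    (rootIdeal_mul_rootIdeal_le b b' hm) core

/-- **Theorem 1 (CartPair), local form over a base `R` with `π` in its Jacobson radical.**
`R` a Noetherian UFD, `π` a prime element of `Jac R` with `R ⧸ π` a PID; `B` an integrally closed
domain, finite over `R`, with nodal special fibre (`π B = p1 ⊓ p2`, `B ⧸ pᵢ` integrally closed,
`p1 ⊔ p2` radical); `b ∉ p1 ∪ p2`, `b' ≡ b` modulo `π`; witnesses at every prime `q ≁ π` of `R`.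
Then `b b' ∈ A A'` for the two root ideals. -/
theorem mul_mem_of_nodal (π : R) (hπ : Prime π) (hjac : π ∈ (⊥ : Ideal R).jacobson)
    [IsPrincipalIdealRing (R ⧸ Ideal.span {π})] (p1 p2 : Ideal B) [p1.IsPrime] [p2.IsPrime]
    (h12 : p1 ⊓ p2 = Ideal.span {algebraMap R B π}) [IsIntegrallyClosed (B ⧸ p1)]
    [IsIntegrallyClosed (B ⧸ p2)] (hrad : (p1 ⊔ p2).IsRadical) (b b' : B) (hb1 : b ∉ p1)
    (hb2 : b ∉ p2) (hbb' : algebraMap R B π ∣ b' - b) (m : ℕ) (hm : m ≠ 0)
    (hcodim : ∀ q : R, Prime q → ¬ Associated q π →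
      ∃ x ∈ rootIdeal (b * b' ^ (m - 1)) m, ∃ x' ∈ rootIdeal (b ^ (m - 1) * b') m, ∃ s : R,
        ¬ q ∣ s ∧ x * x' = b * b' * algebraMap R B s) :
    b * b' ∈ rootIdeal (b * b' ^ (m - 1)) m * rootIdeal (b ^ (m - 1) * b') m := by
  have hc1 : algebraMap R B π ∈ p1 :=
    (h12 ▸ inf_le_left : Ideal.span {algebraMap R B π} ≤ p1) (Ideal.mem_span_singleton_self _)
  have hc2 : algebraMap R B π ∈ p2 :=
    (h12 ▸ inf_le_right : Ideal.span {algebraMap R B π} ≤ p2) (Ideal.mem_span_singleton_self _)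
  have hb1' : b' ∉ p1 := notMem_of_dvd_sub hc1 hb1 hbb'
  have hb2' : b' ∉ p2 := notMem_of_dvd_sub hc2 hb2 hbb'
  have hπB : algebraMap R B π ≠ 0 :=
    (map_ne_zero_iff _ (FaithfulSMul.algebraMap_injective R B)).mpr hπ.ne_zero
  have key := IndexClosed.length_add_length_closed' π hπ hjac (dvd_or_dvd_of_dvd_smul hπ)
    (rootIdeal (b * b' ^ (m - 1)) m) (rootIdeal (b ^ (m - 1) * b') m) b b' hbb'
    (dvd_of_dvd_mul_of_notMem h12 hb1 hb2) (mul_mem_rootIdeal_left b b' hm)
    (mul_mem_rootIdeal_right b b' hm)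
    (fun x hx x' hx' => Ideal.mem_span_singleton.mp
      (rootIdeal_mul_rootIdeal_le b b' hm (Ideal.mul_mem_mul hx hx')))
    (fun y hy => mem_rootIdeal_of_mul_mem hπB (dvd_of_dvd_mul_of_notMem h12
      (by simpa using mul_pow_notMem hb1 hb1' 1 (m - 1))
      (by simpa using mul_pow_notMem hb2 hb2' 1 (m - 1))) hm hy)
    (fun y hy => mem_rootIdeal_of_mul_mem hπB (dvd_of_dvd_mul_of_notMem h12
      (by simpa using mul_pow_notMem hb1 hb1' (m - 1) 1)
      (by simpa using mul_pow_notMem hb2 hb2' (m - 1) 1)) hm hy)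
    hcodim
  exact mul_mem_of_length π hjac p1 p2 h12 hrad b b' hb1 hb2 hbb' m hm key.2 key.1.le

end Thm

end Fermat.Agent.S34.CartPair
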