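import Mathlib
import Fermat.Agent.S34.CartPair.Ideals
import Fermat.Agent.S34.CartPair.LocOne
import Fermat.Agent.S34.CartPair.Local
import Fermat.Agent.S34.CartPair.IndexClosed

/-!
# S34 / CartPair: the nodal theorem (Theorem 1), over a Jacobson base and without localisation

* `mul_mem_of_nodal_jac` : Theorem 1 over a base ring `R` with `π ∈ Jac R`
  (`Local.mul_mem_of_length` fed with `IndexClosed.length_add_length_closed'`).
* `exists_smul_mul_mem_of_nodal` : the same over a noetherian UFD `P` with a prime `π` such that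
  `P ⧸ π` is a PID, NO Jacobson hypothesis: it is applied to `R = P[(1 + πP)⁻¹]` and `B_R`
  (`LocOne`) and brought back: there is `s ≡ 1 mod π` in `P` with `s • (b * b') ∈ A * A'`.
* `mul_mem_sup_of_nodal'` : hence `b * b' ∈ A * A' ⊔ (π)`.
* `exists_smul_mul_mem_of_nodal_ideal`, `mul_mem_sup_of_nodal_ideal` : the same with the
  witnesses indexed by prime ideals `𝔮 ∌ π` of `P`.
-/

set_option autoImplicit false

namespace Fermat.Agent.S34.CartPair.LocNodal

open Fermat.Agent.S34.CartPair Fermat.Agent.S34.CartPair.LocOne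

/-- In a localisation `B'` of an integrally closed domain `B`, the root ideal of the image of `e`
is the extension of the root ideal of `e`. -/
theorem rootIdeal_algebraMap_le {B B' : Type*} [CommRing B] [CommRing B'] [Algebra B B']
    [IsDomain B'] [IsIntegrallyClosed B'] (N : Submonoid B) [IsLocalization N B'] (e : B) {m : ℕ}
    (hm : m ≠ 0) :
    rootIdeal (algebraMap B B' e) m ≤ (rootIdeal e m).map (algebraMap B B') := by
  intro y hy
  rw [mem_rootIdeal hm] at hy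
  obtain ⟨⟨x, t⟩, hxt⟩ := IsLocalization.surj N y
  have h1 : algebraMap B B' e ∣ algebraMap B B' (x ^ m) := by
    rw [map_pow, ← hxt, mul_pow]
    exact Dvd.dvd.mul_right hy _
  obtain ⟨r, hr⟩ := h1
  obtain ⟨⟨c, u⟩, hcu⟩ := IsLocalization.surj N r
  have h2 : algebraMap B B' (x ^ m * u) = algebraMap B B' (e * c) := by
    rw [map_mul, map_mul, hr, ← hcu]; ring
  rw [IsLocalization.eq_iff_exists N B'] at h2
  obtain ⟨d, hd⟩ := h2
  -- `e ∣ (d u) x^m`, hence `e ∣ (d u x)^m`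
  have h3 : e ∣ ((d : B) * u * x) ^ m := by
    obtain ⟨k, rfl⟩ := Nat.exists_eq_succ_of_ne_zero hm
    refine ⟨((d : B) * u) ^ k * (d * c), ?_⟩
    have : ((d : B) * u * x) ^ (k + 1) = ((d : B) * u) ^ k * (d * (x ^ (k + 1) * u)) := by ring
    rw [this, hd]; ring
  have h4 : algebraMap B B' ((d : B) * u * x) ∈ (rootIdeal e m).map (algebraMap B B') :=
    Ideal.mem_map_of_mem _ (mem_rootIdeal_of_dvd h3)
  have hu : IsUnit (algebraMap B B' ((d : B) * u * t)) :=
    IsLocalization.map_units B' (d * u * t)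
  have h5 : y * algebraMap B B' ((d : B) * u * t) = algebraMap B B' ((d : B) * u * x) := by
    rw [map_mul, map_mul (algebraMap B B') ((d : B) * u) x, ← hxt]; ring
  rw [← h5] at h4
  exact (Ideal.mul_unit_mem_iff_mem _ hu).mp h4

/-- **Theorem 1 over a Jacobson base**: `R` a noetherian UFD, `π` a prime element in the Jacobson
radical, `R ⧸ π` a PID, `B` an integrally closed domain finite over `R` with nodal fibre
`p1 ⊓ p2 = (π)`, `b ∉ p1 ∪ p2`, `b' ≡ b mod π`, witnesses at every prime `q ≁ π` of `R`. -/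
theorem mul_mem_of_nodal_jac {R B : Type*} [CommRing R] [IsDomain R] [IsNoetherianRing R]
    [UniqueFactorizationMonoid R] [CommRing B] [IsDomain B] [IsIntegrallyClosed B] [Algebra R B]
    [FaithfulSMul R B] [Module.Finite R B] (π : R) (hπ : Prime π)
    (hjac : π ∈ (⊥ : Ideal R).jacobson) [IsPrincipalIdealRing (R ⧸ Ideal.span {π})]
    (p1 p2 : Ideal B) [p1.IsPrime] [p2.IsPrime]
    (h12 : p1 ⊓ p2 = Ideal.span {algebraMap R B π}) [IsIntegrallyClosed (B ⧸ p1)]
    [IsIntegrallyClosed (B ⧸ p2)] (hrad : (p1 ⊔ p2).IsRadical) (b b' : B) (hb1 : b ∉ p1)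
    (hb2 : b ∉ p2) (hbb' : algebraMap R B π ∣ b' - b) (m : ℕ) (hm : m ≠ 0)
    (hcodim : ∀ q : R, Prime q → ¬ Associated q π →
      ∃ x ∈ rootIdeal (b * b' ^ (m - 1)) m, ∃ x' ∈ rootIdeal (b ^ (m - 1) * b') m,
        ∃ s : R, ¬ q ∣ s ∧ x * x' = b * b' * algebraMap R B s) :
    b * b' ∈ rootIdeal (b * b' ^ (m - 1)) m * rootIdeal (b ^ (m - 1) * b') m := by
  have hc1 : algebraMap R B π ∈ p1 :=
    (inf_le_left : p1 ⊓ p2 ≤ p1) (h12 ▸ Ideal.mem_span_singleton_self _)
  have hc2 : algebraMap R B π ∈ p2 :=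
    (inf_le_right : p1 ⊓ p2 ≤ p2) (h12 ▸ Ideal.mem_span_singleton_self _)
  have hb1' : b' ∉ p1 := Local.notMem_of_dvd_sub hc1 hb1 hbb'
  have hb2' : b' ∉ p2 := Local.notMem_of_dvd_sub hc2 hb2 hbb'
  have hπB : algebraMap R B π ≠ 0 :=
    (map_ne_zero_iff _ (FaithfulSMul.algebraMap_injective R B)).mpr hπ.ne_zero
  have htf : ∀ (r : R) (y : B), algebraMap R B π ∣ r • y → π ∣ r ∨ algebraMap R B π ∣ y :=
    fun r y h => Local.dvd_or_dvd_of_dvd_smul hπ r y h
  have hb : ∀ y, algebraMap R B π ∣ b * y → algebraMap R B π ∣ y :=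
    Local.dvd_of_dvd_mul_of_notMem h12 hb1 hb2
  have hP2 : ∀ x ∈ rootIdeal (b * b' ^ (m - 1)) m, ∀ x' ∈ rootIdeal (b ^ (m - 1) * b') m,
      b * b' ∣ x * x' := fun x hx x' hx' =>
    Ideal.mem_span_singleton.mp (rootIdeal_mul_rootIdeal_le b b' hm (Ideal.mul_mem_mul hx hx'))
  have hSat : ∀ y, algebraMap R B π * y ∈ rootIdeal (b * b' ^ (m - 1)) m →
      y ∈ rootIdeal (b * b' ^ (m - 1)) m := fun y hy =>
    mem_rootIdeal_of_mul_mem hπB
      (Local.dvd_of_dvd_mul_of_notMem h12 (by simpa using Local.mul_pow_notMem hb1 hb1' 1 (m - 1))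
        (by simpa using Local.mul_pow_notMem hb2 hb2' 1 (m - 1))) hm hy
  have hSat' : ∀ y, algebraMap R B π * y ∈ rootIdeal (b ^ (m - 1) * b') m →
      y ∈ rootIdeal (b ^ (m - 1) * b') m := fun y hy =>
    mem_rootIdeal_of_mul_mem hπB
      (Local.dvd_of_dvd_mul_of_notMem h12 (by simpa using Local.mul_pow_notMem hb1 hb1' (m - 1) 1)
        (by simpa using Local.mul_pow_notMem hb2 hb2' (m - 1) 1)) hm hy
  obtain ⟨hlen, hfin⟩ := IndexClosed.length_add_length_closed' π hπ hjac htf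
    (rootIdeal (b * b' ^ (m - 1)) m) (rootIdeal (b ^ (m - 1) * b') m) b b' hbb' hb
    (mul_mem_rootIdeal_left b b' hm) (mul_mem_rootIdeal_right b b' hm) hP2 hSat hSat' hcodim
  exact mul_mem_of_length π hjac p1 p2 h12 hrad b b' hb1 hb2 hbb' m hm hfin hlen.le

/-- **The nodal theorem over `P`, localisation hidden.** -/
theorem exists_smul_mul_mem_of_nodal {P B : Type*} [CommRing P] [IsDomain P] [IsNoetherianRing P]
    [UniqueFactorizationMonoid P] [CommRing B] [IsDomain B] [IsIntegrallyClosed B] [Algebra P B]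
    [FaithfulSMul P B] [Module.Finite P B] (π : P) (hπ : Prime π)
    [IsPrincipalIdealRing (P ⧸ Ideal.span {π})] (p1 p2 : Ideal B) [p1.IsPrime] [p2.IsPrime]
    (h12 : p1 ⊓ p2 = Ideal.span {algebraMap P B π}) [IsIntegrallyClosed (B ⧸ p1)]
    [IsIntegrallyClosed (B ⧸ p2)] (hrad : (p1 ⊔ p2).IsRadical) (b b' : B) (hb1 : b ∉ p1)
    (hb2 : b ∉ p2) (hbb' : algebraMap P B π ∣ b' - b) (m : ℕ) (hm : m ≠ 0)
    (hcodim : ∀ q : P, Prime q → ¬ Associated q π →
      ∃ x ∈ rootIdeal (b * b' ^ (m - 1)) m, ∃ x' ∈ rootIdeal (b ^ (m - 1) * b') m,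
        ∃ s : P, ¬ q ∣ s ∧ x * x' = b * b' * algebraMap P B s) :
    ∃ s : P, π ∣ s - 1 ∧
      s • (b * b') ∈ rootIdeal (b * b' ^ (m - 1)) m * rootIdeal (b ^ (m - 1) * b') m := by
  -- the two localisations
  let R := Rloc π
  let B' := Bloc π B
  let φ : B →+* B' := algebraMap B B'
  have hπ1 : algebraMap P B π ∈ p1 :=
    (inf_le_left : p1 ⊓ p2 ≤ p1) (h12 ▸ Ideal.mem_span_singleton_self _)
  have hπ2 : algebraMap P B π ∈ p2 :=
    (inf_le_right : p1 ⊓ p2 ≤ p2) (h12 ▸ Ideal.mem_span_singleton_self _)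
  have hπ12 : algebraMap P B π ∈ p1 ⊔ p2 := Ideal.mem_sup_left hπ1
  have hπB : ¬ IsUnit (algebraMap P B π) := fun hu =>
    (inferInstance : p1.IsPrime).ne_top (Ideal.eq_top_of_isUnit_mem _ hπ1 hu)
  have hinj : Function.Injective (algebraMap P B) := FaithfulSMul.algebraMap_injective P B
  -- instances for `R`
  have : IsDomain R := isDomain_base R π hπ.not_isUnit
  have : IsNoetherianRing R := isNoetherianRing_base R π
  have : UniqueFactorizationMonoid R := uniqueFactorizationMonoid_base R π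
  have : IsPrincipalIdealRing (R ⧸ Ideal.span {algebraMap P R π}) :=
    isPrincipalIdealRing_quotient_base R π
  -- instances for `B'`
  have : IsDomain B' := isDomain_upper π B B' hπB
  have : IsIntegrallyClosed B' := isIntegrallyClosed_upper π B B' hπB
  have : FaithfulSMul R B' := faithfulSMul_upper π B R B' hinj hπB
  have : Module.Finite R B' := finite_upper π B R B'
  -- the nodal data
  have : (p1.map φ).IsPrime := isPrime_map_upper π B B' p1 hπ1
  have : (p2.map φ).IsPrime := isPrime_map_upper π B B' p2 hπ2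
  have : IsIntegrallyClosed (B' ⧸ p1.map φ) :=
    isIntegrallyClosed_quotient_map_upper π B B' p1 hπ1
  have : IsIntegrallyClosed (B' ⧸ p2.map φ) :=
    isIntegrallyClosed_quotient_map_upper π B B' p2 hπ2
  have h12' : p1.map φ ⊓ p2.map φ = Ideal.span {algebraMap R B' (algebraMap P R π)} :=
    map_inf_eq_span π B R B' p1 p2 h12
  have hrad' : (p1.map φ ⊔ p2.map φ).IsRadical := by
    rw [← Ideal.map_sup]
    exact isRadical_map_upper π B B' (p1 ⊔ p2) hπ12 hrad
  have hb1' : φ b ∉ p1.map φ := fun h => hb1 ((mem_map_iff_upper π B B' p1 hπ1 b).mp h)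
  have hb2' : φ b ∉ p2.map φ := fun h => hb2 ((mem_map_iff_upper π B B' p2 hπ2 b).mp h)
  have hbb'' : algebraMap R B' (algebraMap P R π) ∣ φ b' - φ b := by
    rw [← algebraMap_algebraMap_upper B R B' π, ← map_sub]
    exact map_dvd φ hbb'
  have hcodim' : ∀ q : R, Prime q → ¬ Associated q (algebraMap P R π) →
      ∃ x ∈ rootIdeal (φ b * φ b' ^ (m - 1)) m, ∃ x' ∈ rootIdeal (φ b ^ (m - 1) * φ b') m,
        ∃ s : R, ¬ q ∣ s ∧ x * x' = φ b * φ b' * algebraMap R B' s := by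
    intro q hq hqπ
    obtain ⟨p, hp, hqp, hdvd⟩ :=
      exists_prime_associated' R (onePlus (Ideal.span {π})) q hq
    have hpπ : ¬ Associated p π := fun h => hqπ (hqp.trans (h.map (algebraMap P R)))
    obtain ⟨x, hx, x', hx', s, hs, hxx⟩ := hcodim p hp hpπ
    refine ⟨φ x, ?_, φ x', ?_, algebraMap P R s, fun h => hs (hdvd s h), ?_⟩
    · apply mem_rootIdeal_of_dvd
      rw [← map_pow, ← map_pow, ← map_mul]
      exact map_dvd φ ((mem_rootIdeal hm).mp hx)
    · apply mem_rootIdeal_of_dvd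
      rw [← map_pow, ← map_pow, ← map_mul]
      exact map_dvd φ ((mem_rootIdeal hm).mp hx')
    · rw [← algebraMap_algebraMap_upper B R B' s, ← map_mul, ← map_mul, ← map_mul, hxx]
  have key := mul_mem_of_nodal_jac (R := R) (B := B') (algebraMap P R π)
    (prime_algebraMap R π hπ) (algebraMap_mem_jacobson_bot R π) (p1.map φ) (p2.map φ) h12' hrad'
    (φ b) (φ b') hb1' hb2' hbb'' m hm hcodim'
  -- descent
  have h1 : rootIdeal (φ b * φ b' ^ (m - 1)) m * rootIdeal (φ b ^ (m - 1) * φ b') m ≤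
      (rootIdeal (b * b' ^ (m - 1)) m * rootIdeal (b ^ (m - 1) * b') m).map φ := by
    rw [Ideal.map_mul]
    refine Ideal.mul_mono ?_ ?_
    · have := rootIdeal_algebraMap_le (B' := B') (upperMonoid π B) (b * b' ^ (m - 1)) hm
      rwa [map_mul, map_pow] at this
    · have := rootIdeal_algebraMap_le (B' := B') (upperMonoid π B) (b ^ (m - 1) * b') hm
      rwa [map_mul, map_pow] at this
  have h2 : φ (b * b') ∈
      (rootIdeal (b * b' ^ (m - 1)) m * rootIdeal (b ^ (m - 1) * b') m).map φ := by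
    rw [map_mul]
    exact h1 key
  exact exists_smul_mem_of_mem_map π B B' _ (b * b') h2

/-- **Theorem 1 over `P`** in the shape consumed by the globalisation:
`b * b' ∈ A * A' ⊔ (π)`. -/
theorem mul_mem_sup_of_nodal' {P B : Type*} [CommRing P] [IsDomain P] [IsNoetherianRing P]
    [UniqueFactorizationMonoid P] [CommRing B] [IsDomain B] [IsIntegrallyClosed B] [Algebra P B]
    [FaithfulSMul P B] [Module.Finite P B] (π : P) (hπ : Prime π)
    [IsPrincipalIdealRing (P ⧸ Ideal.span {π})] (p1 p2 : Ideal B) [p1.IsPrime] [p2.IsPrime]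
    (h12 : p1 ⊓ p2 = Ideal.span {algebraMap P B π}) [IsIntegrallyClosed (B ⧸ p1)]
    [IsIntegrallyClosed (B ⧸ p2)] (hrad : (p1 ⊔ p2).IsRadical) (b b' : B) (hb1 : b ∉ p1)
    (hb2 : b ∉ p2) (hbb' : algebraMap P B π ∣ b' - b) (m : ℕ) (hm : m ≠ 0)
    (hcodim : ∀ q : P, Prime q → ¬ Associated q π →
      ∃ x ∈ rootIdeal (b * b' ^ (m - 1)) m, ∃ x' ∈ rootIdeal (b ^ (m - 1) * b') m,
        ∃ s : P, ¬ q ∣ s ∧ x * x' = b * b' * algebraMap P B s) :
    b * b' ∈ rootIdeal (b * b' ^ (m - 1)) m * rootIdeal (b ^ (m - 1) * b') m ⊔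
      Ideal.span {algebraMap P B π} := by
  obtain ⟨s, ⟨c, hc⟩, hs⟩ :=
    exists_smul_mul_mem_of_nodal π hπ p1 p2 h12 hrad b b' hb1 hb2 hbb' m hm hcodim
  have h1 : b * b' = s • (b * b') + algebraMap P B π * (-(algebraMap P B c * (b * b'))) := by
    have hs' : s = 1 + π * c := by linear_combination hc
    rw [hs', Algebra.smul_def, map_add, map_one, map_mul]
    ring
  rw [h1]
  exact Ideal.add_mem _ (Ideal.mem_sup_left hs)
    (Ideal.mem_sup_right (Ideal.mul_mem_right _ _ (Ideal.mem_span_singleton_self _)))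

/-- Witnesses indexed by prime ideals give witnesses indexed by prime elements. -/
theorem hcodim_of_hwit {P B : Type*} [CommRing P] [IsDomain P] [CommRing B] [Algebra P B]
    (π : P) (hπ : Prime π) (A A' : Ideal B) (c : B)
    (hwit : ∀ 𝔮 : Ideal P, 𝔮.IsPrime → π ∉ 𝔮 →
      ∃ x ∈ A, ∃ x' ∈ A', ∃ s : P, s ∉ 𝔮 ∧ x * x' = c * algebraMap P B s) :
    ∀ q : P, Prime q → ¬ Associated q π →
      ∃ x ∈ A, ∃ x' ∈ A', ∃ s : P, ¬ q ∣ s ∧ x * x' = c * algebraMap P B s := by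
  intro q hq hqπ
  have hprime : (Ideal.span {q}).IsPrime := (Ideal.span_singleton_prime hq.ne_zero).mpr hq
  have hπq : π ∉ Ideal.span {q} := by
    rw [Ideal.mem_span_singleton]
    intro hdvd
    rcases (hπ.irreducible.dvd_iff).mp hdvd with hu | ha
    · exact hq.not_isUnit hu
    · exact hqπ ha.symm
  obtain ⟨x, hx, x', hx', s, hs, hxx⟩ := hwit (Ideal.span {q}) hprime hπq
  exact ⟨x, hx, x', hx', s, fun h => hs (Ideal.mem_span_singleton.mpr h), hxx⟩

/-- `exists_smul_mul_mem_of_nodal` with witnesses indexed by the prime ideals `𝔮 ∌ π` of `P`. -/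
theorem exists_smul_mul_mem_of_nodal_ideal {P B : Type*} [CommRing P] [IsDomain P]
    [IsNoetherianRing P] [UniqueFactorizationMonoid P] [CommRing B] [IsDomain B]
    [IsIntegrallyClosed B] [Algebra P B] [FaithfulSMul P B] [Module.Finite P B] (π : P)
    (hπ : Prime π) [IsPrincipalIdealRing (P ⧸ Ideal.span {π})] (p1 p2 : Ideal B) [p1.IsPrime]
    [p2.IsPrime] (h12 : p1 ⊓ p2 = Ideal.span {algebraMap P B π}) [IsIntegrallyClosed (B ⧸ p1)]
    [IsIntegrallyClosed (B ⧸ p2)] (hrad : (p1 ⊔ p2).IsRadical) (b b' : B) (hb1 : b ∉ p1)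
    (hb2 : b ∉ p2) (hbb' : algebraMap P B π ∣ b' - b) (m : ℕ) (hm : m ≠ 0)
    (hwit : ∀ 𝔮 : Ideal P, 𝔮.IsPrime → π ∉ 𝔮 →
      ∃ x ∈ rootIdeal (b * b' ^ (m - 1)) m, ∃ x' ∈ rootIdeal (b ^ (m - 1) * b') m,
        ∃ s : P, s ∉ 𝔮 ∧ x * x' = b * b' * algebraMap P B s) :
    ∃ s : P, π ∣ s - 1 ∧
      s • (b * b') ∈ rootIdeal (b * b' ^ (m - 1)) m * rootIdeal (b ^ (m - 1) * b') m :=
  exists_smul_mul_mem_of_nodal π hπ p1 p2 h12 hrad b b' hb1 hb2 hbb' m hm
    (hcodim_of_hwit π hπ _ _ (b * b') hwit)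

/-- `mul_mem_sup_of_nodal'` with witnesses indexed by the prime ideals `𝔮 ∌ π` of `P`. -/
theorem mul_mem_sup_of_nodal_ideal {P B : Type*} [CommRing P] [IsDomain P]
    [IsNoetherianRing P] [UniqueFactorizationMonoid P] [CommRing B] [IsDomain B]
    [IsIntegrallyClosed B] [Algebra P B] [FaithfulSMul P B] [Module.Finite P B] (π : P)
    (hπ : Prime π) [IsPrincipalIdealRing (P ⧸ Ideal.span {π})] (p1 p2 : Ideal B) [p1.IsPrime]
    [p2.IsPrime] (h12 : p1 ⊓ p2 = Ideal.span {algebraMap P B π}) [IsIntegrallyClosed (B ⧸ p1)]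
    [IsIntegrallyClosed (B ⧸ p2)] (hrad : (p1 ⊔ p2).IsRadical) (b b' : B) (hb1 : b ∉ p1)
    (hb2 : b ∉ p2) (hbb' : algebraMap P B π ∣ b' - b) (m : ℕ) (hm : m ≠ 0)
    (hwit : ∀ 𝔮 : Ideal P, 𝔮.IsPrime → π ∉ 𝔮 →
      ∃ x ∈ rootIdeal (b * b' ^ (m - 1)) m, ∃ x' ∈ rootIdeal (b ^ (m - 1) * b') m,
        ∃ s : P, s ∉ 𝔮 ∧ x * x' = b * b' * algebraMap P B s) :
    b * b' ∈ rootIdeal (b * b' ^ (m - 1)) m * rootIdeal (b ^ (m - 1) * b') m ⊔
      Ideal.span {algebraMap P B π} :=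
  mul_mem_sup_of_nodal' π hπ p1 p2 h12 hrad b b' hb1 hb2 hbb' m hm
    (hcodim_of_hwit π hπ _ _ (b * b') hwit)

end Fermat.Agent.S34.CartPair.LocNodal
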