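import Fermat.Agent.S34.CartPair.Glob
import Fermat.Agent.S34.CartPair.LocNodal

/-!
# S34 / CartPair: toric ⇒ Cartier on a nodal chart (step (S)), hypothesis-free

`cartierRoot` is, verbatim, the chart-level exit `Nodal.IsNodalChart.cartierRoot` of the nodal
contract (`S34/Nodal/Main.lean`): on a chart `t` whose special fibre is `V(p₁) ∪ V(p₂)` (nodal),
a function `h ≡ 1` at `p₁` and at `p₂` with `m ∣ div h` on the chart has an invertible
`m`-th root divisor (`ToricInertia.CartierRoot`).

Proof: `Glob.cartierRoot_of_local` (globalisation on the chart) applied to Theorem 1 of the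
CartPair note, `LocNodal.mul_mem_sup_of_nodal'` (node lemma + index identity over the
localisation at `1 + π O[t]`).
-/

set_option autoImplicit false

open Fermat.Agent.S30.Model Fermat.Agent.S30.Model.GlueChart

namespace Fermat.Agent.S34.CartPair

universe v

/-- Theorem 1 of the CartPair note in the shape consumed by the globalisation. -/
theorem localStatement : LocalStatement.{v} :=
  fun _ _ _ _ _ _ _ _ _ _ _ _ π hπ _ p1 p2 _ _ h12 _ _ hrad b b' hb1 hb2 hbb' m hm hcodim =>
    LocNodal.mul_mem_sup_of_nodal' π hπ p1 p2 h12 hrad b b' hb1 hb2 hbb' m hm hcodim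

section Exit

open Fermat.Agent.S34.Nodal

variable {O E : Type*} {L : Type v} [CommRing O] [IsDomain O] [IsDiscreteValuationRing O]
  [Field E] [CharZero E] [Algebra O E] [IsFractionRing O E]
  [Field L] [Algebra E L] [Algebra O L] [IsScalarTower O E L]

/-- **Step (S): toric ⇒ Cartier on a nodal chart.**  `B` the chart ring of `t` with nodal special
fibre `V(p₁) ∪ V(p₂)`; `h ≡ 1` at `p₁` and at `p₂`, `m ∣ div h` on the chart.  Then `(1/m) div h`
is an invertible divisor on the chart: there is a partition of unity `∑ cᵢ c'ᵢ = 1` with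
`cᵢ ^ m / h`, `c'ᵢ ^ m * h` integral over `O[t]`. -/
theorem cartierRoot (π : O) (hπ : Irreducible π) (t : L) (ht : Transcendental E t)
    [FiniteDimensional (IntermediateField.adjoin E {t}) L]
    {p₁ p₂ : Ideal (Chart O t)} (hN : IsNodalChart π t p₁ p₂)
    (m : ℕ) (hm : IsUnit (m : O))
    (h : L) (h₁ : CongrOneAtChart p₁ h) (h₂ : CongrOneAtChart p₂ h)
    (hdiv : LocPow (E := E) m t h) :
    ToricInertia.CartierRoot O ({t} : Set L) m h :=
  cartierRoot_of_local localStatement π hπ t ht hN m hm h h₁ h₂ hdiv

end Exit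

end Fermat.Agent.S34.CartPair
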