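import Mathlib
import Fermat.Agent.Lib.NormalFree

/-!
# S34 / CartPair, step (1a): freeness along the special fibre

`R` a Noetherian domain, `π` a prime element in the Jacobson radical of `R` with `R ⧸ (π)` a
principal ideal ring (e.g. `R = O[t]` localised at `1 + π O[t]`).

* `free_of_saturated` : a `π`-saturated submodule `N` of a finite `R`-module `M` on which `π` is
  regular and which is torsion-free modulo `π`, is free.
* `free_of_jacobson` : an integrally closed domain `B`, finite over the integrally closed `R`,
  is a free `R`-module (`Lib.NormalFree` without locality).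
* `nonempty_basis_of_saturated` : if `B` is free with basis indexed by `ι`, every nonzero
  `π`-saturated ideal `A` of `B` has an `R`-basis indexed by `ι`.
-/

set_option autoImplicit false

namespace Fermat.Agent.S34.CartPair

open Pointwise

section Sat

variable {R M : Type*} [CommRing R] [IsDomain R] [IsNoetherianRing R]
  [AddCommGroup M] [Module R M] [Module.Finite R M]

omit [IsDomain R] in
/-- A `π`-saturated submodule of a finite module which is `π`-regular and torsion-free modulo
`π` is free, when `π` is a prime element in the Jacobson radical and `R ⧸ (π)` is a PID. -/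
theorem free_of_saturated {π : R} (hπ : Prime π) (hjac : π ∈ (⊥ : Ideal R).jacobson)
    [IsPrincipalIdealRing (R ⧸ Ideal.span {π})] (hreg : IsSMulRegular M π)
    (htf : ∀ (r : R) (x y : M), ¬ π ∣ r → r • x = π • y → ∃ z : M, x = π • z)
    (N : Submodule R M) (hsat : ∀ x : M, π • x ∈ N → x ∈ N) : Module.Free R N := by
  have hprime : (Ideal.span {π}).IsPrime := (Ideal.span_singleton_prime hπ.ne_zero).mpr hπ
  have : IsNoetherian R M := isNoetherian_of_isNoetherianRing_of_finite R M
  have : Module.Finite R N := Module.IsNoetherian.finite R N
  have : Module.FinitePresentation R N := Module.finitePresentation_of_finite R N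
  have hregN : IsSMulRegular N π := by
    intro a b hab
    apply Subtype.ext
    apply hreg
    have := congrArg Subtype.val hab
    simpa using this
  have : Module.IsTorsionFree (R ⧸ Ideal.span {π}) (QuotSMulTop π N) := by
    rw [Module.isTorsionFree_iff_smul_eq_zero]
    intro r m hrm
    obtain ⟨t, rfl⟩ := Ideal.Quotient.mk_surjective r
    obtain ⟨c, rfl⟩ := Submodule.Quotient.mk_surjective _ m
    by_cases ht : π ∣ t
    · left
      exact Ideal.Quotient.eq_zero_iff_mem.mpr (Ideal.mem_span_singleton.mpr ht)
    · right
      have h1 : (Submodule.Quotient.mk (t • c) : QuotSMulTop π N) = 0 := by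
        rw [← hrm]
        rfl
      rw [Submodule.Quotient.mk_eq_zero] at h1
      obtain ⟨c', -, hc'⟩ := (Submodule.mem_smul_pointwise_iff_exists _ _ _).mp h1
      have h2 : t • (c : M) = π • (c' : M) := by
        have := congrArg Subtype.val hc'
        simpa using this.symm
      obtain ⟨z, hz⟩ := htf t (c : M) (c' : M) ht h2
      have hzN : z ∈ N := hsat z (hz ▸ c.2)
      rw [Submodule.Quotient.mk_eq_zero]
      have h3 : c = π • (⟨z, hzN⟩ : N) := Subtype.ext hz
      rw [h3]
      exact Submodule.smul_mem_pointwise_smul _ π _ Submodule.mem_top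
  have : Module.Finite (R ⧸ Ideal.span {π}) (QuotSMulTop π N) :=
    Module.Finite.of_restrictScalars_finite R (R ⧸ Ideal.span {π}) (QuotSMulTop π N)
  have : Module.Free (R ⧸ Ideal.span {π}) (QuotSMulTop π N) :=
    Module.free_of_finite_type_torsion_free'
  exact (Module.free_quotSMulTop_iff_free R N hjac hregN).mp inferInstance

end Sat

section Normal

variable {R B : Type*} [CommRing R] [IsDomain R] [IsIntegrallyClosed R] [IsNoetherianRing R]
  [CommRing B] [IsDomain B] [IsIntegrallyClosed B] [Algebra R B] [FaithfulSMul R B]
  [Module.Finite R B]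

/-- **Normal ⇒ free along the special fibre** (no locality): `R` an integrally closed Noetherian
domain, `π` a prime element of the Jacobson radical with `R ⧸ (π)` a PID, `B` an integrally
closed domain, finite over `R`, with `R → B` injective.  Then `B` is a free `R`-module. -/
theorem free_of_jacobson {π : R} (hπ : Prime π) (hjac : π ∈ (⊥ : Ideal R).jacobson)
    [IsPrincipalIdealRing (R ⧸ Ideal.span {π})] : Module.Free R B := by
  have : (Ideal.span {π}).IsPrime := (Ideal.span_singleton_prime hπ.ne_zero).mpr hπ
  have : Algebra.IsIntegral R B := inferInstance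
  have : Module.IsTorsionFree (R ⧸ Ideal.span {π}) (QuotSMulTop π B) :=
    Fermat.Agent.Lib.NormalFree.isTorsionFree_quotSMulTop hπ
  have : Module.Finite (R ⧸ Ideal.span {π}) (QuotSMulTop π B) :=
    Module.Finite.of_restrictScalars_finite R (R ⧸ Ideal.span {π}) (QuotSMulTop π B)
  have : Module.Free (R ⧸ Ideal.span {π}) (QuotSMulTop π B) :=
    Module.free_of_finite_type_torsion_free'
  have : Module.FinitePresentation R B := Module.finitePresentation_of_finite R B
  have hreg : IsSMulRegular B π := by
    intro a b hab
    have hπB : algebraMap R B π ≠ 0 :=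
      (map_ne_zero_iff _ (FaithfulSMul.algebraMap_injective R B)).mpr hπ.ne_zero
    simp only [Algebra.smul_def] at hab
    exact mul_left_cancel₀ hπB hab
  exact (Module.free_quotSMulTop_iff_free R B hjac hreg).mp inferInstance

end Normal

section Basis

variable {R B : Type*} [CommRing R] [IsDomain R] [IsNoetherianRing R]
  [CommRing B] [IsDomain B] [Algebra R B] {ι : Type*} [Fintype ι]

/-- **(1a)**: a nonzero `π`-saturated ideal of a finite free `R`-algebra domain `B` has an
`R`-basis indexed like a basis of `B`. -/
theorem nonempty_basis_of_saturated {π : R} (hπ : Prime π) (hjac : π ∈ (⊥ : Ideal R).jacobson)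
    [IsPrincipalIdealRing (R ⧸ Ideal.span {π})] (β : Module.Basis ι R B) (A : Ideal B)
    (hA : A ≠ ⊥) (hsat : ∀ x : B, algebraMap R B π * x ∈ A → x ∈ A) :
    Nonempty (Module.Basis ι R A) := by
  classical
  have hfin : Module.Finite R B := Module.Finite.of_basis β
  have hfree : Module.Free R B := Module.Free.of_basis β
  have hinj : Function.Injective (algebraMap R B) := by
    intro x y hxy
    by_cases hι : IsEmpty ι
    · exfalso
      have h1 : (1 : B) = 0 := β.ext_elem fun i => (hι.false i).elim
      exact one_ne_zero h1
    · obtain ⟨i⟩ := not_isEmpty_iff.mp hι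
      have h1 : x • β i = y • β i := by rw [Algebra.smul_def, Algebra.smul_def, hxy]
      have h2 := congrArg (fun v => β.repr v i) h1
      simpa using h2
  have hπB : algebraMap R B π ≠ 0 := (map_ne_zero_iff _ hinj).mpr hπ.ne_zero
  have hreg : IsSMulRegular B π := by
    intro a b hab
    simp only [Algebra.smul_def] at hab
    exact mul_left_cancel₀ hπB hab
  have htf : ∀ (r : R) (x y : B), ¬ π ∣ r → r • x = π • y → ∃ z : B, x = π • z := by
    intro r x y hr hxy
    have h1 : ∀ i, π ∣ β.repr x i := by
      intro i
      have h2 := congrArg (fun v => β.repr v i) hxy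
      simp only [map_smul, Finsupp.smul_apply, smul_eq_mul] at h2
      exact (hπ.dvd_or_dvd ⟨_, h2⟩).resolve_left hr
    choose c hc using h1
    refine ⟨∑ i, c i • β i, ?_⟩
    rw [Finset.smul_sum]
    conv_lhs => rw [← β.sum_repr x]
    refine Finset.sum_congr rfl fun i _ => ?_
    rw [hc i, mul_smul]
  let N : Submodule R B := A.restrictScalars R
  have hsatN : ∀ x : B, π • x ∈ N → x ∈ N := by
    intro x hx
    rw [Algebra.smul_def] at hx
    exact hsat x hx
  have hNfree : Module.Free R N := free_of_saturated hπ hjac hreg htf N hsatN
  have : IsNoetherian R B := isNoetherian_of_isNoetherianRing_of_finite R B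
  have hNfin : Module.Finite R N := Module.IsNoetherian.finite R N
  -- the rank
  obtain ⟨a, haA, ha0⟩ := Submodule.exists_mem_ne_zero_of_ne_bot hA
  let φ : B →ₗ[R] N :=
    { toFun := fun y => ⟨a * y, A.mul_mem_right y haA⟩
      map_add' := fun y z => Subtype.ext (mul_add a y z)
      map_smul' := fun r y => Subtype.ext (mul_smul_comm r a y) }
  have hφ : Function.Injective φ := by
    intro y z hyz
    have h1 : a * y = a * z := congrArg Subtype.val hyz
    exact mul_left_cancel₀ ha0 h1
  have hrank : Module.finrank R N = Fintype.card ι := by
    rw [← Module.finrank_eq_card_basis β]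
    exact le_antisymm (Submodule.finrank_le N) (LinearMap.finrank_le_finrank_of_injective hφ)
  let bN := Module.Free.chooseBasis R N
  have hcard : Fintype.card (Module.Free.ChooseBasisIndex R N) = Fintype.card ι := by
    rw [← hrank, Module.finrank_eq_card_chooseBasisIndex]
  exact ⟨(bN.reindex (Fintype.equivOfCardEq hcard)).map
    ((Submodule.restrictScalarsEquiv R B B A).restrictScalars R)⟩

end Basis

end Fermat.Agent.S34.CartPair
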