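import Mathlib
import Fermat.Agent.S30.Model.Main
import Fermat.Agent.S30.Model.ChartInst
import Fermat.Agent.S30.Model.ChartProv
import Fermat.Agent.S30.Model.ChartHyp
import Fermat.Agent.S34.Nodal.Transfer
import Fermat.Agent.S34.ToricInertia
import Fermat.Agent.S34.CartPair.Ideals

/-!
# S34 / CartPair: globalisation on a chart (sec. 2 of the CartPair note)

Setting of `S30/Model/Main.lean`: `O` a DVR with uniformiser `π`, `E = Frac O`, `L` a field over
`E`, `t : L` transcendental over `E`, `L / E(t)` finite; `P = O[t]`, `B` = the chart ring (the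
integral closure of `P` in `L`) with nodal special fibre `V(p₁) ∪ V(p₂)`.

* `exists_common_den` : a common denominator for `h ≡ 1` at `p₁` and at `p₂`.
* `exists_irreducible_dvd_map`, `exists_irreducible_of_prime_adjoin` : a nonzero prime ideal of
  `O[X]` (of `O[t]`) not containing `π` is the contraction of `(f)`, `f` irreducible in `E[X]`.
* `exists_witness` : `LocPow` at `f` produces `x ∈ A`, `x' ∈ A'` with `x x' = b b' F(t)`, `f ∤ F`.
* `cartierRoot_of_local` : **the chart-level exit** `IsNodalChart → CongrOneAtChart p₁ h →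
  CongrOneAtChart p₂ h → LocPow m t h → ToricInertia.CartierRoot O {t} m h`, from the local
  statement `LocalStatement` (= `CartPair/Local.lean`).
-/

set_option autoImplicit false

open Polynomial
open Fermat.Agent.S30.Model Fermat.Agent.S30.Model.GlueChart

namespace Fermat.Agent.S34.CartPair

/-! ### The common denominator -/

/-- A common denominator: if `b₁ ∉ p₁`, `b₂ ∉ p₂` and the primes `p₁`, `p₂` are incomparable,
then `b = b₁ c₂ + b₂ c₁` lies outside `p₁ ∪ p₂` for suitable `c₁ ∈ p₁`, `c₂ ∈ p₂`, and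
`a₁ c₂ + a₂ c₁ ∈ p₁ ⊓ p₂` for `a₁ ∈ p₁`, `a₂ ∈ p₂`. -/
theorem exists_common_den {B : Type*} [CommRing B] {p1 p2 : Ideal B} [hp1 : p1.IsPrime]
    [hp2 : p2.IsPrime] (h12 : ¬ p1 ≤ p2) (h21 : ¬ p2 ≤ p1) {a1 b1 a2 b2 : B} (ha1 : a1 ∈ p1)
    (hb1 : b1 ∉ p1) (ha2 : a2 ∈ p2) (hb2 : b2 ∉ p2) :
    ∃ c1 c2 : B, b1 * c2 + b2 * c1 ∉ p1 ∧ b1 * c2 + b2 * c1 ∉ p2 ∧
      a1 * c2 + a2 * c1 ∈ p1 ⊓ p2 := by
  obtain ⟨c1, hc1, hc1'⟩ := SetLike.not_le_iff_exists.mp h12
  obtain ⟨c2, hc2, hc2'⟩ := SetLike.not_le_iff_exists.mp h21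
  refine ⟨c1, c2, ?_, ?_, ?_⟩
  · intro hmem
    have h1 : b1 * c2 ∈ p1 := by
      have := p1.sub_mem hmem (p1.mul_mem_left b2 hc1)
      simpa using this
    rcases hp1.mem_or_mem h1 with h | h
    exacts [hb1 h, hc2' h]
  · intro hmem
    have h1 : b2 * c1 ∈ p2 := by
      have := p2.sub_mem hmem (p2.mul_mem_left b1 hc2)
      simpa using this
    rcases hp2.mem_or_mem h1 with h | h
    exacts [hb2 h, hc1' h]
  · exact ⟨p1.add_mem (p1.mul_mem_right _ ha1) (p1.mul_mem_left _ hc1),
      p2.add_mem (p2.mul_mem_left _ hc2) (p2.mul_mem_right _ ha2)⟩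

/-- The ideal `{y | y * c ∈ J}`. -/
def colonIdeal {B : Type*} [CommRing B] (J : Ideal B) (c : B) : Ideal B where
  carrier := {y | y * c ∈ J}
  add_mem' := fun {x y} hx hy => by
    change (x + y) * c ∈ J
    rw [add_mul]
    exact J.add_mem hx hy
  zero_mem' := by
    change (0 : B) * c ∈ J
    rw [zero_mul]
    exact J.zero_mem
  smul_mem' := fun a x hx => by
    change (a • x) * c ∈ J
    rw [smul_eq_mul, mul_assoc]
    exact J.mul_mem_left a hx

theorem mem_colonIdeal {B : Type*} [CommRing B] {J : Ideal B} {c y : B} :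
    y ∈ colonIdeal J c ↔ y * c ∈ J := Iff.rfl

/-! ### Horizontal primes -/

section Horizontal

variable {O E : Type*} [CommRing O] [IsDomain O] [Field E] [Algebra O E] [IsFractionRing O E]

attribute [local instance] Polynomial.algebra in
/-- A nonzero prime ideal of `O[X]` containing no nonzero constant is contained in the
contraction of `(f)` for an irreducible `f` of `E[X]`, `E = Frac O`. -/
theorem exists_irreducible_dvd_map (Q : Ideal O[X]) [hQ : Q.IsPrime] (hQ0 : Q ≠ ⊥)
    (hdisj : ∀ c : O, c ≠ 0 → C c ∉ Q) :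
    ∃ f : E[X], Irreducible f ∧ ∀ F ∈ Q, f ∣ F.map (algebraMap O E) := by
  have hloc : IsLocalization ((nonZeroDivisors O).map (C : O →+* O[X])) E[X] :=
    Polynomial.isLocalization (nonZeroDivisors O) E
  have hd : Disjoint (((nonZeroDivisors O).map (C : O →+* O[X]) : Submonoid O[X]) : Set O[X])
      (Q : Set O[X]) := by
    rw [Set.disjoint_left]
    rintro _ ⟨c, hc, rfl⟩ hcQ
    exact hdisj c (nonZeroDivisors.ne_zero hc) hcQ
  have hprime : (Q.map (algebraMap O[X] E[X])).IsPrime :=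
    IsLocalization.isPrime_of_isPrime_disjoint _ _ Q hQ hd
  have hinj : Function.Injective (algebraMap O[X] E[X]) :=
    Polynomial.map_injective _ (IsFractionRing.injective O E)
  have hne : Q.map (algebraMap O[X] E[X]) ≠ ⊥ := by
    intro h0
    apply hQ0
    rw [eq_bot_iff]
    intro F hF
    have h1 : algebraMap O[X] E[X] F ∈ Q.map (algebraMap O[X] E[X]) := Ideal.mem_map_of_mem _ hF
    rw [h0, Ideal.mem_bot] at h1
    exact (Ideal.mem_bot).mpr (hinj (by rw [h1, map_zero]))
  obtain ⟨f, hf⟩ := (IsPrincipalIdealRing.principal (Q.map (algebraMap O[X] E[X]))).principal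
  have hf' : Q.map (algebraMap O[X] E[X]) = Ideal.span {f} := hf
  have hf0 : f ≠ 0 := by
    rintro rfl
    apply hne
    rw [hf']
    simp
  have hfp : Prime f := (Ideal.span_singleton_prime hf0).mp (hf' ▸ hprime)
  refine ⟨f, hfp.irreducible, fun F hF => ?_⟩
  have h1 : algebraMap O[X] E[X] F ∈ Q.map (algebraMap O[X] E[X]) := Ideal.mem_map_of_mem _ hF
  rw [hf', Ideal.mem_span_singleton] at h1
  exact h1

/-- Over a DVR, a prime ideal of `O[X]` not containing the uniformiser contains no nonzero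
constant. -/
theorem C_not_mem_of_C_not_mem [IsDiscreteValuationRing O] {π : O} (hπ : Irreducible π)
    (Q : Ideal O[X]) [hQ : Q.IsPrime] (hπQ : C π ∉ Q) (c : O) (hc : c ≠ 0) : C c ∉ Q := by
  obtain ⟨n, v, hv⟩ := IsDiscreteValuationRing.associated_pow_irreducible hc hπ
  intro hcQ
  have h1 : C (π ^ n) ∈ Q := by
    rw [← hv, C_mul]
    exact Q.mul_mem_right _ hcQ
  rw [C_pow] at h1
  by_cases hn0 : n = 0
  · subst hn0
    rw [pow_zero] at h1
    exact hQ.ne_top ((Ideal.eq_top_iff_one Q).mpr h1)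
  · exact hπQ (hQ.mem_of_pow_mem n h1)

/-- Horizontal primes of `O[t]`: a nonzero prime ideal `q₀` of `O[t]` not containing `π` is
contained in the contraction of `(f(t))` for an irreducible `f` of `E[X]`. -/
theorem exists_irreducible_of_prime_adjoin {L : Type*} [Field L] [Algebra O L]
    [IsDiscreteValuationRing O] (π : O) (hπ : Irreducible π) (t : L) (ht : Transcendental O t)
    (q0 : Ideal (Algebra.adjoin O ({t} : Set L))) [hq : q0.IsPrime] (hq0 : q0 ≠ ⊥)
    (hπq : algebraMap O (Algebra.adjoin O ({t} : Set L)) π ∉ q0) :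
    ∃ f : E[X], Irreducible f ∧
      ∀ F : O[X], ChartInst.polyEquiv O t ht F ∈ q0 → f ∣ F.map (algebraMap O E) := by
  let φ : O[X] →+* Algebra.adjoin O ({t} : Set L) :=
    ((ChartInst.polyEquiv O t ht : O[X] ≃ₐ[O] _) : O[X] →+* _)
  have hφ : ∀ F : O[X], φ F = ChartInst.polyEquiv O t ht F := fun _ => rfl
  have hQ : (q0.comap φ).IsPrime := Ideal.comap_isPrime φ q0
  have hQ0 : q0.comap φ ≠ ⊥ := by
    intro h0
    apply hq0
    rw [eq_bot_iff]
    intro y hy
    obtain ⟨F, rfl⟩ := (ChartInst.polyEquiv O t ht).surjective y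
    have h1 : F ∈ q0.comap φ := hy
    rw [h0, Ideal.mem_bot] at h1
    rw [h1, map_zero]
    exact Ideal.zero_mem _
  have hπQ : C π ∉ q0.comap φ := by
    intro hmem
    apply hπq
    have h1 : φ (C π) ∈ q0 := hmem
    rwa [hφ, ChartInst.polyEquiv_C] at h1
  obtain ⟨f, hf, hfQ⟩ := exists_irreducible_dvd_map (E := E) (q0.comap φ) hQ0
    (C_not_mem_of_C_not_mem hπ _ hπQ)
  exact ⟨f, hf, fun F hF => hfQ F hF⟩

end Horizontal

/-! ### Witnesses from `LocPow` -/

section Witness

variable {O E L : Type*} [CommRing O] [IsDomain O] [IsDiscreteValuationRing O]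
  [Field E] [Algebra O E] [IsFractionRing O E]
  [Field L] [Algebra E L] [Algebra O L] [IsScalarTower O E L]

/-- Denominators of polynomials over `E = Frac O` are powers of the uniformiser. -/
theorem exists_map_eq_C_pow_mul {π : O} (hπ : Irreducible π) (G : E[X]) :
    ∃ (k : ℕ) (F : O[X]), F.map (algebraMap O E) = C (algebraMap O E π ^ k) * G := by
  obtain ⟨b, hb, hG⟩ := IsLocalization.integerNormalization_spec (nonZeroDivisors O) G
  obtain ⟨k, v, hv⟩ := IsDiscreteValuationRing.associated_pow_irreducible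
    (nonZeroDivisors.ne_zero hb) hπ
  refine ⟨k, C (v : O) * IsLocalization.integerNormalization (nonZeroDivisors O) G, ?_⟩
  rw [Polynomial.map_mul, map_C, hG, ← map_pow, ← hv, map_mul, C_mul, Algebra.smul_def,
    Polynomial.algebraMap_apply]
  ring

/-- Every element of `E[t]` is a negative power of `π` times an element of `O[t]`. -/
theorem exists_eq_inv_pow_mul {π : O} (hπ : Irreducible π) (t : L)
    (a' : Algebra.adjoin E ({t} : Set L)) :
    ∃ (k : ℕ) (a : Algebra.adjoin O ({t} : Set L)),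
      (a' : L) = (algebraMap O L π)⁻¹ ^ k * (a : L) := by
  have ha' : (a' : L) ∈ (aeval t : E[X] →ₐ[E] L).range := by
    rw [← Algebra.adjoin_singleton_eq_range_aeval]
    exact a'.2
  obtain ⟨G, hG⟩ := ha'
  obtain ⟨k, F, hF⟩ := exists_map_eq_C_pow_mul hπ G
  have hπL : algebraMap O L π ≠ 0 := fun h0 =>
    hπ.ne_zero (ChartProv.algebraMap_injective_base O E L (h0.trans (map_zero _).symm))
  refine ⟨k, ⟨aeval t F, ?_⟩, ?_⟩
  · rw [Algebra.adjoin_singleton_eq_range_aeval]
    exact ⟨F, rfl⟩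
  · have h1 : aeval t F = algebraMap O L π ^ k * aeval t G := by
      rw [← aeval_map_algebraMap E t F, hF, map_mul, aeval_C, map_pow,
        ← IsScalarTower.algebraMap_apply]
    change (a' : L) = (algebraMap O L π)⁻¹ ^ k * aeval t F
    rw [h1, ← hG, ← mul_assoc, ← mul_pow, inv_mul_cancel₀ hπL, one_pow, one_mul]
    rfl

/-- Integrality over `E[t]` becomes integrality over `O[t]` after multiplication by a power of
the uniformiser. -/
theorem exists_pow_mul_isIntegral_adjoin {π : O} (hπ : Irreducible π) (t : L) (z : L)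
    (hz : IsIntegral (Algebra.adjoin E ({t} : Set L)) z) :
    ∃ k : ℕ, IsIntegral (Algebra.adjoin O ({t} : Set L)) (algebraMap O L π ^ k * z) := by
  have hπL : algebraMap O L π ≠ 0 := fun h0 =>
    hπ.ne_zero (ChartProv.algebraMap_injective_base O E L (h0.trans (map_zero _).symm))
  let u : Algebra.adjoin O ({t} : Set L) := algebraMap O _ π
  have hu'mem : (algebraMap O L π)⁻¹ ∈ Algebra.adjoin E ({t} : Set L) := by
    have h1 : (algebraMap O L π)⁻¹ = algebraMap E L (algebraMap O E π)⁻¹ := by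
      rw [map_inv₀, ← IsScalarTower.algebraMap_apply]
    rw [h1]
    exact Subalgebra.algebraMap_mem _ _
  let u' : Algebra.adjoin E ({t} : Set L) := ⟨(algebraMap O L π)⁻¹, hu'mem⟩
  have huu' : algebraMap (Algebra.adjoin O ({t} : Set L)) L u *
      algebraMap (Algebra.adjoin E ({t} : Set L)) L u' = 1 := by
    change algebraMap O L π * (algebraMap O L π)⁻¹ = 1
    exact mul_inv_cancel₀ hπL
  obtain ⟨k, hk⟩ := ChartHyp.exists_pow_mul_isIntegral (K := L) (L := L) u u' huu'
    (fun a' => by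
      obtain ⟨k, a, hka⟩ := exists_eq_inv_pow_mul hπ t a'
      exact ⟨k, a, hka⟩) z hz
  exact ⟨k, hk⟩

/-- `IsIntegralAt` over `E[t]` at `f(t)` gives a polynomial `F ∈ O[X]`, prime to `f`, with
`F(t) * z` integral over `O[t]`. -/
theorem exists_poly_of_isIntegralAt {π : O} (hπ : Irreducible π) (t : L) {f : E[X]} {z : L}
    (hz : IsIntegralAt (Algebra.adjoin E ({t} : Set L)) (aeval t f) z) :
    ∃ F : O[X], ¬ f ∣ F.map (algebraMap O E) ∧
      IsIntegral (Algebra.adjoin O ({t} : Set L)) (aeval t F * z) := by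
  obtain ⟨s, hsD, hsq, hint⟩ := hz
  have hs : s ∈ (aeval t : E[X] →ₐ[E] L).range := by
    rw [← Algebra.adjoin_singleton_eq_range_aeval]
    exact hsD
  obtain ⟨G, rfl⟩ := hs
  have hfG : ¬ f ∣ G := by
    rintro ⟨G', rfl⟩
    refine hsq (aeval t G') ?_ (by rw [map_mul]; rfl)
    rw [Algebra.adjoin_singleton_eq_range_aeval]
    exact ⟨G', rfl⟩
  obtain ⟨k, hk⟩ := exists_pow_mul_isIntegral_adjoin hπ t _ hint
  obtain ⟨j, F0, hF0⟩ := exists_map_eq_C_pow_mul hπ G
  have hπE : algebraMap O E π ≠ 0 := fun h0 =>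
    hπ.ne_zero (IsFractionRing.injective O E (h0.trans (map_zero _).symm))
  refine ⟨C (π ^ k) * F0, ?_, ?_⟩
  · rw [Polynomial.map_mul, map_C, hF0, ← mul_assoc, ← C_mul, map_pow, ← pow_add]
    intro hdvd
    have hunit : IsUnit (C (algebraMap O E π ^ (k + j)) : E[X]) :=
      isUnit_C.mpr (IsUnit.mk0 _ (pow_ne_zero _ hπE))
    exact hfG ((hunit.dvd_mul_left).mp hdvd)
  · have h1 : aeval t F0 = algebraMap O L π ^ j * aeval t G := by
      rw [← aeval_map_algebraMap E t F0, hF0, map_mul, aeval_C, map_pow,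
        ← IsScalarTower.algebraMap_apply]
    have h2 : aeval t (C (π ^ k) * F0) * z =
        algebraMap O L π ^ j * (algebraMap O L π ^ k * ((aeval t) G * z)) := by
      rw [map_mul, aeval_C, map_pow, h1]
      ring
    rw [h2]
    have h3 : IsIntegral (Algebra.adjoin O ({t} : Set L)) (algebraMap O L π ^ j) := by
      have : algebraMap O L π ^ j =
          algebraMap (Algebra.adjoin O ({t} : Set L)) L (algebraMap O _ π ^ j) := by
        rw [map_pow]
        rfl
      rw [this]
      exact isIntegral_algebraMap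
    exact h3.mul hk

/-- **Witnesses.**  `h = b' / b` in the chart ring `B`; if `h` is an `m`-th power times a unit at
`f(t)` (`LocPow` at `f`), there are `x ∈ A`, `x' ∈ A'` with `x x' = b b' F(t)`, `f ∤ F`. -/
theorem exists_witness {π : O} (hπ : Irreducible π) (t : L) {m : ℕ} (hm : m ≠ 0)
    (b b' : integralClosure (Algebra.adjoin O ({t} : Set L)) L) (hb : b ≠ 0) (hb' : b' ≠ 0)
    (h : L) (hh : h * (b : L) = (b' : L)) {f : E[X]} (hf : Irreducible f) (τ : L) (hτ : τ ≠ 0)
    (h1 : IsIntegralAt (Algebra.adjoin E ({t} : Set L)) (aeval t f) (h / τ ^ m))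
    (h2 : IsIntegralAt (Algebra.adjoin E ({t} : Set L)) (aeval t f) (τ ^ m / h)) :
    ∃ x ∈ rootIdeal (b * b' ^ (m - 1)) m, ∃ x' ∈ rootIdeal (b ^ (m - 1) * b') m,
      ∃ F : O[X], ¬ f ∣ F.map (algebraMap O E) ∧
        ((x * x' : integralClosure (Algebra.adjoin O ({t} : Set L)) L) : L) =
          (b : L) * (b' : L) * aeval t F := by
  have hbL : (b : L) ≠ 0 := fun h0 => hb (Subtype.ext h0)
  have hb'L : (b' : L) ≠ 0 := fun h0 => hb' (Subtype.ext h0)
  have hhe : h = (b' : L) / (b : L) := by rw [eq_div_iff hbL, hh]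
  obtain ⟨F0, hF0, hint0⟩ := exists_poly_of_isIntegralAt hπ t h1
  obtain ⟨F1, hF1, hint1⟩ := exists_poly_of_isIntegralAt hπ t h2
  obtain ⟨k, rfl⟩ := Nat.exists_eq_succ_of_ne_zero hm
  simp only [Nat.succ_sub_one]
  have hs : ∀ F : O[X], IsIntegral (Algebra.adjoin O ({t} : Set L)) (aeval t F) := by
    intro F
    have : aeval t F = algebraMap (Algebra.adjoin O ({t} : Set L)) L
        ⟨aeval t F, by rw [Algebra.adjoin_singleton_eq_range_aeval]; exact ⟨F, rfl⟩⟩ := rfl
    rw [this]
    exact isIntegral_algebraMap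
  -- the two integral elements
  have hw0 : IsIntegral (Algebra.adjoin O ({t} : Set L))
      (aeval t F0 ^ k * (aeval t F0 * (h / τ ^ (k + 1)))) := ((hs F0).pow k).mul hint0
  have hw1 : IsIntegral (Algebra.adjoin O ({t} : Set L))
      (aeval t F1 ^ k * (aeval t F1 * (τ ^ (k + 1) / h))) := ((hs F1).pow k).mul hint1
  have hx0 : ((b' : L) * aeval t F0 / τ) ^ (k + 1) =
      ((b : L) * (b' : L) ^ k) * (aeval t F0 ^ k * (aeval t F0 * (h / τ ^ (k + 1)))) := by
    rw [hhe, div_pow, div_eq_iff (pow_ne_zero _ hτ)]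
    field_simp
    ring
  have hx1 : ((b : L) * aeval t F1 * τ) ^ (k + 1) =
      ((b : L) ^ k * (b' : L)) * (aeval t F1 ^ k * (aeval t F1 * (τ ^ (k + 1) / h))) := by
    rw [hhe]
    field_simp
    ring
  have hxint : IsIntegral (Algebra.adjoin O ({t} : Set L)) ((b' : L) * aeval t F0 / τ) := by
    refine IsIntegral.of_pow (Nat.succ_pos k) ?_
    rw [hx0]
    exact (b.2.mul (b'.2.pow k)).mul hw0
  have hx'int : IsIntegral (Algebra.adjoin O ({t} : Set L)) ((b : L) * aeval t F1 * τ) := by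
    refine IsIntegral.of_pow (Nat.succ_pos k) ?_
    rw [hx1]
    exact ((b.2.pow k).mul b'.2).mul hw1
  refine ⟨⟨_, hxint⟩, ?_, ⟨_, hx'int⟩, ?_, F0 * F1, ?_, ?_⟩
  · refine mem_rootIdeal_of_dvd ⟨⟨_, hw0⟩, Subtype.ext ?_⟩
    simpa using hx0
  · refine mem_rootIdeal_of_dvd ⟨⟨_, hw1⟩, Subtype.ext ?_⟩
    simpa using hx1
  · rw [Polynomial.map_mul]
    have hfp : Prime f := hf.prime
    intro hdvd
    rcases hfp.dvd_or_dvd hdvd with h' | h'
    exacts [hF0 h', hF1 h']
  · change (b' : L) * aeval t F0 / τ * ((b : L) * aeval t F1 * τ) = _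
    rw [map_mul]
    field_simp

end Witness

/-! ### The chart-level exit -/

section Exit

open Fermat.Agent.S34.Nodal

universe v

/-- The statement of `CartPair/Local.lean` (Theorem 1 of the CartPair note over `P = O[t]`,
un-localised): `b b' ∈ A A' + (π)`. -/
def LocalStatement : Prop :=
  ∀ (P B : Type v) [CommRing P] [IsDomain P] [IsNoetherianRing P] [UniqueFactorizationMonoid P]
    [CommRing B] [IsDomain B] [IsIntegrallyClosed B] [Algebra P B] [FaithfulSMul P B]
    [Module.Finite P B] (π : P) (_ : Prime π) [IsPrincipalIdealRing (P ⧸ Ideal.span {π})]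
    (p1 p2 : Ideal B) [p1.IsPrime] [p2.IsPrime]
    (_ : p1 ⊓ p2 = Ideal.span {algebraMap P B π})
    [IsIntegrallyClosed (B ⧸ p1)] [IsIntegrallyClosed (B ⧸ p2)] (_ : (p1 ⊔ p2).IsRadical)
    (b b' : B) (_ : b ∉ p1) (_ : b ∉ p2) (_ : algebraMap P B π ∣ b' - b) (m : ℕ) (_ : m ≠ 0)
    (_ : ∀ q : P, Prime q → ¬ Associated q π →
      ∃ x ∈ rootIdeal (b * b' ^ (m - 1)) m, ∃ x' ∈ rootIdeal (b ^ (m - 1) * b') m, ∃ s : P,
        ¬ q ∣ s ∧ x * x' = b * b' * algebraMap P B s),
    b * b' ∈ rootIdeal (b * b' ^ (m - 1)) m * rootIdeal (b ^ (m - 1) * b') m ⊔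
      Ideal.span {algebraMap P B π}

variable {O E : Type*} {L : Type v} [CommRing O] [IsDomain O] [IsDiscreteValuationRing O]
  [Field E] [CharZero E] [Algebra O E] [IsFractionRing O E]
  [Field L] [Algebra E L] [Algebra O L] [IsScalarTower O E L]

/-- **Chart-level exit of CartPair**, from the local statement.  `B` the chart ring of `t` with
nodal special fibre `V(p₁) ∪ V(p₂)`; `h ≡ 1` at `p₁` and at `p₂`, `m ∣ div h` on the chart.  Then
`(1/m) div h` is an invertible divisor on the chart. -/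
theorem cartierRoot_of_local (hLocal : LocalStatement.{v}) (π : O) (hπ : Irreducible π) (t : L)
    (ht : Transcendental E t) [FiniteDimensional (IntermediateField.adjoin E {t}) L]
    {p₁ p₂ : Ideal (Chart O t)} (hN : IsNodalChart π t p₁ p₂)
    (m : ℕ) (hm : IsUnit (m : O))
    (h : L) (h₁ : CongrOneAtChart p₁ h) (h₂ : CongrOneAtChart p₂ h)
    (hdiv : LocPow (E := E) m t h) :
    ToricInertia.CartierRoot O ({t} : Set L) m h := by
  classical
  have hm0 : m ≠ 0 := by
    rintro rfl
    rw [Nat.cast_zero] at hm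
    exact not_isUnit_zero hm
  have htO : Transcendental O t := ChartProv.transcendental_base t ht
  -- the base ring `P = O[t]`
  have noethP : IsNoetherianRing (Algebra.adjoin O ({t} : Set L)) :=
    ChartInst.isNoetherianRing_adjoin O t htO
  have ufdP : UniqueFactorizationMonoid (Algebra.adjoin O ({t} : Set L)) :=
    ChartInst.uniqueFactorizationMonoid_adjoin O t htO
  have hπP : Prime (algebraMap O (Algebra.adjoin O ({t} : Set L)) π) :=
    ChartInst.prime_algebraMap_adjoin O t htO hπ.prime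
  have hmaxπ : (Ideal.span {π}).IsMaximal := by
    rw [← (IsDiscreteValuationRing.irreducible_iff_uniformizer π).mp hπ]
    exact IsLocalRing.maximalIdeal.isMaximal O
  have pirP : IsPrincipalIdealRing (Algebra.adjoin O ({t} : Set L) ⧸
      Ideal.span {algebraMap O (Algebra.adjoin O ({t} : Set L)) π}) :=
    ChartInst.isPrincipalIdealRing_quotient_adjoin O t htO π
  -- the chart ring `B`
  have finB : Module.Finite (Algebra.adjoin O ({t} : Set L)) (Chart O t) :=
    ChartProv.chart_finite t ht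
  have icB : IsIntegrallyClosed (Chart O t) := isIntegrallyClosed_integralClosure
  have faithB : FaithfulSMul (Algebra.adjoin O ({t} : Set L)) (Chart O t) := by
    rw [faithfulSMul_iff_algebraMap_injective]
    intro x y hxy
    have := congrArg (fun z : Chart O t => (z : L)) hxy
    exact Subtype.ext this
  have hp1 : p₁.IsPrime := hN.isPrime₁
  have hp2 : p₂.IsPrime := hN.isPrime₂
  have ded1 : IsDedekindDomain (Chart O t ⧸ p₁) := hN.dedekind₁
  have ded2 : IsDedekindDomain (Chart O t ⧸ p₂) := hN.dedekind₂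
  have ic1 : IsIntegrallyClosed (Chart O t ⧸ p₁) := inferInstance
  have ic2 : IsIntegrallyClosed (Chart O t ⧸ p₂) := inferInstance
  have hinf : p₁ ⊓ p₂ = Ideal.span {algebraMap (Algebra.adjoin O ({t} : Set L)) (Chart O t)
      (algebraMap O (Algebra.adjoin O ({t} : Set L)) π)} := hN.inf_eq
  set πB : Chart O t := algebraMap (Algebra.adjoin O ({t} : Set L)) (Chart O t)
      (algebraMap O (Algebra.adjoin O ({t} : Set L)) π) with hπB
  have hπ1 : πB ∈ p₁ := (hinf ▸ Ideal.mem_span_singleton_self πB : πB ∈ p₁ ⊓ p₂).1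
  have hπ2 : πB ∈ p₂ := (hinf ▸ Ideal.mem_span_singleton_self πB : πB ∈ p₁ ⊓ p₂).2
  -- the common denominator
  obtain ⟨a1, b1, ha1, hb1, hab1⟩ := h₁
  obtain ⟨a2, b2, ha2, hb2, hab2⟩ := h₂
  obtain ⟨c1, c2, hbp1, hbp2, hdiff⟩ :=
    exists_common_den hN.not_le₁₂ hN.not_le₂₁ ha1 hb1 ha2 hb2
  obtain ⟨b, hbdef⟩ : ∃ b : Chart O t, b = b1 * c2 + b2 * c1 := ⟨_, rfl⟩
  obtain ⟨b', hb'def⟩ : ∃ b' : Chart O t, b' = b + (a1 * c2 + a2 * c1) := ⟨_, rfl⟩
  rw [← hbdef] at hbp1 hbp2
  have hh : h * (b : L) = (b' : L) := by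
    rw [hb'def, hbdef]
    push_cast
    linear_combination (c2 : L) * hab1 + (c1 : L) * hab2
  have hsub : b' - b ∈ p₁ ⊓ p₂ := by
    rw [hb'def, add_sub_cancel_left]
    exact hdiff
  have hbb' : πB ∣ b' - b := by
    rw [hinf] at hsub
    exact Ideal.mem_span_singleton.mp hsub
  have hb'p1 : b' ∉ p₁ := fun hmem => hbp1 (by
    have := p₁.sub_mem hmem hsub.1
    simpa using this)
  have hb'p2 : b' ∉ p₂ := fun hmem => hbp2 (by
    have := p₂.sub_mem hmem hsub.2
    simpa using this)
  have hb0 : b ≠ 0 := fun h0 => hbp1 (h0 ▸ p₁.zero_mem)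
  have hb'0 : b' ≠ 0 := fun h0 => hb'p1 (h0 ▸ p₁.zero_mem)
  -- `b b'` is regular modulo `π`
  have hreg : ∀ z : Chart O t, πB ∣ b * b' * z → πB ∣ z := by
    intro z hz
    have hmem : b * b' * z ∈ p₁ ⊓ p₂ := by
      rw [hinf]
      exact Ideal.mem_span_singleton.mpr hz
    have hz1 : z ∈ p₁ := by
      rcases hp1.mem_or_mem hmem.1 with h' | h'
      · rcases hp1.mem_or_mem h' with h'' | h''
        exacts [absurd h'' hbp1, absurd h'' hb'p1]
      · exact h'
    have hz2 : z ∈ p₂ := by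
      rcases hp2.mem_or_mem hmem.2 with h' | h'
      · rcases hp2.mem_or_mem h' with h'' | h''
        exacts [absurd h'' hbp2, absurd h'' hb'p2]
      · exact h'
    have : z ∈ p₁ ⊓ p₂ := ⟨hz1, hz2⟩
    rw [hinf] at this
    exact Ideal.mem_span_singleton.mp this
  -- the witnesses at the horizontal primes
  have hwit : ∀ (q0 : Ideal (Algebra.adjoin O ({t} : Set L))), q0.IsPrime → q0 ≠ ⊥ →
      algebraMap O (Algebra.adjoin O ({t} : Set L)) π ∉ q0 →
      ∃ x ∈ rootIdeal (b * b' ^ (m - 1)) m, ∃ x' ∈ rootIdeal (b ^ (m - 1) * b') m,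
        ∃ s : Algebra.adjoin O ({t} : Set L), s ∉ q0 ∧
          x * x' = b * b' * algebraMap (Algebra.adjoin O ({t} : Set L)) (Chart O t) s := by
    intro q0 hq0p hq0 hπq
    obtain ⟨f, hf, hfq⟩ := exists_irreducible_of_prime_adjoin (E := E) π hπ t htO q0 hq0 hπq
    obtain ⟨τ, hτ, hi1, hi2⟩ := hdiv f hf
    obtain ⟨x, hx, x', hx', F, hF, hxx'⟩ :=
      exists_witness hπ t hm0 b b' hb0 hb'0 h hh hf τ hτ hi1 hi2
    refine ⟨x, hx, x', hx', ChartInst.polyEquiv O t htO F, fun hmem => hF (hfq F hmem), ?_⟩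
    apply Subtype.ext
    rw [hxx']
    rfl
  have hcodim : ∀ q : Algebra.adjoin O ({t} : Set L), Prime q →
      ¬ Associated q (algebraMap O (Algebra.adjoin O ({t} : Set L)) π) →
      ∃ x ∈ rootIdeal (b * b' ^ (m - 1)) m, ∃ x' ∈ rootIdeal (b ^ (m - 1) * b') m,
        ∃ s : Algebra.adjoin O ({t} : Set L), ¬ q ∣ s ∧
          x * x' = b * b' * algebraMap (Algebra.adjoin O ({t} : Set L)) (Chart O t) s := by
    intro q hq hqπ
    have hq0p : (Ideal.span {q}).IsPrime := (Ideal.span_singleton_prime hq.ne_zero).mpr hq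
    have hq0 : Ideal.span {q} ≠ ⊥ := by
      rw [Ne, Ideal.span_singleton_eq_bot]
      exact hq.ne_zero
    have hπq : algebraMap O (Algebra.adjoin O ({t} : Set L)) π ∉ Ideal.span {q} := by
      intro hmem
      exact hqπ (hq.irreducible.associated_of_dvd hπP.irreducible
        (Ideal.mem_span_singleton.mp hmem))
    obtain ⟨x, hx, x', hx', s, hs, hxx'⟩ := hwit _ hq0p hq0 hπq
    exact ⟨x, hx, x', hx', s, fun hdvd => hs (Ideal.mem_span_singleton.mpr hdvd), hxx'⟩
  -- the local statement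
  have hsup := hLocal (Algebra.adjoin O ({t} : Set L)) (Chart O t)
    (algebraMap O (Algebra.adjoin O ({t} : Set L)) π) hπP p₁ p₂ hinf hN.radical b b' hbp1 hbp2
    hbb' m hm0 hcodim
  have hP2 := rootIdeal_mul_rootIdeal_le b b' hm0
  obtain ⟨v, hv, y, hy, hvy⟩ := Submodule.mem_sup.mp hsup
  obtain ⟨y', rfl⟩ := Ideal.mem_span_singleton.mp hy
  obtain ⟨v', rfl⟩ := Ideal.mem_span_singleton.mp (hP2 hv)
  obtain ⟨w, hw⟩ := hreg (1 - v') ⟨y', by linear_combination (-1 : Chart O t) * hvy⟩
  -- the colon ideal is the unit ideal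
  have h1mem : 1 - πB * w ∈ colonIdeal
      (rootIdeal (b * b' ^ (m - 1)) m * rootIdeal (b ^ (m - 1) * b') m) (b * b') := by
    rw [mem_colonIdeal]
    have : (1 - πB * w) * (b * b') = b * b' * v' := by linear_combination (b * b') * hw
    rw [this]
    exact hv
  have htop : colonIdeal
      (rootIdeal (b * b' ^ (m - 1)) m * rootIdeal (b ^ (m - 1) * b') m) (b * b') = ⊤ := by
    by_contra hne
    obtain ⟨M, hM, hle⟩ := Ideal.exists_le_maximal _ hne
    by_cases hπM : πB ∈ M
    · apply hM.ne_top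
      rw [Ideal.eq_top_iff_one]
      have := M.add_mem (hle h1mem) (M.mul_mem_right w hπM)
      simpa using this
    · have hMp : M.IsPrime := hM.isPrime
      have hq0max : (M.comap (algebraMap (Algebra.adjoin O ({t} : Set L)) (Chart O t))).IsMaximal :=
        Ideal.isMaximal_comap_of_isIntegral_of_isMaximal M
      have hq0 : M.comap (algebraMap (Algebra.adjoin O ({t} : Set L)) (Chart O t)) ≠ ⊥ := by
        intro h0
        rw [h0] at hq0max
        have h2 : (⊥ : Ideal (Algebra.adjoin O ({t} : Set L))) =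
            Ideal.span {algebraMap O (Algebra.adjoin O ({t} : Set L)) π} :=
          hq0max.eq_of_le ((Ideal.span_singleton_prime hπP.ne_zero).mpr hπP).ne_top bot_le
        exact hπP.ne_zero (Ideal.span_singleton_eq_bot.mp h2.symm)
      obtain ⟨x, hx, x', hx', s, hs, hxx'⟩ := hwit _ hq0max.isPrime hq0 hπM
      apply hs
      rw [Ideal.mem_comap]
      apply hle
      rw [mem_colonIdeal]
      have h3 : algebraMap (Algebra.adjoin O ({t} : Set L)) (Chart O t) s * (b * b') = x * x' := by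
        rw [hxx', mul_comm]
      rw [h3]
      exact Ideal.mul_mem_mul hx hx'
  have hfinal : b * b' ∈ rootIdeal (b * b' ^ (m - 1)) m * rootIdeal (b ^ (m - 1) * b') m := by
    have h1 : (1 : Chart O t) ∈ colonIdeal
        (rootIdeal (b * b' ^ (m - 1)) m * rootIdeal (b ^ (m - 1) * b') m) (b * b') := by
      rw [htop]
      exact Submodule.mem_top
    rw [mem_colonIdeal, one_mul] at h1
    exact h1
  exact exists_partition hm0 b b' hb0 hb'0 h hh hfinal

end Exit

end Fermat.Agent.S34.CartPair
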