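import Fermat.Agent.S34.RegularHoriz
import Fermat.Agent.S34.CartPair.Ideals

/-!
# S34 / CartPair: the horizontal witnesses (`LocPow` at a prime `M ∌ π` of the chart ring)

`B` the chart ring of `t` (integral closure of `O[t]` in `L`), `h = b' / b` with `b, b' ∈ B`,
`A = rootIdeal (b * b' ^ (m - 1)) m`, `A' = rootIdeal (b ^ (m - 1) * b') m` the two root ideals
of `CartPair/Ideals.lean`.  If `m ∣ div h` on the chart (`Model.LocPow m t h`), then for every
prime `M` of `B` not containing `π` there are `x ∈ A`, `x' ∈ A'`, `y ∉ M` with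
`x * x' = b * b' * y`; hence the ideal `{y | b * b' * y ∈ A * A'}` is contained in no maximal
ideal `M ∌ π` (`exists_not_mem_mul_mem`).
-/

set_option autoImplicit false

open Polynomial
open Fermat.Agent.S30.Model Fermat.Agent.S30.Model.GlueChart

namespace Fermat.Agent.S34.CartPair.HorizWitness

open Fermat.Agent.S34.RegularHoriz

variable {O E L : Type*} [CommRing O] [IsDomain O] [IsDiscreteValuationRing O]
  [Field E] [Algebra O E] [IsFractionRing O E]
  [Field L] [Algebra E L] [Algebra O L] [IsScalarTower O E L]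

/-- **(W4)** Horizontal witnesses at a prime `M ∌ π` of the chart ring. -/
theorem exists_witness (π : O) (hπ : Irreducible π) (t : L) (m : ℕ) (hm : m ≠ 0) (h : L)
    (hdiv : LocPow (E := E) m t h)
    (b b' : integralClosure (Algebra.adjoin O ({t} : Set L)) L) (hb : b ≠ 0)
    (hh : h * (b : L) = (b' : L))
    (M : Ideal (integralClosure (Algebra.adjoin O ({t} : Set L)) L)) [hMp : M.IsPrime]
    (hπM : piElt (Algebra.adjoin O ({t} : Set L)) π ∉ M) :
    ∃ x ∈ rootIdeal (b * b' ^ (m - 1)) m, ∃ x' ∈ rootIdeal (b ^ (m - 1) * b') m,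
      ∃ y : integralClosure (Algebra.adjoin O ({t} : Set L)) L, y ∉ M ∧ x * x' = b * b' * y := by
  have hbL : (b : L) ≠ 0 := fun h0 => hb (Subtype.ext h0)
  by_cases hb' : b' = 0
  · refine ⟨0, Ideal.zero_mem _, 0, Ideal.zero_mem _, 1, fun h1 => hMp.ne_top ?_, ?_⟩
    · exact (Ideal.eq_top_iff_one M).2 h1
    · rw [hb']; ring
  have hb'L : (b' : L) ≠ 0 := fun h0 => hb' (Subtype.ext h0)
  have hhe : h = (b' : L) / (b : L) := by rw [eq_div_iff hbL, hh]
  obtain ⟨f, hfirr, hf⟩ := exists_irreducible_dvd (E := E) hπ t M hπM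
  obtain ⟨τ, hτ, h1, h2⟩ := hdiv f hfirr
  obtain ⟨σ₁, b₁, hσ₁, hb₁⟩ := exists_mul_eq_of_isIntegralAt hπ t M hπM f hf _ h1
  obtain ⟨σ₂, b₂, hσ₂, hb₂⟩ := exists_mul_eq_of_isIntegralAt hπ t M hπM f hf _ h2
  have hτm : τ ^ m ≠ 0 := pow_ne_zero m hτ
  obtain ⟨k, rfl⟩ : ∃ k, m = k + 1 := ⟨m - 1, by omega⟩
  simp only [Nat.add_sub_cancel]
  -- the two elements
  have hx : ((b' : L) * (σ₁ : L) / τ) ^ (k + 1) =
      ((b * b' ^ k * (σ₁ ^ k * b₁) : integralClosure (Algebra.adjoin O ({t} : Set L)) L) : L) := by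
    simp only [Subalgebra.coe_mul, Subalgebra.coe_pow, ← hb₁]
    rw [hhe, div_pow]
    field_simp
    ring
  have hx' : ((b : L) * (σ₂ : L) * τ) ^ (k + 1) =
      ((b ^ k * b' * (σ₂ ^ k * b₂) : integralClosure (Algebra.adjoin O ({t} : Set L)) L) : L) := by
    simp only [Subalgebra.coe_mul, Subalgebra.coe_pow, ← hb₂]
    rw [hhe]
    field_simp
    ring
  have hxint : IsIntegral (Algebra.adjoin O ({t} : Set L)) ((b' : L) * (σ₁ : L) / τ) :=
    IsIntegral.of_pow (Nat.succ_pos k) (hx ▸ Subtype.property _)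
  have hx'int : IsIntegral (Algebra.adjoin O ({t} : Set L)) ((b : L) * (σ₂ : L) * τ) :=
    IsIntegral.of_pow (Nat.succ_pos k) (hx' ▸ Subtype.property _)
  refine ⟨⟨_, hxint⟩, mem_rootIdeal_of_dvd ⟨σ₁ ^ k * b₁, Subtype.ext ?_⟩,
    ⟨_, hx'int⟩, mem_rootIdeal_of_dvd ⟨σ₂ ^ k * b₂, Subtype.ext ?_⟩, σ₁ * σ₂, ?_, Subtype.ext ?_⟩
  · rw [Subalgebra.coe_pow]; exact hx
  · rw [Subalgebra.coe_pow]; exact hx'
  · exact fun hmem => (hMp.mem_or_mem hmem).elim hσ₁ hσ₂
  · simp only [Subalgebra.coe_mul]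
    field_simp

/-- **(W4), ideal form.**  For every prime `M ∌ π` of the chart ring there is `y ∉ M` with
`b * b' * y ∈ A * A'`. -/
theorem exists_not_mem_mul_mem (π : O) (hπ : Irreducible π) (t : L) (m : ℕ) (hm : m ≠ 0) (h : L)
    (hdiv : LocPow (E := E) m t h)
    (b b' : integralClosure (Algebra.adjoin O ({t} : Set L)) L) (hb : b ≠ 0)
    (hh : h * (b : L) = (b' : L))
    (M : Ideal (integralClosure (Algebra.adjoin O ({t} : Set L)) L)) [hMp : M.IsPrime]
    (hπM : piElt (Algebra.adjoin O ({t} : Set L)) π ∉ M) :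
    ∃ y : integralClosure (Algebra.adjoin O ({t} : Set L)) L, y ∉ M ∧
      b * b' * y ∈ rootIdeal (b * b' ^ (m - 1)) m * rootIdeal (b ^ (m - 1) * b') m := by
  obtain ⟨x, hx, x', hx', y, hy, hxy⟩ := exists_witness π hπ t m hm h hdiv b b' hb hh M hπM
  exact ⟨y, hy, hxy ▸ Ideal.mul_mem_mul hx hx'⟩

end Fermat.Agent.S34.CartPair.HorizWitness
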