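import Mathlib
import Fermat.Agent.S30.Model.Main
import Fermat.Agent.S30.Model.ChartInst
import Fermat.Agent.S30.Model.ChartSwap
import Fermat.Agent.S30.Model.ChartProv
import Fermat.Agent.S34.CartPair.Ideals

/-!
# S34 / CartPair: the `hcodim` witnesses from `LocPow` (prime elements of `O[t]`)

`O` a DVR with fraction field `E`, `t : L` transcendental over `E`, `P = O[t] ⊆ L`,
`B` the integral closure of `P` in `L` (the chart ring `Nodal.Chart O t`).

* `exists_rootIdeal_of_integral` (any base ring `D`) : `τ ≠ 0` and `s₀, s₁ : D` with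
  `s₀ * (h / τ ^ m)`, `s₁ * (τ ^ m / h)` integral give `x ∈ rootIdeal (b * b' ^ (m - 1)) m`,
  `x' ∈ rootIdeal (b ^ (m - 1) * b') m` with `x * x' = b * b' * (s₀ * s₁)` (`h = b' / b`).
* `exists_witness` : `Model.LocPow m t h` gives, at every prime element `q` of `P` not associated
  to the uniformiser, `τ ≠ 0` and `s₀, s₁ ∈ P ∖ (q)` with `s₀ * (h / τ ^ m)` and
  `s₁ * (τ ^ m / h)` integral over `P`.
* `exists_rootIdeal_witness` : the two combined = the hypothesis `hcodim` of
  `CartPair.mul_mem_of_nodal` / `LocNodal`, at the chart level.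
* `dvd_of_mem_of_prime_mem` : a prime ideal of `O[X]` not containing the uniformiser and
  containing a prime element `Q` is `(Q)`.
* `exists_rootIdeal_witness_of_maximal` : the witnesses at a maximal ideal of the chart ring
  not containing the uniformiser, with `s ∈ P` (twin of `HorizWitness.exists_witness`).
-/

set_option autoImplicit false

open Polynomial

namespace Fermat.Agent.S34.CartPair.PrimeWitness

open Fermat.Agent.S30.Model Fermat.Agent.S34.CartPair

section Core

variable {D L : Type*} [CommRing D] [Field L] [Algebra D L]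

/-- From an "`m`-th root up to units at `q`" `τ` of `h = b' / b` to elements of the two root
ideals. -/
theorem exists_rootIdeal_of_integral {m : ℕ} (hm : m ≠ 0) (b b' : integralClosure D L)
    (hb : b ≠ 0) (h : L) (hh : h * (b : L) = (b' : L)) (hb' : b' ≠ 0)
    (τ : L) (hτ : τ ≠ 0) (s₀ s₁ : D)
    (h₀ : IsIntegral D (algebraMap D L s₀ * (h / τ ^ m)))
    (h₁ : IsIntegral D (algebraMap D L s₁ * (τ ^ m / h))) :
    ∃ x ∈ rootIdeal (b * b' ^ (m - 1)) m, ∃ x' ∈ rootIdeal (b ^ (m - 1) * b') m,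
      x * x' = b * b' * algebraMap D (integralClosure D L) (s₀ * s₁) := by
  have hbL : (b : L) ≠ 0 := fun h0 => hb (Subtype.ext h0)
  have hb'L : (b' : L) ≠ 0 := fun h0 => hb' (Subtype.ext h0)
  have hh0 : h ≠ 0 := by
    rintro rfl
    rw [zero_mul] at hh
    exact hb'L hh.symm
  have hm1 : m - 1 + 1 = m := Nat.succ_pred_eq_of_pos (Nat.pos_of_ne_zero hm)
  -- the two integral elements
  set Y₀ : integralClosure D L := ⟨_, h₀⟩ with hY₀
  set Y₁ : integralClosure D L := ⟨_, h₁⟩ with hY₁
  set S₀ : integralClosure D L := algebraMap D (integralClosure D L) s₀ with hS₀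
  set S₁ : integralClosure D L := algebraMap D (integralClosure D L) s₁ with hS₁
  have hS₀L : (S₀ : L) = algebraMap D L s₀ := rfl
  have hS₁L : (S₁ : L) = algebraMap D L s₁ := rfl
  -- x = b' s₀ / τ
  have hxpow : ((b' : L) * algebraMap D L s₀ / τ) ^ m =
      (b : L) * (b' : L) ^ (m - 1) * ((S₀ : L) ^ (m - 1) * (Y₀ : L)) := by
    have e1 : (b' : L) ^ m = (b' : L) ^ (m - 1) * (b' : L) := by
      rw [← pow_succ, hm1]
    have e2 : (algebraMap D L s₀) ^ m = (algebraMap D L s₀) ^ (m - 1) * algebraMap D L s₀ := by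
      rw [← pow_succ, hm1]
    rw [hS₀L, hY₀, div_pow, mul_pow, e1, e2, ← hh]
    field_simp
  have hxint : IsIntegral D ((b' : L) * algebraMap D L s₀ / τ) := by
    apply IsIntegral.of_pow (Nat.pos_of_ne_zero hm)
    rw [hxpow]
    exact (b * b' ^ (m - 1) * (S₀ ^ (m - 1) * Y₀)).2
  -- x' = b s₁ τ
  have hx'pow : ((b : L) * algebraMap D L s₁ * τ) ^ m =
      (b : L) ^ (m - 1) * (b' : L) * ((S₁ : L) ^ (m - 1) * (Y₁ : L)) := by
    have e1 : (b : L) ^ m = (b : L) ^ (m - 1) * (b : L) := by
      rw [← pow_succ, hm1]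
    have e2 : (algebraMap D L s₁) ^ m = (algebraMap D L s₁) ^ (m - 1) * algebraMap D L s₁ := by
      rw [← pow_succ, hm1]
    rw [hS₁L, hY₁, mul_pow, mul_pow, e1, e2, ← hh]
    field_simp
  have hx'int : IsIntegral D ((b : L) * algebraMap D L s₁ * τ) := by
    apply IsIntegral.of_pow (Nat.pos_of_ne_zero hm)
    rw [hx'pow]
    exact (b ^ (m - 1) * b' * (S₁ ^ (m - 1) * Y₁)).2
  refine ⟨⟨_, hxint⟩, mem_rootIdeal_of_dvd ⟨S₀ ^ (m - 1) * Y₀, Subtype.ext ?_⟩,
    ⟨_, hx'int⟩, mem_rootIdeal_of_dvd ⟨S₁ ^ (m - 1) * Y₁, Subtype.ext ?_⟩, Subtype.ext ?_⟩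
  · push_cast
    exact hxpow
  · push_cast
    exact hx'pow
  · push_cast
    field_simp

end Core

section LocPow

variable {O E L : Type*} [CommRing O] [IsDomain O] [IsDiscreteValuationRing O]
  [Field E] [Algebra O E] [IsFractionRing O E]
  [Field L] [Algebra E L] [Algebra O L] [IsScalarTower O E L]

/-- A prime element of `O[t]` not associated to the uniformiser divides no nonzero constant. -/
theorem not_dvd_algebraMap (π : O) (hπ : Irreducible π) (t : L) (ht : Transcendental E t)
    (q : Algebra.adjoin O ({t} : Set L)) (hq : Prime q)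
    (hqπ : ¬ Associated q (algebraMap O (Algebra.adjoin O ({t} : Set L)) π)) (d : O)
    (hd : d ≠ 0) : ¬ q ∣ algebraMap O (Algebra.adjoin O ({t} : Set L)) d := by
  intro hdvd
  obtain ⟨n, hn⟩ := IsDiscreteValuationRing.associated_pow_irreducible hd hπ
  have h1 : q ∣ (algebraMap O (Algebra.adjoin O ({t} : Set L)) π) ^ n := by
    obtain ⟨u, hu⟩ := hn
    rw [← map_pow, ← hu, map_mul]
    exact Dvd.dvd.mul_right hdvd _
  have h2 : q ∣ algebraMap O (Algebra.adjoin O ({t} : Set L)) π := hq.dvd_of_dvd_pow h1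
  have hπP : Prime (algebraMap O (Algebra.adjoin O ({t} : Set L)) π) :=
    ChartInst.prime_algebraMap_adjoin O t (ChartProv.transcendental_base t ht) hπ.prime
  exact hqπ (hq.associated_of_dvd hπP h2)

/-- Clearing denominators in "integral at `q` over `E[t]`". -/
theorem exists_not_dvd_isIntegral (π : O) (hπ : Irreducible π) (t : L) (ht : Transcendental E t)
    (q : Algebra.adjoin O ({t} : Set L)) (hq : Prime q)
    (hqπ : ¬ Associated q (algebraMap O (Algebra.adjoin O ({t} : Set L)) π))
    (s z : L) (hs : s ∈ Algebra.adjoin E ({t} : Set L))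
    (hsq : ∀ c : L, c ∈ Algebra.adjoin E ({t} : Set L) → s ≠ (q : L) * c)
    (hint : IsIntegral (Algebra.adjoin E ({t} : Set L)) (s * z)) :
    ∃ s₀ : Algebra.adjoin O ({t} : Set L), ¬ q ∣ s₀ ∧
      IsIntegral (Algebra.adjoin O ({t} : Set L)) ((s₀ : L) * z) := by
  have htO : Transcendental O t := ChartProv.transcendental_base t ht
  rw [Algebra.adjoin_singleton_eq_range_aeval] at hs
  obtain ⟨S, hS⟩ := hs
  obtain ⟨d, hdM, hd⟩ := IsLocalization.integerNormalization_spec (nonZeroDivisors O) S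
  set S₀ := IsLocalization.integerNormalization (nonZeroDivisors O) S with hS₀
  obtain ⟨d', hd'0, -, hd'int⟩ := ChartSwap.exists_smul_isIntegral_adjoin (O := O) t (s * z) hint
  set s₁ : Algebra.adjoin O ({t} : Set L) := ChartInst.polyEquiv O t htO S₀ with hs₁def
  have hd0 : algebraMap O L (d : O) ≠ 0 := by
    intro h0
    exact nonZeroDivisors.ne_zero hdM
      (ChartProv.algebraMap_injective_base O E L (by rw [h0, map_zero]))
  have hs₁ : (s₁ : L) = algebraMap O L (d : O) * s := by
    rw [hs₁def, ChartInst.coe_polyEquiv, ← aeval_map_algebraMap E, hd, ← hS,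
      ← algebraMap_smul E d S, map_smul, Algebra.smul_def, ← IsScalarTower.algebraMap_apply]
    rfl
  refine ⟨algebraMap O (Algebra.adjoin O ({t} : Set L)) d' * s₁, ?_, ?_⟩
  · intro hdvd
    rcases hq.dvd_or_dvd hdvd with h1 | h1
    · exact not_dvd_algebraMap π hπ t ht q hq hqπ d' hd'0 h1
    · obtain ⟨c, hc⟩ := h1
      have hc' : (s₁ : L) = (q : L) * (c : L) := by rw [hc]; rfl
      refine hsq (algebraMap E L (algebraMap O E (d : O))⁻¹ * (c : L)) ?_ ?_
      · exact Subalgebra.mul_mem _ (Subalgebra.algebraMap_mem _ _)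
          (ChartInst.mem_adjoin_of_mem_adjoin O t c.2)
      · have hdE : algebraMap E L (algebraMap O E (d : O)) = algebraMap O L (d : O) :=
          (IsScalarTower.algebraMap_apply O E L _).symm
        rw [map_inv₀, hdE]
        rw [hs₁] at hc'
        field_simp
        linear_combination hc'
  · have h1 : ((algebraMap O (Algebra.adjoin O ({t} : Set L)) d' * s₁ :
        Algebra.adjoin O ({t} : Set L)) : L) * z =
        algebraMap O L (d : O) * (algebraMap O L d' * (s * z)) := by
      push_cast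
      rw [hs₁]
      change algebraMap O L d' * (algebraMap O L (d : O) * s) * z = _
      ring
    rw [h1]
    have h2 : IsIntegral (Algebra.adjoin O ({t} : Set L)) (algebraMap O L (d : O)) := by
      have : algebraMap O L (d : O) = algebraMap (Algebra.adjoin O ({t} : Set L)) L
          (algebraMap O (Algebra.adjoin O ({t} : Set L)) (d : O)) := rfl
      rw [this]
      exact isIntegral_algebraMap
    exact h2.mul hd'int

/-- **Witnesses from `LocPow`** at a prime element of `O[t]` not associated to the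
uniformiser. -/
theorem exists_witness (π : O) (hπ : Irreducible π) (t : L) (ht : Transcendental E t) (m : ℕ)
    (h : L) (hdiv : LocPow (E := E) m t h) (q : Algebra.adjoin O ({t} : Set L)) (hq : Prime q)
    (hqπ : ¬ Associated q (algebraMap O (Algebra.adjoin O ({t} : Set L)) π)) :
    ∃ τ : L, τ ≠ 0 ∧ ∃ s₀ s₁ : Algebra.adjoin O ({t} : Set L), ¬ q ∣ s₀ ∧ ¬ q ∣ s₁ ∧
      IsIntegral (Algebra.adjoin O ({t} : Set L)) ((s₀ : L) * (h / τ ^ m)) ∧
      IsIntegral (Algebra.adjoin O ({t} : Set L)) ((s₁ : L) * (τ ^ m / h)) := by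
  have htO : Transcendental O t := ChartProv.transcendental_base t ht
  set e := ChartInst.polyEquiv O t htO with he
  obtain ⟨Q, rfl⟩ := e.surjective q
  have hQ : Prime Q := (MulEquiv.prime_iff e.toMulEquiv).mp hq
  rcases ChartInst.prime_cases (E := E) hπ hQ with hass | ⟨-, -, hirr⟩
  · exfalso
    apply hqπ
    rw [← ChartInst.polyEquiv_C O t htO]
    obtain ⟨u, hu⟩ := hass
    exact ⟨Units.map e.toMulEquiv.toMonoidHom u, by rw [← hu, map_mul]; rfl⟩
  · obtain ⟨τ, hτ, ⟨s, hsD, hsq, hsint⟩, ⟨s', hs'D, hs'q, hs'int⟩⟩ :=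
      hdiv (Q.map (algebraMap O E)) hirr
    have hqL : aeval t (Q.map (algebraMap O E)) = ((e Q : Algebra.adjoin O ({t} : Set L)) : L) := by
      rw [aeval_map_algebraMap, he, ChartInst.coe_polyEquiv]
    rw [hqL] at hsq hs'q
    obtain ⟨s₀, hs₀, hs₀int⟩ :=
      exists_not_dvd_isIntegral π hπ t ht (e Q) hq hqπ s _ hsD hsq hsint
    obtain ⟨s₁, hs₁, hs₁int⟩ :=
      exists_not_dvd_isIntegral π hπ t ht (e Q) hq hqπ s' _ hs'D hs'q hs'int
    exact ⟨τ, hτ, s₀, s₁, hs₀, hs₁, hs₀int, hs₁int⟩

/-- **`hcodim` of `CartPair/Local` from `LocPow`** (chart level): at a prime element `q` of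
`O[t]` not associated to the uniformiser there are `x ∈ A`, `x' ∈ A'` with
`x * x' = b * b' * s`, `q ∤ s`. -/
theorem exists_rootIdeal_witness (π : O) (hπ : Irreducible π) (t : L) (ht : Transcendental E t)
    {m : ℕ} (hm : m ≠ 0) (h : L) (hdiv : LocPow (E := E) m t h)
    (b b' : integralClosure (Algebra.adjoin O ({t} : Set L)) L) (hb : b ≠ 0) (hb' : b' ≠ 0)
    (hh : h * (b : L) = (b' : L))
    (q : Algebra.adjoin O ({t} : Set L)) (hq : Prime q)
    (hqπ : ¬ Associated q (algebraMap O (Algebra.adjoin O ({t} : Set L)) π)) :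
    ∃ x ∈ rootIdeal (b * b' ^ (m - 1)) m, ∃ x' ∈ rootIdeal (b ^ (m - 1) * b') m,
      ∃ s : Algebra.adjoin O ({t} : Set L), ¬ q ∣ s ∧
        x * x' = b * b' * algebraMap (Algebra.adjoin O ({t} : Set L))
          (integralClosure (Algebra.adjoin O ({t} : Set L)) L) s := by
  obtain ⟨τ, hτ, s₀, s₁, hs₀, hs₁, h₀, h₁⟩ := exists_witness π hπ t ht m h hdiv q hq hqπ
  obtain ⟨x, hx, x', hx', hxx'⟩ :=
    exists_rootIdeal_of_integral hm b b' hb h hh hb' τ hτ s₀ s₁ h₀ h₁
  exact ⟨x, hx, x', hx', s₀ * s₁, fun hd => (hq.dvd_or_dvd hd).elim hs₀ hs₁, hxx'⟩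

/-- In `O[X]`: a prime ideal not containing the uniformiser and containing the prime element
`Q` is contained in `(Q)`. -/
theorem dvd_of_mem_of_prime_mem (E : Type*) [Field E] [Algebra O E] [IsFractionRing O E]
    (π : O) (hπ : Irreducible π) (I : Ideal O[X]) [I.IsPrime]
    (hπI : (C π : O[X]) ∉ I) (Q : O[X]) (hQ : Prime Q) (hQI : Q ∈ I) (G : O[X]) (hG : G ∈ I) :
    Q ∣ G := by
  rcases ChartInst.prime_cases (E := E) hπ hQ with hass | ⟨hdeg, -, hirr⟩
  · exfalso
    apply hπI
    obtain ⟨u, hu⟩ := hass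
    rw [← hu]
    exact I.mul_mem_right _ hQI
  · have hinj : Function.Injective (Polynomial.map (algebraMap O E)) :=
      Polynomial.map_injective _ (IsFractionRing.injective O E)
    have hsmul : ∀ (d : O) (a : E[X]), d • a = C (algebraMap O E d) * a := by
      intro d a
      rw [← algebraMap_smul E d a, Polynomial.smul_eq_C_mul]
    have hdvd : Q.map (algebraMap O E) ∣ G.map (algebraMap O E) := by
      by_contra hnd
      have hcop : IsCoprime (Q.map (algebraMap O E)) (G.map (algebraMap O E)) :=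
        (hirr.coprime_iff_not_dvd).mpr hnd
      obtain ⟨a, b, hab⟩ := hcop
      obtain ⟨d₁, hd₁M, hd₁⟩ := IsLocalization.integerNormalization_spec (nonZeroDivisors O) a
      obtain ⟨d₂, hd₂M, hd₂⟩ := IsLocalization.integerNormalization_spec (nonZeroDivisors O) b
      set A₀ := IsLocalization.integerNormalization (nonZeroDivisors O) a with hA₀
      set B₀ := IsLocalization.integerNormalization (nonZeroDivisors O) b with hB₀
      have key : C d₂ * A₀ * Q + C d₁ * B₀ * G = C (d₁ * d₂) := by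
        apply hinj
        simp only [Polynomial.map_add, Polynomial.map_mul, Polynomial.map_C, hd₁, hd₂, hsmul,
          map_mul]
        linear_combination (C (algebraMap O E d₁) * C (algebraMap O E d₂)) * hab
      have hmem : (C (d₁ * d₂) : O[X]) ∈ I := by
        rw [← key]
        exact I.add_mem (I.mul_mem_left _ hQI) (I.mul_mem_left _ hG)
      obtain ⟨n, hn⟩ := IsDiscreteValuationRing.associated_pow_irreducible
        (mul_ne_zero (nonZeroDivisors.ne_zero hd₁M) (nonZeroDivisors.ne_zero hd₂M)) hπ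
      obtain ⟨u, hu⟩ := hn
      have hpow : (C π : O[X]) ^ n ∈ I := by
        rw [← C_pow, ← hu, C_mul]
        exact I.mul_mem_right _ hmem
      exact hπI (Ideal.IsPrime.mem_of_pow_mem inferInstance n hpow)
    obtain ⟨H, hH⟩ := hdvd
    obtain ⟨d, hdM, hd⟩ := IsLocalization.integerNormalization_spec (nonZeroDivisors O) H
    set H₀ := IsLocalization.integerNormalization (nonZeroDivisors O) H with hH₀
    have key : C d * G = Q * H₀ := by
      apply hinj
      simp only [Polynomial.map_mul, Polynomial.map_C, hd, hsmul, hH]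
      ring
    rcases hQ.dvd_or_dvd (Dvd.intro _ key.symm) with h1 | h1
    · exfalso
      apply hdeg
      obtain ⟨T, hT⟩ := h1
      have hd0 : (C d : O[X]) ≠ 0 := by
        rw [Ne, C_eq_zero]
        exact nonZeroDivisors.ne_zero hdM
      have hT0 : T ≠ 0 := by
        rintro rfl
        rw [mul_zero] at hT
        exact hd0 hT
      have h2 := congrArg natDegree hT
      rw [natDegree_C, natDegree_mul hQ.ne_zero hT0] at h2
      omega
    · exact h1

/-- **Witnesses at a maximal ideal of the chart ring not containing the uniformiser**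
(globalisation step of CartPair). -/
theorem exists_rootIdeal_witness_of_maximal (π : O) (hπ : Irreducible π) (t : L)
    (ht : Transcendental E t) {m : ℕ} (hm : m ≠ 0) (h : L) (hdiv : LocPow (E := E) m t h)
    (b b' : integralClosure (Algebra.adjoin O ({t} : Set L)) L) (hb : b ≠ 0) (hb' : b' ≠ 0)
    (hh : h * (b : L) = (b' : L))
    (M : Ideal (integralClosure (Algebra.adjoin O ({t} : Set L)) L)) (hM : M.IsMaximal)
    (hπM : GlueChart.piElt (Algebra.adjoin O ({t} : Set L)) π ∉ M) :
    ∃ x ∈ rootIdeal (b * b' ^ (m - 1)) m, ∃ x' ∈ rootIdeal (b ^ (m - 1) * b') m,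
      ∃ s : Algebra.adjoin O ({t} : Set L),
        algebraMap (Algebra.adjoin O ({t} : Set L))
          (integralClosure (Algebra.adjoin O ({t} : Set L)) L) s ∉ M ∧
        x * x' = b * b' * algebraMap (Algebra.adjoin O ({t} : Set L))
          (integralClosure (Algebra.adjoin O ({t} : Set L)) L) s := by
  have htO : Transcendental O t := ChartProv.transcendental_base t ht
  have : UniqueFactorizationMonoid (Algebra.adjoin O ({t} : Set L)) :=
    ChartInst.uniqueFactorizationMonoid_adjoin O t htO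
  set e := ChartInst.polyEquiv O t htO with he
  set πP : Algebra.adjoin O ({t} : Set L) := algebraMap O _ π with hπP
  have hπPprime : Prime πP := ChartInst.prime_algebraMap_adjoin O t htO hπ.prime
  set 𝔪 : Ideal (Algebra.adjoin O ({t} : Set L)) :=
    M.comap (algebraMap (Algebra.adjoin O ({t} : Set L))
      (integralClosure (Algebra.adjoin O ({t} : Set L)) L)) with h𝔪
  have h𝔪max : 𝔪.IsMaximal := Ideal.isMaximal_comap_of_isIntegral_of_isMaximal M
  have h𝔪prime : 𝔪.IsPrime := h𝔪max.isPrime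
  have hπ𝔪 : πP ∉ 𝔪 := fun hmem => hπM hmem
  have h𝔪bot : 𝔪 ≠ ⊥ := by
    intro hbot
    rw [hbot] at h𝔪max
    have hfield : IsField (Algebra.adjoin O ({t} : Set L)) := Ring.isField_iff_maximal_bot.mpr h𝔪max
    obtain ⟨y, hy⟩ := hfield.mul_inv_cancel hπPprime.ne_zero
    exact hπPprime.not_isUnit (IsUnit.of_mul_eq_one _ hy)
  obtain ⟨q, hq𝔪, hq⟩ := h𝔪prime.exists_mem_prime_of_ne_bot h𝔪bot
  have hqπ : ¬ Associated q πP := by
    rintro ⟨u, hu⟩
    exact hπ𝔪 (hu ▸ 𝔪.mul_mem_right _ hq𝔪)
  have hsub : ∀ s : Algebra.adjoin O ({t} : Set L), s ∈ 𝔪 → q ∣ s := by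
    intro s hs
    have hI : (𝔪.comap (e : O[X] →+* Algebra.adjoin O ({t} : Set L))).IsPrime :=
      Ideal.comap_isPrime _ _
    have h1 : e.symm q ∣ e.symm s := by
      refine dvd_of_mem_of_prime_mem E π hπ (𝔪.comap (e : O[X] →+* Algebra.adjoin O ({t} : Set L)))
        ?_ (e.symm q) ((MulEquiv.prime_iff e.symm.toMulEquiv).mpr hq) ?_ (e.symm s) ?_
      · rw [Ideal.mem_comap]
        change e (C π) ∉ 𝔪
        rw [he, ChartInst.polyEquiv_C]
        exact hπ𝔪
      · rw [Ideal.mem_comap]
        change e (e.symm q) ∈ 𝔪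
        rw [AlgEquiv.apply_symm_apply]
        exact hq𝔪
      · rw [Ideal.mem_comap]
        change e (e.symm s) ∈ 𝔪
        rw [AlgEquiv.apply_symm_apply]
        exact hs
    have h2 := map_dvd e h1
    rwa [AlgEquiv.apply_symm_apply, AlgEquiv.apply_symm_apply] at h2
  obtain ⟨τ, hτ, s₀, s₁, hs₀, hs₁, h₀, h₁⟩ := exists_witness π hπ t ht m h hdiv q hq hqπ
  obtain ⟨x, hx, x', hx', hxx'⟩ :=
    exists_rootIdeal_of_integral hm b b' hb h hh hb' τ hτ s₀ s₁ h₀ h₁
  refine ⟨x, hx, x', hx', s₀ * s₁, ?_, hxx'⟩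
  intro hmem
  have h3 : s₀ * s₁ ∈ 𝔪 := hmem
  rcases h𝔪prime.mem_or_mem h3 with h4 | h4
  · exact hs₀ (hsub _ h4)
  · exact hs₁ (hsub _ h4)

end LocPow

end Fermat.Agent.S34.CartPair.PrimeWitness
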