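import Mathlib
import Fermat.Agent.S30.Model.Main
import Fermat.Agent.S30.Model.ChartInst
import Fermat.Agent.S30.Model.ChartProv
import Fermat.Agent.S34.CartPair.Ideals

/-!
# S34 / CartPair: the witness adapter (`Model.LocPow` to the witness interface)

Setting of `S30/Model/Main.lean`: `O` a DVR with uniformiser `π`, `E = Frac O`, `L` a field over
`E`, `t : L` transcendental over `E`; `P := Algebra.adjoin O {t}` (the base ring `O[t]`) and
`B := integralClosure P L` (the chart ring, `Nodal.Chart O t`).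

* (a) base-ring facts, re-exported from `ChartInst` / `ChartProv` in the shape the CartPair
  statements consume: `isNoetherianRing_base`, `uniqueFactorizationMonoid_base`,
  `isIntegrallyClosed_base`, `prime_pi`, `isPrime_span_pi`, `isDomain_quotient`,
  `isPrincipalIdealRing_quotient`, `finite_chart`, `faithfulSMul_chart`,
  `isIntegrallyClosed_chart`.
* (b) `exists_of_locPow` : `LocPow m t h` gives, for every prime ideal `𝔮` of `P` not containing
  `π`, some `τ ≠ 0` and `s₀ s₁ ∈ P ∖ 𝔮` with `s₀ * (h / τ ^ m)` and `s₁ * (τ ^ m / h)` integral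
  over `P`.
* (c) `exists_rootIdeal_of_locPow` : the frozen witness interface `hwit` (prime-ideal form) for
  `h = b' / b`; `exists_rootIdeal_of_locPow_of_prime_elt` : its prime-element form (`hcodim`);
  `exists_rootIdeal_of_locPow_chart` : the form for a prime ideal of the chart `B` not
  containing `π` (used for the maximal ideals in the globalisation).
* `exists_poly_of_locPow` : the polynomial form all of them are proved from (clearing the
  `O`-denominators of the `E[t]`-integrality in `LocPow`).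
-/

set_option autoImplicit false

open Polynomial

namespace Fermat.Agent.S34.CartPair.Witness

open Fermat.Agent.S30.Model

section Poly

variable {O E : Type*} [CommRing O] [IsDomain O] [Field E] [Algebra O E] [IsFractionRing O E]

/-- Every element of the extension to `E[X]` of an ideal `𝔔` of `O[X]` becomes, after
multiplication by a nonzero constant of `O`, the image of an element of `𝔔`. -/
theorem exists_mul_mem_of_mem_map (𝔔 : Ideal O[X]) {y : E[X]}
    (hy : y ∈ 𝔔.map (mapRingHom (algebraMap O E))) :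
    ∃ c : O, c ≠ 0 ∧ ∃ g ∈ 𝔔, g.map (algebraMap O E) = C (algebraMap O E c) * y := by
  unfold Ideal.map at hy
  induction hy using Submodule.span_induction with
  | mem y hy =>
    obtain ⟨g, hg, rfl⟩ := hy
    exact ⟨1, one_ne_zero, g, hg, by simp⟩
  | zero => exact ⟨1, one_ne_zero, 0, 𝔔.zero_mem, by simp⟩
  | add y₁ y₂ _ _ h₁ h₂ =>
    obtain ⟨c₁, hc₁, g₁, hg₁, e₁⟩ := h₁
    obtain ⟨c₂, hc₂, g₂, hg₂, e₂⟩ := h₂
    refine ⟨c₁ * c₂, mul_ne_zero hc₁ hc₂, C c₂ * g₁ + C c₁ * g₂,
      𝔔.add_mem (𝔔.mul_mem_left _ hg₁) (𝔔.mul_mem_left _ hg₂), ?_⟩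
    rw [Polynomial.map_add, Polynomial.map_mul, Polynomial.map_mul, map_C, map_C, e₁, e₂,
      map_mul, C_mul]
    ring
  | smul a y _ h =>
    obtain ⟨c, hc, g, hg, e⟩ := h
    obtain ⟨b, hb, hba⟩ := IsLocalization.integerNormalization_spec (nonZeroDivisors O) a
    refine ⟨b * c, mul_ne_zero (nonZeroDivisors.ne_zero hb) hc,
      IsLocalization.integerNormalization (nonZeroDivisors O) a * g, 𝔔.mul_mem_left _ hg, ?_⟩
    rw [Polynomial.map_mul, hba, e, smul_eq_mul, map_mul, C_mul, Algebra.smul_def,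
      Polynomial.algebraMap_apply]
    ring

/-- A prime ideal of `O[X]` not containing the uniformiser lies under an irreducible polynomial
of `E[X]`. -/
theorem exists_irreducible_of_prime [IsDiscreteValuationRing O] {π : O} (hπ : Irreducible π)
    (𝔔 : Ideal O[X]) [h𝔔 : 𝔔.IsPrime] (hπ𝔔 : C π ∉ 𝔔) :
    ∃ f : E[X], Irreducible f ∧ ∀ g ∈ 𝔔, f ∣ g.map (algebraMap O E) := by
  have hne : 𝔔.map (mapRingHom (algebraMap O E)) ≠ ⊤ := by
    intro htop
    have h1 : (1 : E[X]) ∈ 𝔔.map (mapRingHom (algebraMap O E)) := htop ▸ Submodule.mem_top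
    obtain ⟨c, hc, g, hg, e⟩ := exists_mul_mem_of_mem_map 𝔔 h1
    rw [mul_one, ← map_C] at e
    have hgc : g = C c := map_injective _ (IsFractionRing.injective O E) e
    rw [hgc] at hg
    obtain ⟨k, u, hu⟩ := IsDiscreteValuationRing.eq_unit_mul_pow_irreducible hc hπ
    rw [hu, C_mul, C_pow] at hg
    rcases h𝔔.mem_or_mem hg with h | h
    · exact h𝔔.ne_top (Ideal.eq_top_of_isUnit_mem _ h (isUnit_C.mpr u.isUnit))
    · exact hπ𝔔 (h𝔔.mem_of_pow_mem _ h)
  obtain ⟨M, hM, hle⟩ := Ideal.exists_le_maximal _ hne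
  have hMbot : M ≠ ⊥ := Ring.ne_bot_of_isMaximal_of_not_isField hM (Polynomial.not_isField E)
  have hprin : M.IsPrincipal := IsPrincipalIdealRing.principal M
  have hspan : Ideal.span {Submodule.IsPrincipal.generator M} = M :=
    Ideal.span_singleton_generator M
  have hf0 : Submodule.IsPrincipal.generator M ≠ 0 := by
    intro h0
    apply hMbot
    rw [← hspan, h0, Ideal.span_singleton_eq_bot.mpr rfl]
  have hfprime : Prime (Submodule.IsPrincipal.generator M) := by
    rw [← Ideal.span_singleton_prime hf0, hspan]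
    exact hM.isPrime
  refine ⟨_, hfprime.irreducible, fun g hg => ?_⟩
  rw [← Ideal.mem_span_singleton, hspan]
  exact hle (Ideal.mem_map_of_mem (mapRingHom (algebraMap O E)) hg)

end Poly

section Chart

variable {O E L : Type*} [CommRing O] [IsDomain O]
  [Field E] [Algebra O E] [IsFractionRing O E]
  [Field L] [Algebra E L] [Algebra O L] [IsScalarTower O E L]

/-- **Clearing denominators.**  If `z` is integral at `f(t)` over `E[t]` (`Model.IsIntegralAt`),
then `g(t) * z` is integral over `O[t]` for some `g ∈ O[X]` not divisible by `f` in `E[X]`. -/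
theorem exists_poly_of_isIntegralAt (t : L) (f : E[X]) (z : L)
    (hz : IsIntegralAt (Algebra.adjoin E {t}) (aeval t f) z) :
    ∃ g : O[X], ¬ f ∣ g.map (algebraMap O E) ∧
      IsIntegral (Algebra.adjoin O {t}) (aeval t g * z) := by
  obtain ⟨s, hs, hsf, hint⟩ := hz
  rw [Algebra.adjoin_singleton_eq_range_aeval] at hs
  obtain ⟨G, hG⟩ := hs
  change aeval t G = s at hG
  subst hG
  have hfG : ¬ f ∣ G := by
    rintro ⟨G', rfl⟩
    refine hsf (aeval t G') ?_ (by rw [map_mul])
    rw [Algebra.adjoin_singleton_eq_range_aeval]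
    exact ⟨G', rfl⟩
  obtain ⟨b, hb, hbG⟩ := IsLocalization.integerNormalization_spec (nonZeroDivisors O) G
  set G₀ := IsLocalization.integerNormalization (nonZeroDivisors O) G with hG₀
  have hG₀t : aeval t G₀ = algebraMap O L b * aeval t G := by
    have h1 : aeval t (G₀.map (algebraMap O E)) = aeval t G₀ := aeval_map_algebraMap E t G₀
    rw [← h1, hbG, Algebra.smul_def, map_mul, Polynomial.algebraMap_apply, aeval_C,
      ← IsScalarTower.algebraMap_apply]
  -- integrality over `O[t]` after multiplication by a nonzero constant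
  let _ := (ChartInst.inclE O (E := E) t).toAlgebra
  have htower : IsScalarTower (Algebra.adjoin O {t}) (Algebra.adjoin E {t}) L :=
    IsScalarTower.of_algebraMap_eq fun a => (ChartInst.coe_inclE O (E := E) t a).symm
  have hloc := ChartInst.isLocalization_inclE O (E := E) (L := L) t
  obtain ⟨⟨_, c, hc, rfl⟩, hcint⟩ := IsIntegral.exists_multiple_integral_of_isLocalization
    (Algebra.algebraMapSubmonoid (Algebra.adjoin O {t}) (nonZeroDivisors O)) _ hint
  have hcint' : IsIntegral (Algebra.adjoin O {t}) (algebraMap O L c * (aeval t G * z)) := by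
    have h2 : (⟨algebraMap O (Algebra.adjoin O {t}) c, c, hc, rfl⟩ :
        Algebra.algebraMapSubmonoid (Algebra.adjoin O {t}) (nonZeroDivisors O)) •
          (aeval t G * z) = algebraMap O L c * (aeval t G * z) := by
      rw [Submonoid.smul_def, Algebra.smul_def]
      rfl
    rw [← h2]
    exact hcint
  have hbE : algebraMap O E b ≠ 0 := IsFractionRing.to_map_ne_zero_of_mem_nonZeroDivisors hb
  have hcE : algebraMap O E c ≠ 0 := IsFractionRing.to_map_ne_zero_of_mem_nonZeroDivisors hc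
  refine ⟨C c * G₀, ?_, ?_⟩
  · rw [Polynomial.map_mul, map_C, hbG, Algebra.smul_def, Polynomial.algebraMap_apply,
      ← mul_assoc, ← C_mul]
    intro hdvd
    exact hfG ((IsUnit.dvd_mul_left
      (isUnit_C.mpr (IsUnit.mk0 _ (mul_ne_zero hcE hbE)))).mp hdvd)
  · have h3 : aeval t (C c * G₀) * z =
        algebraMap (Algebra.adjoin O {t}) L (algebraMap O (Algebra.adjoin O {t}) b) *
          (algebraMap O L c * (aeval t G * z)) := by
      rw [map_mul, aeval_C, hG₀t, ← IsScalarTower.algebraMap_apply]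
      ring
    rw [h3]
    exact isIntegral_algebraMap.mul hcint'

/-- **The polynomial form of `LocPow`.**  At every irreducible `f ∈ E[X]`, `h` is an `m`-th
power times a unit, with multipliers `g₀(t)`, `g₁(t)`, `g₀, g₁ ∈ O[X]` prime to `f`, and
integrality over `O[t]`. -/
theorem exists_poly_of_locPow (t : L) (m : ℕ) (h : L) (hdiv : LocPow (E := E) m t h) (f : E[X])
    (hf : Irreducible f) :
    ∃ τ : L, τ ≠ 0 ∧ ∃ g₀ g₁ : O[X], ¬ f ∣ g₀.map (algebraMap O E) ∧
      ¬ f ∣ g₁.map (algebraMap O E) ∧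
      IsIntegral (Algebra.adjoin O {t}) (aeval t g₀ * (h / τ ^ m)) ∧
      IsIntegral (Algebra.adjoin O {t}) (aeval t g₁ * (τ ^ m / h)) := by
  obtain ⟨τ, hτ, h0, h1⟩ := hdiv f hf
  obtain ⟨g₀, hg₀, hi₀⟩ := exists_poly_of_isIntegralAt (O := O) t f _ h0
  obtain ⟨g₁, hg₁, hi₁⟩ := exists_poly_of_isIntegralAt (O := O) t f _ h1
  exact ⟨τ, hτ, g₀, g₁, hg₀, hg₁, hi₀, hi₁⟩

end Chart

section Base

variable {O E L : Type*} [CommRing O] [IsDomain O] [IsDiscreteValuationRing O]
  [Field E] [Algebra O E] [IsFractionRing O E]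
  [Field L] [Algebra E L] [Algebra O L] [IsScalarTower O E L]

/-- (a) `O[t]` is noetherian. -/
theorem isNoetherianRing_base (t : L) (ht : Transcendental E t) :
    IsNoetherianRing (Algebra.adjoin O {t}) :=
  ChartInst.isNoetherianRing_adjoin O t (ChartProv.transcendental_base t ht)

/-- (a) `O[t]` is a UFD. -/
theorem uniqueFactorizationMonoid_base (t : L) (ht : Transcendental E t) :
    UniqueFactorizationMonoid (Algebra.adjoin O {t}) :=
  ChartInst.uniqueFactorizationMonoid_adjoin O t (ChartProv.transcendental_base t ht)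

/-- (a) `O[t]` is integrally closed. -/
theorem isIntegrallyClosed_base (t : L) (ht : Transcendental E t) :
    IsIntegrallyClosed (Algebra.adjoin O {t}) :=
  ChartInst.isIntegrallyClosed_adjoin O t (ChartProv.transcendental_base t ht)

/-- (a) `π` is a prime element of `O[t]`. -/
theorem prime_pi (π : O) (hπ : Irreducible π) (t : L) (ht : Transcendental E t) :
    Prime (algebraMap O (Algebra.adjoin O {t}) π) :=
  ChartInst.prime_algebraMap_adjoin O t (ChartProv.transcendental_base t ht) hπ.prime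

/-- (a) `(π)` is a prime ideal of `O[t]`. -/
theorem isPrime_span_pi (π : O) (hπ : Irreducible π) (t : L) (ht : Transcendental E t) :
    (Ideal.span {algebraMap O (Algebra.adjoin O {t}) π}).IsPrime :=
  (Ideal.span_singleton_prime (prime_pi π hπ t ht).ne_zero).mpr (prime_pi π hπ t ht)

/-- (a) `O[t] / π` is a domain. -/
theorem isDomain_quotient (π : O) (hπ : Irreducible π) (t : L) (ht : Transcendental E t) :
    IsDomain (Algebra.adjoin O {t} ⧸ Ideal.span {algebraMap O (Algebra.adjoin O {t}) π}) :=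
  have := isPrime_span_pi π hπ t ht
  Ideal.Quotient.isDomain _

/-- (a) `O[t] / π` is a principal ideal ring. -/
theorem isPrincipalIdealRing_quotient (π : O) (hπ : Irreducible π) (t : L)
    (ht : Transcendental E t) :
    IsPrincipalIdealRing
      (Algebra.adjoin O {t} ⧸ Ideal.span {algebraMap O (Algebra.adjoin O {t}) π}) :=
  have : (Ideal.span {π}).IsMaximal := PrincipalIdealRing.isMaximal_of_irreducible hπ
  ChartInst.isPrincipalIdealRing_quotient_adjoin O t (ChartProv.transcendental_base t ht) π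

/-- (a) The chart ring is a finite `O[t]`-module. -/
theorem finite_chart [CharZero E] (t : L) (ht : Transcendental E t)
    [FiniteDimensional (IntermediateField.adjoin E {t}) L] :
    Module.Finite (Algebra.adjoin O {t}) (integralClosure (Algebra.adjoin O {t}) L) :=
  ChartProv.chart_finite t ht

omit [IsDomain O] [IsDiscreteValuationRing O] [IsFractionRing O E] in
/-- (a) The chart ring is a faithful `O[t]`-algebra. -/
theorem faithfulSMul_chart (t : L) :
    FaithfulSMul (Algebra.adjoin O {t}) (integralClosure (Algebra.adjoin O {t}) L) :=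
  (faithfulSMul_iff_algebraMap_injective _ _).mpr fun _ _ hxy =>
    Subtype.ext (congrArg (fun z : integralClosure (Algebra.adjoin O {t}) L => (z : L)) hxy)

omit [IsDomain O] [IsDiscreteValuationRing O] [IsFractionRing O E] in
/-- (a) The chart ring is integrally closed. -/
theorem isIntegrallyClosed_chart (t : L) :
    IsIntegrallyClosed (integralClosure (Algebra.adjoin O {t}) L) :=
  isIntegrallyClosed_integralClosure

end Base

section Witness

variable {O E L : Type*} [CommRing O] [IsDomain O] [IsDiscreteValuationRing O]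
  [Field E] [Algebra O E] [IsFractionRing O E]
  [Field L] [Algebra E L] [Algebra O L] [IsScalarTower O E L]

/-- **(b) The witness adapter, prime-ideal form.**  `m ∣ div h` on the chart `t` gives, for
every prime ideal `𝔮` of `O[t]` not containing `π`, an element `τ ≠ 0` and multipliers
`s₀, s₁ ∈ O[t] ∖ 𝔮` such that `s₀ * (h / τ ^ m)` and `s₁ * (τ ^ m / h)` are integral over
`O[t]`. -/
theorem exists_of_locPow (π : O) (hπ : Irreducible π) (t : L) (ht : Transcendental E t) (m : ℕ)
    (h : L) (hdiv : LocPow (E := E) m t h) (𝔮 : Ideal (Algebra.adjoin O {t})) (h𝔮 : 𝔮.IsPrime)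
    (hπ𝔮 : algebraMap O (Algebra.adjoin O {t}) π ∉ 𝔮) :
    ∃ τ : L, τ ≠ 0 ∧ ∃ s₀ s₁ : Algebra.adjoin O {t}, s₀ ∉ 𝔮 ∧ s₁ ∉ 𝔮 ∧
      IsIntegral (Algebra.adjoin O {t}) ((s₀ : L) * (h / τ ^ m)) ∧
      IsIntegral (Algebra.adjoin O {t}) ((s₁ : L) * (τ ^ m / h)) := by
  have htO : Transcendental O t := ChartProv.transcendental_base t ht
  let 𝔔 : Ideal O[X] := 𝔮.comap (ChartInst.polyEquiv O t htO : O[X] →+* Algebra.adjoin O {t})
  have h𝔔 : 𝔔.IsPrime := Ideal.comap_isPrime _ 𝔮
  have hmem : ∀ g : O[X], g ∈ 𝔔 ↔ ChartInst.polyEquiv O t htO g ∈ 𝔮 := fun g => Iff.rfl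
  have hπ𝔔 : C π ∉ 𝔔 := by
    rw [hmem, ChartInst.polyEquiv_C]
    exact hπ𝔮
  obtain ⟨f, hf, hfdvd⟩ := exists_irreducible_of_prime (E := E) hπ 𝔔 hπ𝔔
  obtain ⟨τ, hτ, g₀, g₁, hg₀, hg₁, hi₀, hi₁⟩ := exists_poly_of_locPow (O := O) t m h hdiv f hf
  refine ⟨τ, hτ, ChartInst.polyEquiv O t htO g₀, ChartInst.polyEquiv O t htO g₁,
    fun hm₀ => hg₀ (hfdvd g₀ ((hmem g₀).mpr hm₀)), fun hm₁ => hg₁ (hfdvd g₁ ((hmem g₁).mpr hm₁)),
    ?_, ?_⟩
  · rw [ChartInst.coe_polyEquiv]
    exact hi₀
  · rw [ChartInst.coe_polyEquiv]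
    exact hi₁

/-- **(c) The witness interface `hwit`, prime-ideal form.**  For `h = b' / b` with `b, b'` in
the chart ring `B` and `m ∣ div h` on the chart: for every prime ideal `𝔮` of `O[t]` not
containing `π` there are `x ∈ A = rootIdeal (b * b' ^ (m - 1)) m`,
`x' ∈ A' = rootIdeal (b ^ (m - 1) * b') m` and `s ∈ O[t] ∖ 𝔮` with `x * x' = b * b' * s`. -/
theorem exists_rootIdeal_of_locPow (π : O) (hπ : Irreducible π) (t : L) (ht : Transcendental E t)
    (m : ℕ) (hm : m ≠ 0) (h : L) (hdiv : LocPow (E := E) m t h)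
    (b b' : integralClosure (Algebra.adjoin O {t}) L) (hh : h * (b : L) = (b' : L))
    (𝔮 : Ideal (Algebra.adjoin O {t})) (h𝔮 : 𝔮.IsPrime)
    (hπ𝔮 : algebraMap O (Algebra.adjoin O {t}) π ∉ 𝔮) :
    ∃ x ∈ rootIdeal (b * b' ^ (m - 1)) m, ∃ x' ∈ rootIdeal (b ^ (m - 1) * b') m,
      ∃ s : Algebra.adjoin O {t}, s ∉ 𝔮 ∧
        x * x' = b * b' *
          algebraMap (Algebra.adjoin O {t}) (integralClosure (Algebra.adjoin O {t}) L) s := by
  by_cases hb'0 : b' = 0
  · refine ⟨0, Ideal.zero_mem _, 0, Ideal.zero_mem _, 1, ?_, ?_⟩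
    · exact fun h1 => h𝔮.ne_top ((Ideal.eq_top_iff_one _).mpr h1)
    · rw [hb'0]
      simp
  have hb'L : (b' : L) ≠ 0 := fun h0 => hb'0 (Subtype.ext h0)
  have hh0 : h ≠ 0 := by
    rintro rfl
    rw [zero_mul] at hh
    exact hb'L hh.symm
  have hbL : (b : L) ≠ 0 := by
    intro h0
    rw [h0, mul_zero] at hh
    exact hb'L hh.symm
  obtain ⟨τ, hτ, s₀, s₁, hs₀, hs₁, hi₀, hi₁⟩ := exists_of_locPow π hπ t ht m h hdiv 𝔮 h𝔮 hπ𝔮
  obtain ⟨k, rfl⟩ := Nat.exists_eq_succ_of_ne_zero hm
  rw [Nat.succ_sub_one]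
  have hs₀i : IsIntegral (Algebra.adjoin O {t}) (s₀ : L) := isIntegral_algebraMap (x := s₀)
  have hs₁i : IsIntegral (Algebra.adjoin O {t}) (s₁ : L) := isIntegral_algebraMap (x := s₁)
  -- the two cofactors
  have hw : IsIntegral (Algebra.adjoin O {t}) ((s₀ : L) ^ k * ((s₀ : L) * (h / τ ^ (k + 1)))) :=
    (hs₀i.pow k).mul hi₀
  have hw' : IsIntegral (Algebra.adjoin O {t}) ((s₁ : L) ^ k * ((s₁ : L) * (τ ^ (k + 1) / h))) :=
    (hs₁i.pow k).mul hi₁
  have hx : ((b' : L) * (s₀ : L) / τ) ^ (k + 1) =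
      ((b : L) * (b' : L) ^ k) * ((s₀ : L) ^ k * ((s₀ : L) * (h / τ ^ (k + 1)))) := by
    rw [← hh, div_pow]
    field_simp
    ring
  have hx' : ((b : L) * (s₁ : L) * τ) ^ (k + 1) =
      ((b : L) ^ k * (b' : L)) * ((s₁ : L) ^ k * ((s₁ : L) * (τ ^ (k + 1) / h))) := by
    rw [← hh]
    field_simp
    ring
  have hxi : IsIntegral (Algebra.adjoin O {t}) ((b' : L) * (s₀ : L) / τ) := by
    refine IsIntegral.of_pow (Nat.succ_pos k) ?_
    rw [hx]
    exact (b.2.mul (b'.2.pow k)).mul hw
  have hx'i : IsIntegral (Algebra.adjoin O {t}) ((b : L) * (s₁ : L) * τ) := by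
    refine IsIntegral.of_pow (Nat.succ_pos k) ?_
    rw [hx']
    exact ((b.2.pow k).mul b'.2).mul hw'
  refine ⟨⟨_, hxi⟩, mem_rootIdeal_of_dvd ⟨⟨_, hw⟩, Subtype.ext ?_⟩,
    ⟨_, hx'i⟩, mem_rootIdeal_of_dvd ⟨⟨_, hw'⟩, Subtype.ext ?_⟩, s₀ * s₁,
    fun hmem => (h𝔮.mem_or_mem hmem).elim hs₀ hs₁, Subtype.ext ?_⟩
  · simpa using hx
  · simpa using hx'
  · change (b' : L) * (s₀ : L) / τ * ((b : L) * (s₁ : L) * τ) =
      (b : L) * (b' : L) * ((s₀ : L) * (s₁ : L))
    field_simp

/-- **(c') The witness interface, prime-element form (`hcodim`).** -/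
theorem exists_rootIdeal_of_locPow_of_prime_elt (π : O) (hπ : Irreducible π) (t : L)
    (ht : Transcendental E t) (m : ℕ) (hm : m ≠ 0) (h : L) (hdiv : LocPow (E := E) m t h)
    (b b' : integralClosure (Algebra.adjoin O {t}) L) (hh : h * (b : L) = (b' : L))
    (q : Algebra.adjoin O {t}) (hq : Prime q)
    (hqπ : ¬ Associated q (algebraMap O (Algebra.adjoin O {t}) π)) :
    ∃ x ∈ rootIdeal (b * b' ^ (m - 1)) m, ∃ x' ∈ rootIdeal (b ^ (m - 1) * b') m,
      ∃ s : Algebra.adjoin O {t}, ¬ q ∣ s ∧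
        x * x' = b * b' *
          algebraMap (Algebra.adjoin O {t}) (integralClosure (Algebra.adjoin O {t}) L) s := by
  have hprime : (Ideal.span {q}).IsPrime := (Ideal.span_singleton_prime hq.ne_zero).mpr hq
  have hπq : algebraMap O (Algebra.adjoin O {t}) π ∉ Ideal.span {q} := by
    rw [Ideal.mem_span_singleton]
    intro hdvd
    exact hqπ (hq.irreducible.associated_of_dvd (prime_pi π hπ t ht).irreducible hdvd)
  obtain ⟨x, hx, x', hx', s, hs, hxx'⟩ :=
    exists_rootIdeal_of_locPow π hπ t ht m hm h hdiv b b' hh _ hprime hπq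
  exact ⟨x, hx, x', hx', s, fun hdvd => hs (Ideal.mem_span_singleton.mpr hdvd), hxx'⟩

/-- **(c'') The witness at a prime of the chart.**  For every prime ideal `M` of the chart ring
`B` not containing `π` (in particular every maximal ideal of the generic fibre) there are
`x ∈ A`, `x' ∈ A'` and `y ∉ M` with `x * x' = b * b' * y`. -/
theorem exists_rootIdeal_of_locPow_chart (π : O) (hπ : Irreducible π) (t : L)
    (ht : Transcendental E t) (m : ℕ) (hm : m ≠ 0) (h : L) (hdiv : LocPow (E := E) m t h)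
    (b b' : integralClosure (Algebra.adjoin O {t}) L) (hh : h * (b : L) = (b' : L))
    (M : Ideal (integralClosure (Algebra.adjoin O {t}) L)) (hM : M.IsPrime)
    (hπM : algebraMap (Algebra.adjoin O {t}) (integralClosure (Algebra.adjoin O {t}) L)
      (algebraMap O (Algebra.adjoin O {t}) π) ∉ M) :
    ∃ x ∈ rootIdeal (b * b' ^ (m - 1)) m, ∃ x' ∈ rootIdeal (b ^ (m - 1) * b') m,
      ∃ y : integralClosure (Algebra.adjoin O {t}) L, y ∉ M ∧ x * x' = b * b' * y := by
  have hprime : (M.comap (algebraMap (Algebra.adjoin O {t})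
      (integralClosure (Algebra.adjoin O {t}) L))).IsPrime := Ideal.comap_isPrime _ M
  obtain ⟨x, hx, x', hx', s, hs, hxx'⟩ :=
    exists_rootIdeal_of_locPow π hπ t ht m hm h hdiv b b' hh _ hprime hπM
  exact ⟨x, hx, x', hx', _, hs, hxx'⟩

end Witness

end Fermat.Agent.S34.CartPair.Witness
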